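import Mathlib

/-!
# Low degree cohomology with cochains constant on a family of levels

`Levels G` is a directed family of normal subgroups of finite index; cochains are required to be
constant on the cosets of one of them.  This is continuous cohomology of a profinite group in
degrees at most `2`, in a form convenient for Galois groups with restricted ramification.
-/

set_option autoImplicit false

noncomputable section

namespace Fermat.CFT.Coh

/-- A directed family of normal subgroups of finite index. -/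
structure Levels (G : Type) [Group G] where
  /-- The subgroups which are levels. -/
  IsLevel : Subgroup G → Prop
  /-- Some level exists. -/
  exists_level : ∃ N, IsLevel N
  /-- Levels are normal. -/
  normal : ∀ N, IsLevel N → N.Normal
  /-- Levels have finite index. -/
  finiteIndex : ∀ N, IsLevel N → N.FiniteIndex
  /-- Any two levels contain a third. -/
  exists_le : ∀ N N', IsLevel N → IsLevel N' → ∃ N'', IsLevel N'' ∧ N'' ≤ N ∧ N'' ≤ N'

variable {G G' G'' : Type} [Group G] [Group G'] [Group G'']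

namespace Levels

variable (L : Levels G)

/-- A level is stable under conjugation. -/
lemma conj_mem {N : Subgroup G} (hN : L.IsLevel N) {s : G} (hs : s ∈ N) (g : G) :
    g⁻¹ * s * g ∈ N := by
  simpa using (L.normal N hN).conj_mem s hs g⁻¹

/-- The levels of a group mapping to `G`. -/
def comap (f : G' →* G) : Levels G' where
  IsLevel N := ∃ N', L.IsLevel N' ∧ N = N'.comap f
  exists_level := let ⟨N, hN⟩ := L.exists_level; ⟨_, N, hN, rfl⟩
  normal := by
    rintro _ ⟨N, hN, rfl⟩
    exact (L.normal N hN).comap f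
  finiteIndex := by
    rintro _ ⟨N, hN, rfl⟩
    have := L.finiteIndex N hN
    refine ⟨?_⟩
    rw [Subgroup.index_comap]
    intro h
    have := L.normal N hN
    have hd := Subgroup.relIndex_dvd_index_of_normal N f.range
    rw [h, zero_dvd_iff] at hd
    exact Subgroup.FiniteIndex.index_ne_zero hd
  exists_le := by
    rintro _ _ ⟨N, hN, rfl⟩ ⟨N', hN', rfl⟩
    obtain ⟨N'', h, h1, h2⟩ := L.exists_le N N' hN hN'
    exact ⟨_, ⟨N'', h, rfl⟩, Subgroup.comap_mono h1, Subgroup.comap_mono h2⟩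

/-- Constant on right cosets of a level. -/
def IsLC₁ {X : Type*} (f : G → X) : Prop :=
  ∃ N, L.IsLevel N ∧ ∀ g, ∀ s ∈ N, f (g * s) = f g

/-- Constant on right cosets of a level, in both variables. -/
def IsLC₂ {X : Type*} (f : G → G → X) : Prop :=
  ∃ N, L.IsLevel N ∧ ∀ g h, ∀ s ∈ N, ∀ t ∈ N, f (g * s) (h * t) = f g h

variable {L}

/-- A constant function is constant on the cosets of a level. -/
lemma IsLC₁.const {X : Type*} (x : X) : L.IsLC₁ fun _ : G => x :=
  let ⟨N, hN⟩ := L.exists_level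
  ⟨N, hN, fun _ _ _ => rfl⟩

/-- A constant function of two variables is constant on the cosets of a level. -/
lemma IsLC₂.const {X : Type*} (x : X) : L.IsLC₂ fun _ _ : G => x :=
  let ⟨N, hN⟩ := L.exists_level
  ⟨N, hN, fun _ _ _ _ _ _ => rfl⟩

/-- Composing with any map preserves level constancy. -/
lemma IsLC₁.comp {X Y : Type*} {f : G → X} (hf : L.IsLC₁ f) (u : X → Y) :
    L.IsLC₁ fun g => u (f g) :=
  let ⟨N, hN, h⟩ := hf
  ⟨N, hN, fun g s hs => congrArg u (h g s hs)⟩

/-- Composing with any map preserves level constancy in two variables. -/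
lemma IsLC₂.comp {X Y : Type*} {f : G → G → X} (hf : L.IsLC₂ f) (u : X → Y) :
    L.IsLC₂ fun g h => u (f g h) :=
  let ⟨N, hN, h⟩ := hf
  ⟨N, hN, fun g g' s hs t ht => congrArg u (h g g' s hs t ht)⟩

/-- Two level-constant functions combine to a level-constant one. -/
lemma IsLC₁.map₂ {X Y Z : Type*} {f : G → X} {f' : G → Y} (hf : L.IsLC₁ f) (hf' : L.IsLC₁ f')
    (u : X → Y → Z) : L.IsLC₁ fun g => u (f g) (f' g) := by
  obtain ⟨N, hN, h⟩ := hf
  obtain ⟨N', hN', h'⟩ := hf'
  obtain ⟨N'', hN'', h1, h2⟩ := L.exists_le N N' hN hN'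
  exact ⟨N'', hN'', fun g s hs => by
    simp only
    rw [h g s (h1 hs), h' g s (h2 hs)]⟩

/-- Two level-constant functions of two variables combine to a level-constant one. -/
lemma IsLC₂.map₂ {X Y Z : Type*} {f : G → G → X} {f' : G → G → Y} (hf : L.IsLC₂ f)
    (hf' : L.IsLC₂ f') (u : X → Y → Z) : L.IsLC₂ fun g h => u (f g h) (f' g h) := by
  obtain ⟨N, hN, h⟩ := hf
  obtain ⟨N', hN', h'⟩ := hf'
  obtain ⟨N'', hN'', h1, h2⟩ := L.exists_le N N' hN hN'
  exact ⟨N'', hN'', fun g g' s hs t ht => by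
    simp only
    rw [h g g' s (h1 hs) t (h1 ht), h' g g' s (h2 hs) t (h2 ht)]⟩

/-- A level-constant function takes only finitely many values. -/
lemma IsLC₁.finite_range {X : Type*} {f : G → X} (hf : L.IsLC₁ f) : (Set.range f).Finite := by
  obtain ⟨N, hN, h⟩ := hf
  have := L.finiteIndex N hN
  refine (Set.finite_range fun q : G ⧸ N => f q.out).subset ?_
  rintro _ ⟨g, rfl⟩
  obtain ⟨⟨s, hs⟩, e⟩ := QuotientGroup.mk_out_eq_mul N g
  exact ⟨(g : G ⧸ N), by simp only [e, h g s hs]⟩

end Levels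

/-- A homomorphism compatible with levels. -/
def IsLevelsHom (L : Levels G) (L' : Levels G') (f : G' →* G) : Prop :=
  ∀ N, L.IsLevel N → ∃ N', L'.IsLevel N' ∧ N' ≤ N.comap f

/-- The identity is compatible with the levels. -/
lemma IsLevelsHom.id (L : Levels G) : IsLevelsHom L L (MonoidHom.id G) :=
  fun N hN => ⟨N, hN, by simp⟩

/-- A homomorphism is compatible with the levels pulled back along it. -/
lemma IsLevelsHom.comap (L : Levels G) (f : G' →* G) : IsLevelsHom L (L.comap f) f :=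
  fun N hN => ⟨_, ⟨N, hN, rfl⟩, le_rfl⟩

/-- Compatibility with levels is stable under composition. -/
lemma IsLevelsHom.comp {L : Levels G} {L' : Levels G'} {L'' : Levels G''} {f : G' →* G}
    {f' : G'' →* G'} (hf : IsLevelsHom L L' f) (hf' : IsLevelsHom L' L'' f') :
    IsLevelsHom L L'' (f.comp f') := by
  intro N hN
  obtain ⟨N', hN', h⟩ := hf N hN
  obtain ⟨N'', hN'', h'⟩ := hf' N' hN'
  exact ⟨N'', hN'', h'.trans ((Subgroup.comap_mono h).trans (by rw [Subgroup.comap_comap]))⟩

/-- Precomposing with a compatible homomorphism preserves level constancy. -/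
lemma IsLevelsHom.isLC₁ {L : Levels G} {L' : Levels G'} {f : G' →* G} (hf : IsLevelsHom L L' f)
    {X : Type*} {x : G → X} (hx : L.IsLC₁ x) : L'.IsLC₁ fun g => x (f g) := by
  obtain ⟨N, hN, h⟩ := hx
  obtain ⟨N', hN', h'⟩ := hf N hN
  exact ⟨N', hN', fun g s hs => by
    simp only
    rw [map_mul, h _ _ (h' hs)]⟩

/-- Precomposing both variables with a compatible homomorphism preserves level constancy. -/
lemma IsLevelsHom.isLC₂ {L : Levels G} {L' : Levels G'} {f : G' →* G} (hf : IsLevelsHom L L' f)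
    {X : Type*} {x : G → G → X} (hx : L.IsLC₂ x) : L'.IsLC₂ fun g h => x (f g) (f h) := by
  obtain ⟨N, hN, h⟩ := hx
  obtain ⟨N', hN', h'⟩ := hf N hN
  exact ⟨N', hN', fun g g' s hs t ht => by
    simp only
    rw [map_mul, map_mul, h _ _ _ (h' hs) _ (h' ht)]⟩

variable {R : Type} [CommRing R] {M M' M'' : Type} [AddCommGroup M] [Module R M] [AddCommGroup M']
  [Module R M'] [AddCommGroup M''] [Module R M'']

/-- Every element is fixed by a level. -/
def IsSmooth (L : Levels G) (ρ : Representation R G M) : Prop :=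
  ∀ m, ∃ N, L.IsLevel N ∧ ∀ s ∈ N, ρ s m = m

/-- A finite set in a smooth module is fixed by one level. -/
lemma IsSmooth.exists_fix {L : Levels G} {ρ : Representation R G M} (h : IsSmooth L ρ)
    {s : Set M} (hs : s.Finite) : ∃ N, L.IsLevel N ∧ ∀ g ∈ N, ∀ m ∈ s, ρ g m = m := by
  induction s, hs using Set.Finite.induction_on with
  | empty => exact L.exists_level.imp fun N hN => ⟨hN, by simp⟩
  | @insert a s _ _ ih =>
    obtain ⟨N, hN, hN1⟩ := ih
    obtain ⟨N', hN', hN'1⟩ := h a
    obtain ⟨N'', hN'', h1, h2⟩ := L.exists_le N N' hN hN'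
    refine ⟨N'', hN'', fun g hg m hm => ?_⟩
    rcases hm with rfl | hm
    · exact hN'1 g (h2 hg)
    · exact hN1 g (h1 hg) m hm

/-- A smooth module stays smooth along a compatible homomorphism. -/
lemma IsSmooth.comp {L : Levels G} {L' : Levels G'} {f : G' →* G} (hf : IsLevelsHom L L' f)
    {ρ : Representation R G M} (h : IsSmooth L ρ) : IsSmooth L' (ρ.comp f) := by
  intro m
  obtain ⟨N, hN, h1⟩ := h m
  obtain ⟨N', hN', h2⟩ := hf N hN
  exact ⟨N', hN', fun s hs => h1 _ (h2 hs)⟩

/-- The trivial representation is smooth. -/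
lemma isSmooth_trivial (L : Levels G) : IsSmooth L (Representation.trivial R G M) := fun _ =>
  let ⟨N, hN⟩ := L.exists_level
  ⟨N, hN, fun _ _ => rfl⟩

/-! ### Cochains -/

section Differentials

variable (ρ : Representation R G M)

/-- The differential in degree `0`. -/
def d₀ : M →ₗ[R] G → M where
  toFun m g := ρ g m - m
  map_add' m m' := funext fun g => by simp only [map_add, Pi.add_apply]; abel
  map_smul' c m := funext fun g => by simp [smul_sub]

/-- The differential in degree `1`. -/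
def d₁ : (G → M) →ₗ[R] G → G → M where
  toFun f g h := ρ g (f h) - f (g * h) + f g
  map_add' f f' := funext₂ fun g h => by simp only [map_add, Pi.add_apply]; abel
  map_smul' c f := funext₂ fun g h => by simp [smul_sub]

/-- The differential in degree `2`. -/
def d₂ : (G → G → M) →ₗ[R] G → G → G → M where
  toFun f g h j := ρ g (f h j) - f (g * h) j + f g (h * j) - f g h
  map_add' f f' := funext₃ fun g h j => by simp only [map_add, Pi.add_apply]; abel
  map_smul' c f := funext₃ fun g h j => by simp [smul_sub, smul_add]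

/-- The differential of an element at `g`. -/
@[simp] lemma d₀_apply (m : M) (g : G) : d₀ ρ m g = ρ g m - m := rfl

/-- The differential of a `1`-cochain at `(g, h)`. -/
@[simp] lemma d₁_apply (f : G → M) (g h : G) : d₁ ρ f g h = ρ g (f h) - f (g * h) + f g := rfl

/-- The differential of a `2`-cochain at `(g, h, j)`. -/
@[simp] lemma d₂_apply (f : G → G → M) (g h j : G) :
    d₂ ρ f g h j = ρ g (f h j) - f (g * h) j + f g (h * j) - f g h := rfl

/-- `d₁ ∘ d₀ = 0`. -/
lemma d₁_d₀ (m : M) : d₁ ρ (d₀ ρ m) = 0 := by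
  funext g h
  simp only [d₁_apply, d₀_apply, map_sub, map_mul, Module.End.mul_apply, Pi.zero_apply]
  abel

/-- `d₂ ∘ d₁ = 0`. -/
lemma d₂_d₁ (f : G → M) : d₂ ρ (d₁ ρ f) = 0 := by
  funext g h j
  simp only [d₂_apply, d₁_apply, map_sub, map_add, map_mul, Module.End.mul_apply, Pi.zero_apply,
    mul_assoc]
  abel

variable {ρ} {L : Levels G}

/-- Coboundaries of elements of a smooth module are level-constant. -/
lemma isLC₁_d₀ (h : IsSmooth L ρ) (m : M) : L.IsLC₁ (d₀ ρ m) := by
  obtain ⟨N, hN, h1⟩ := h m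
  exact ⟨N, hN, fun g s hs => by simp [h1 s hs]⟩

/-- The differential of a level-constant `1`-cochain in a smooth module is level-constant. -/
lemma isLC₂_d₁ (hρ : IsSmooth L ρ) {f : G → M} (hf : L.IsLC₁ f) : L.IsLC₂ (d₁ ρ f) := by
  obtain ⟨N, hN, h1⟩ := hρ.exists_fix hf.finite_range
  obtain ⟨N', hN', h2⟩ := hf
  obtain ⟨N'', hN'', i1, i2⟩ := L.exists_le N N' hN hN'
  refine ⟨N'', hN'', fun g h s hs t ht => ?_⟩
  have e : g * s * (h * t) = g * h * (h⁻¹ * s * h * t) := by group
  simp only [d₁_apply, e, h2 _ _ (i2 ht), h2 _ _ (i2 hs),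
    h2 _ _ (mul_mem (i2 (L.conj_mem hN'' hs h)) (i2 ht)), map_mul, Module.End.mul_apply,
    h1 s (i1 hs) _ ⟨h, rfl⟩]

end Differentials

/-! ### Cocycles and cohomology -/

section Cohomology

variable (L : Levels G) (ρ : Representation R G M)

/-- Level-constant `1`-cocycles. -/
def Z1 : Submodule R (G → M) where
  carrier := {f | L.IsLC₁ f ∧ d₁ ρ f = 0}
  add_mem' {f f'} hf hf' := ⟨hf.1.map₂ hf'.1 (· + ·), by rw [map_add, hf.2, hf'.2, add_zero]⟩
  zero_mem' := ⟨Levels.IsLC₁.const 0, map_zero _⟩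
  smul_mem' c f hf := ⟨hf.1.comp (c • ·), by rw [map_smul, hf.2, smul_zero]⟩

/-- Level-constant `1`-cochains. -/
def C1 : Submodule R (G → M) where
  carrier := {f | L.IsLC₁ f}
  add_mem' {_ _} hf hf' := hf.map₂ hf' (· + ·)
  zero_mem' := Levels.IsLC₁.const 0
  smul_mem' c _ hf := hf.comp (c • ·)

/-- Level-constant `2`-cocycles. -/
def Z2 : Submodule R (G → G → M) where
  carrier := {f | L.IsLC₂ f ∧ d₂ ρ f = 0}
  add_mem' {f f'} hf hf' := ⟨hf.1.map₂ hf'.1 (· + ·), by rw [map_add, hf.2, hf'.2, add_zero]⟩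
  zero_mem' := ⟨Levels.IsLC₂.const 0, map_zero _⟩
  smul_mem' c f hf := ⟨hf.1.comp (c • ·), by rw [map_smul, hf.2, smul_zero]⟩

variable {L ρ}

/-- Membership in the level-constant `1`-cocycles. -/
lemma mem_Z1 {f : G → M} : f ∈ Z1 L ρ ↔ L.IsLC₁ f ∧ d₁ ρ f = 0 := Iff.rfl

/-- The cocycle identity in degree one. -/
lemma cocycle₁ {f : G → M} (hf : f ∈ Z1 L ρ) (g h : G) : f (g * h) = ρ g (f h) + f g := by
  have := congrFun (congrFun hf.2 g) h
  rw [d₁_apply, Pi.zero_apply, Pi.zero_apply, ← eq_neg_iff_add_eq_zero, sub_eq_iff_eq_add] at this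
  rw [this]; abel

/-- A `1`-cocycle vanishes at `1`. -/
lemma Z1_one {f : G → M} (hf : f ∈ Z1 L ρ) : f 1 = 0 := by
  have := cocycle₁ hf 1 1
  simpa using this

/-- The value of a `1`-cocycle at an inverse. -/
lemma Z1_inv {f : G → M} (hf : f ∈ Z1 L ρ) (g : G) : f g⁻¹ = -ρ g⁻¹ (f g) := by
  have := cocycle₁ hf g⁻¹ g
  rw [inv_mul_cancel, Z1_one hf] at this
  exact eq_neg_of_add_eq_zero_right this.symm

variable (L ρ)

/-- Continuous cohomology in degree `1`. -/
abbrev H1 : Type := ↥(Z1 L ρ) ⧸ (LinearMap.range (d₀ ρ)).comap (Z1 L ρ).subtype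

/-- Continuous cohomology in degree `2`. -/
abbrev H2 : Type := ↥(Z2 L ρ) ⧸ ((C1 L).map (d₁ ρ)).comap (Z2 L ρ).subtype

/-- The class of a `1`-cocycle. -/
def cl₁ : ↥(Z1 L ρ) →ₗ[R] H1 L ρ := Submodule.mkQ _

/-- The class of a `2`-cocycle. -/
def cl₂ : ↥(Z2 L ρ) →ₗ[R] H2 L ρ := Submodule.mkQ _

variable {L ρ}

/-- Every class of degree one is the class of a cocycle. -/
lemma cl₁_surjective : Function.Surjective (cl₁ L ρ) := Submodule.mkQ_surjective _

/-- Every class of degree two is the class of a cocycle. -/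
lemma cl₂_surjective : Function.Surjective (cl₂ L ρ) := Submodule.mkQ_surjective _

/-- A class of degree one vanishes exactly when the cocycle is `d₀` of an element. -/
lemma cl₁_eq_zero {f : Z1 L ρ} : cl₁ L ρ f = 0 ↔ ∃ m : M, d₀ ρ m = f.1 := by
  rw [cl₁, Submodule.mkQ_apply, Submodule.Quotient.mk_eq_zero]
  rfl

/-- A class of degree two vanishes exactly when the cocycle is `d₁` of a level-constant cochain. -/
lemma cl₂_eq_zero {f : Z2 L ρ} : cl₂ L ρ f = 0 ↔ ∃ x : G → M, L.IsLC₁ x ∧ d₁ ρ x = f.1 := by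
  rw [cl₂, Submodule.mkQ_apply, Submodule.Quotient.mk_eq_zero]
  rfl

/-- Two classes of degree one agree exactly when the cocycles differ by a `d₀`. -/
lemma cl₁_eq_iff {f f' : Z1 L ρ} : cl₁ L ρ f = cl₁ L ρ f' ↔ ∃ m : M, d₀ ρ m = f.1 - f'.1 := by
  rw [← sub_eq_zero, ← map_sub, cl₁_eq_zero]
  rfl

/-- Two classes of degree two agree exactly when the cocycles differ by a level-constant `d₁`. -/
lemma cl₂_eq_iff {f f' : Z2 L ρ} :
    cl₂ L ρ f = cl₂ L ρ f' ↔ ∃ x : G → M, L.IsLC₁ x ∧ d₁ ρ x = f.1 - f'.1 := by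
  rw [← sub_eq_zero, ← map_sub, cl₂_eq_zero]
  rfl

end Cohomology

/-! ### Functoriality -/

section Functoriality

/-- An equivariant map along a homomorphism of groups. -/
def IsEquivariant (ρ : Representation R G M) (ρ' : Representation R G' M') (f : G' →* G)
    (φ : M →ₗ[R] M') : Prop :=
  ∀ g m, φ (ρ (f g) m) = ρ' g (φ m)

variable {L : Levels G} {L' : Levels G'} {ρ : Representation R G M}
  {ρ' : Representation R G' M'} {f : G' →* G} {φ : M →ₗ[R] M'}

/-- An equivariant map commutes with `d₀`. -/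
lemma IsEquivariant.d₀ (h : IsEquivariant ρ ρ' f φ) (m : M) :
    (fun g => φ (Coh.d₀ ρ m (f g))) = Coh.d₀ ρ' (φ m) := by
  funext g; simp [h g]

/-- An equivariant map commutes with `d₁`. -/
lemma IsEquivariant.d₁ (h : IsEquivariant ρ ρ' f φ) (x : G → M) :
    (fun g g' => φ (Coh.d₁ ρ x (f g) (f g'))) = Coh.d₁ ρ' (fun g => φ (x (f g))) := by
  funext g g'; simp [h g]

/-- An equivariant map commutes with `d₂`. -/
lemma IsEquivariant.d₂ (h : IsEquivariant ρ ρ' f φ) (x : G → G → M) :
    (fun a b c => φ (Coh.d₂ ρ x (f a) (f b) (f c))) =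
      Coh.d₂ ρ' (fun a b => φ (x (f a) (f b))) := by
  funext a b c; simp [h a]

variable (hf : IsLevelsHom L L' f) (hφ : IsEquivariant ρ ρ' f φ)

/-- The map on `1`-cocycles. -/
def mapZ1 : Z1 L ρ →ₗ[R] Z1 L' ρ' where
  toFun x := ⟨fun g => φ (x.1 (f g)), (hf.isLC₁ x.2.1).comp φ, by
    rw [← hφ.d₁, x.2.2]; funext a b; simp⟩
  map_add' x y := Subtype.ext (funext fun g => map_add φ _ _)
  map_smul' c x := Subtype.ext (funext fun g => map_smul φ c _)

/-- The map on `2`-cocycles. -/
def mapZ2 : Z2 L ρ →ₗ[R] Z2 L' ρ' where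
  toFun x := ⟨fun g h => φ (x.1 (f g) (f h)), (hf.isLC₂ x.2.1).comp φ, by
    rw [← hφ.d₂, x.2.2]; funext a b c; simp⟩
  map_add' x y := Subtype.ext (funext₂ fun g h => map_add φ _ _)
  map_smul' c x := Subtype.ext (funext₂ fun g h => map_smul φ c _)

/-- The values of the image of a `1`-cocycle. -/
@[simp] lemma mapZ1_apply (x : Z1 L ρ) (g : G') : (mapZ1 hf hφ x).1 g = φ (x.1 (f g)) := rfl

/-- The values of the image of a `2`-cocycle. -/
@[simp] lemma mapZ2_apply (x : Z2 L ρ) (g h : G') :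
    (mapZ2 hf hφ x).1 g h = φ (x.1 (f g) (f h)) := rfl

/-- The map on `H¹`. -/
def map₁ : H1 L ρ →ₗ[R] H1 L' ρ' :=
  Submodule.mapQ _ _ (mapZ1 hf hφ) (by
    rintro x ⟨m, hm⟩
    exact ⟨φ m, by rw [← hφ.d₀, hm]; rfl⟩)

/-- The map on `H²`. -/
def map₂ : H2 L ρ →ₗ[R] H2 L' ρ' :=
  Submodule.mapQ _ _ (mapZ2 hf hφ) (by
    rintro x ⟨y, hy, hx⟩
    exact ⟨fun g => φ (y (f g)), (hf.isLC₁ hy).comp φ, by rw [← hφ.d₁, hx]; rfl⟩)

/-- The map on `H¹` of the class of a cocycle. -/
@[simp] lemma map₁_cl₁ (x : Z1 L ρ) : map₁ hf hφ (cl₁ L ρ x) = cl₁ L' ρ' (mapZ1 hf hφ x) := rfl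

/-- The map on `H²` of the class of a cocycle. -/
@[simp] lemma map₂_cl₂ (x : Z2 L ρ) : map₂ hf hφ (cl₂ L ρ x) = cl₂ L' ρ' (mapZ2 hf hφ x) := rfl

end Functoriality

/-! ### The invariants -/

section Invariants

variable {ρ : Representation R G M} {ρ' : Representation R G' M'} {f : G' →* G} {φ : M →ₗ[R] M'}

/-- The invariants: cohomology in degree `0`. -/
abbrev H0 (ρ : Representation R G M) : Type := ↥(LinearMap.ker (d₀ ρ))

/-- The kernel of `d₀` consists of the fixed vectors. -/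
lemma mem_ker_d₀ {m : M} : m ∈ LinearMap.ker (d₀ ρ) ↔ ∀ g, ρ g m = m := by
  rw [LinearMap.mem_ker, funext_iff]
  exact forall_congr' fun g => sub_eq_zero

/-- An invariant is fixed by every element. -/
lemma H0_fixed (m : H0 ρ) (g : G) : ρ g m.1 = m.1 := mem_ker_d₀.mp m.2 g

variable (hφ : IsEquivariant ρ ρ' f φ)

/-- The map on invariants. -/
def map₀ : H0 ρ →ₗ[R] H0 ρ' :=
  φ.restrict fun m hm => mem_ker_d₀.mpr fun g => by rw [← hφ g, mem_ker_d₀.mp hm]

/-- The value of the map on invariants. -/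
@[simp] lemma map₀_apply (m : H0 ρ) : (map₀ hφ m).1 = φ m.1 := rfl

end Invariants

end Fermat.CFT.Coh
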