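import Fermat.Agent.CFT.Coh.Basic

/-!
# Levels pulled back along homomorphisms

Pulling back levels is functorial, and the identity is equivariant for the restricted action.
-/

set_option autoImplicit false

noncomputable section

namespace Fermat.CFT.Coh

variable {G G' G'' : Type} [Group G] [Group G'] [Group G'']

/-- Two families of levels with the same levels are equal. -/
lemma Levels.ext_isLevel {L L' : Levels G} (h : L.IsLevel = L'.IsLevel) : L = L' := by
  cases L; cases L'; cases h; rfl

/-- Pulling back levels twice is pulling back along the composite. -/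
lemma Levels.comap_comap (L : Levels G) (f : G' →* G) (f' : G'' →* G') :
    (L.comap f).comap f' = L.comap (f.comp f') := by
  refine Levels.ext_isLevel (funext fun N => propext ⟨?_, ?_⟩)
  · rintro ⟨_, ⟨N', hN', rfl⟩, rfl⟩
    exact ⟨N', hN', Subgroup.comap_comap _ _ _⟩
  · rintro ⟨N', hN', rfl⟩
    exact ⟨_, ⟨N', hN', rfl⟩, (Subgroup.comap_comap _ _ _).symm⟩

variable {R : Type} [CommRing R] {M : Type} [AddCommGroup M] [Module R M]

/-- The identity is equivariant from a module to its restriction. -/
lemma IsEquivariant.restrict (ρ : Representation R G M) (f : G' →* G) :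
    IsEquivariant ρ (ρ.comp f) f LinearMap.id := fun _ _ => rfl

end Fermat.CFT.Coh
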