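import Fermat.Agent.CFT.Coh.LES

/-!
# Cup products into degree `2`

`cup02` and `cup11` are natural and the connecting maps of dual sequences are adjoint for them
(`cup11_δ₀`, `cup02_δ₁`): what the dévissage of `DualityMain` needs.
-/

set_option autoImplicit false

noncomputable section

namespace Fermat.CFT.Coh

variable {G : Type} [Group G] {R : Type} [CommRing R] {A A' W : Type}
  [AddCommGroup A] [Module R A] [AddCommGroup A'] [Module R A'] [AddCommGroup W] [Module R W]

/-- An equivariant bilinear map. -/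
def IsPairing (ρA : Representation R G A) (ρA' : Representation R G A') (ρW : Representation R G W)
    (P : A →ₗ[R] A' →ₗ[R] W) : Prop :=
  ∀ g a a', P (ρA g a) (ρA' g a') = ρW g (P a a')

variable {L : Levels G} {ρA : Representation R G A} {ρA' : Representation R G A'}
  {ρW : Representation R G W} {P : A →ₗ[R] A' →ₗ[R] W}

/-- The flip of an equivariant pairing is equivariant. -/
lemma IsPairing.flip (hP : IsPairing ρA ρA' ρW P) : IsPairing ρA' ρA ρW P.flip :=
  fun g a a' => hP g a' a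

variable (hP : IsPairing ρA ρA' ρW P)

include hP

/-- Pairing with an invariant commutes with `d₂`. -/
lemma IsPairing.d₂_invariant (a : H0 ρA) (f : G → G → A') :
    d₂ ρW (fun g h => P a.1 (f g h)) = fun g h j => P a.1 (d₂ ρA' f g h j) := by
  funext g h j
  simp only [d₂_apply, map_sub, map_add, ← hP g, H0_fixed a g]

/-- Pairing with an invariant commutes with `d₁`. -/
lemma IsPairing.d₁_invariant (a : H0 ρA) (f : G → A') :
    d₁ ρW (fun g => P a.1 (f g)) = fun g h => P a.1 (d₁ ρA' f g h) := by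
  funext g h
  simp only [d₁_apply, map_sub, map_add, ← hP g, H0_fixed a g]

/-- The cup product of two `1`-cocycles is a level-constant `2`-cocycle. -/
lemma IsPairing.cup11_mem (hA' : IsSmooth L ρA') (f : Z1 L ρA) (f' : Z1 L ρA') :
    (fun g h => P (f.1 g) (ρA' g (f'.1 h))) ∈ Z2 L ρW := by
  constructor
  · obtain ⟨N, hN, h1⟩ := hA'.exists_fix f'.2.1.finite_range
    obtain ⟨N1, hN1, h2⟩ := f.2.1
    obtain ⟨N2, hN2, h3⟩ := f'.2.1
    obtain ⟨M1, hM1, i1, i2⟩ := L.exists_le N N1 hN hN1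
    obtain ⟨M2, hM2, j1, j2⟩ := L.exists_le M1 N2 hM1 hN2
    refine ⟨M2, hM2, fun g h s hs t ht => ?_⟩
    simp only [h2 g s (i2 (j1 hs)), h3 h t (j2 ht), map_mul, Module.End.mul_apply,
      h1 s (i1 (j1 hs)) _ ⟨h, rfl⟩]
  · funext g h j
    simp only [d₂_apply, Pi.zero_apply, cocycle₁ f.2 g h, cocycle₁ f'.2 h j, map_add,
      LinearMap.add_apply, map_mul, Module.End.mul_apply, ← hP g]
    abel

/-- The cup product `H⁰ × H² → H²`. -/
def cup02 : H0 ρA →ₗ[R] H2 L ρA' →ₗ[R] H2 L ρW where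
  toFun a := Submodule.liftQ _
    { toFun := fun f => cl₂ L ρW ⟨fun g h => P a.1 (f.1 g h), f.2.1.comp (P a.1), by
        rw [hP.d₂_invariant, f.2.2]; funext g h j; simp⟩
      map_add' := fun f f' => by
        rw [← map_add]
        exact congrArg _ (Subtype.ext (funext₂ fun g h => map_add (P a.1) _ _))
      map_smul' := fun c f => by
        rw [RingHom.id_apply, ← map_smul]
        exact congrArg _ (Subtype.ext (funext₂ fun g h => map_smul (P a.1) c _)) }
    (by
      rintro f ⟨x, hx, hfx⟩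
      refine cl₂_eq_zero.mpr ⟨fun g => P a.1 (x g), hx.comp (P a.1), ?_⟩
      rw [hP.d₁_invariant, hfx]
      rfl)
  map_add' a a' := by
    refine Submodule.linearMap_qext _ (LinearMap.ext fun f => ?_)
    change cl₂ L ρW _ = cl₂ L ρW _ + cl₂ L ρW _
    rw [← map_add]
    exact congrArg _ (Subtype.ext (funext₂ fun g h => by
      change P (a.1 + a'.1) _ = P a.1 _ + P a'.1 _
      rw [map_add, LinearMap.add_apply]))
  map_smul' c a := by
    refine Submodule.linearMap_qext _ (LinearMap.ext fun f => ?_)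
    change cl₂ L ρW _ = c • cl₂ L ρW _
    rw [← map_smul]
    exact congrArg _ (Subtype.ext (funext₂ fun g h => by
      change P (c • a.1) _ = c • P a.1 _
      rw [map_smul, LinearMap.smul_apply]))

variable (hA' : IsSmooth L ρA')

/-- The cup product of cocycles in degrees `1` and `1`. -/
def cupZ : Z1 L ρA →ₗ[R] Z1 L ρA' →ₗ[R] H2 L ρW :=
  LinearMap.mk₂ R (fun f f' => cl₂ L ρW ⟨_, hP.cup11_mem hA' f f'⟩)
    (fun f f₂ f' => by
      rw [← map_add]
      exact congrArg _ (Subtype.ext (funext₂ fun g h => by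
        change P (f.1 g + f₂.1 g) _ = _ + _; rw [map_add, LinearMap.add_apply])))
    (fun c f f' => by
      rw [← map_smul]
      exact congrArg _ (Subtype.ext (funext₂ fun g h => by
        change P (c • f.1 g) _ = c • _; rw [map_smul, LinearMap.smul_apply])))
    (fun f f' f₂ => by
      rw [← map_add]
      exact congrArg _ (Subtype.ext (funext₂ fun g h => by
        change P _ (ρA' g (f'.1 h + f₂.1 h)) = _ + _; rw [map_add, map_add])))
    (fun c f f' => by
      rw [← map_smul]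
      exact congrArg _ (Subtype.ext (funext₂ fun g h => by
        change P _ (ρA' g (c • f'.1 h)) = c • _; rw [map_smul, map_smul])))

/-- The cup product of cocycles anticommutes. -/
lemma cupZ_comm (hA : IsSmooth L ρA) (f : Z1 L ρA) (f' : Z1 L ρA') :
    cupZ hP hA' f f' = -cupZ hP.flip hA f' f := by
  change cl₂ L ρW _ = -cl₂ L ρW _
  rw [← map_neg]
  refine cl₂_eq_iff.mpr ⟨fun g => -P (f.1 g) (f'.1 g),
    f.2.1.map₂ f'.2.1 fun x y => -P x y, funext₂ fun g h => ?_⟩
  change d₁ ρW _ g h = P (f.1 g) (ρA' g (f'.1 h)) - -P.flip (f'.1 g) (ρA g (f.1 h))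
  simp only [d₁_apply, cocycle₁ f.2 g h, cocycle₁ f'.2 g h, LinearMap.flip_apply, map_neg, map_add,
    LinearMap.add_apply, ← hP g]
  abel

/-- The cup product with a coboundary on the right vanishes. -/
lemma cupZ_coboundary_right (f : Z1 L ρA) (f' : Z1 L ρA') (a' : A')
    (hf' : d₀ ρA' a' = f'.1) : cupZ hP hA' f f' = 0 := by
  refine cl₂_eq_zero.mpr ⟨fun g => -P (f.1 g) (ρA' g a'),
    by simpa using ((f.2.1.map₂ ((isLC₁_d₀ hA' a').comp fun x => x + a') fun x y => P x y).comp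
      Neg.neg : L.IsLC₁ fun g => -P (f.1 g) (d₀ ρA' a' g + a')),
    funext₂ fun g h => ?_⟩
  change d₁ ρW _ g h = P (f.1 g) (ρA' g (f'.1 h))
  rw [← hf']
  simp only [d₁_apply, d₀_apply, cocycle₁ f.2 g h, map_neg, map_add, map_sub, map_mul,
    Module.End.mul_apply, LinearMap.add_apply, ← hP g]
  abel

/-- The cup product `H¹ × H¹ → H²`. -/
def cup11 (hA : IsSmooth L ρA) : H1 L ρA →ₗ[R] H1 L ρA' →ₗ[R] H2 L ρW :=
  Submodule.liftQ _
    { toFun := fun f => Submodule.liftQ _ (cupZ hP hA' f) (by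
        rintro f' ⟨a', ha'⟩
        exact cupZ_coboundary_right hP hA' f f' a' ha')
      map_add' := fun f f₂ => Submodule.linearMap_qext _ (LinearMap.ext fun f' => by
        change cupZ hP hA' (f + f₂) f' = cupZ hP hA' f f' + cupZ hP hA' f₂ f'
        rw [map_add, LinearMap.add_apply])
      map_smul' := fun c f => Submodule.linearMap_qext _ (LinearMap.ext fun f' => by
        change cupZ hP hA' (c • f) f' = c • cupZ hP hA' f f'
        rw [map_smul, LinearMap.smul_apply]) }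
    (by
      rintro f ⟨a, ha⟩
      refine LinearMap.mem_ker.mpr (Submodule.linearMap_qext _ (LinearMap.ext fun f' => ?_))
      change cupZ hP hA' f f' = 0
      rw [cupZ_comm hP hA' hA, cupZ_coboundary_right hP.flip hA f' f a ha, neg_zero])

/-- The cup product of the classes of two cocycles. -/
lemma cup11_cl₁ (hA : IsSmooth L ρA) (f : Z1 L ρA) (f' : Z1 L ρA') :
    cup11 hP hA' hA (cl₁ L ρA f) (cl₁ L ρA' f') = cupZ hP hA' f f' := rfl

/-- The cup product on `H¹ × H¹` anticommutes. -/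
lemma cup11_comm (hA : IsSmooth L ρA) (x : H1 L ρA) (y : H1 L ρA') :
    cup11 hP hA' hA x y = -cup11 hP.flip hA hA' y x := by
  obtain ⟨f, rfl⟩ := cl₁_surjective x
  obtain ⟨f', rfl⟩ := cl₁_surjective y
  exact cupZ_comm hP hA' hA f f'

section Naturality

variable {G₂ : Type} [Group G₂] {L₂ : Levels G₂} {B B' V : Type} [AddCommGroup B] [Module R B]
  [AddCommGroup B'] [Module R B'] [AddCommGroup V] [Module R V]
  {ρB : Representation R G₂ B} {ρB' : Representation R G₂ B'} {ρV : Representation R G₂ V}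
  {Q : B →ₗ[R] B' →ₗ[R] V} (hQ : IsPairing ρB ρB' ρV Q) {f : G₂ →* G} (hf : IsLevelsHom L L₂ f)
  {a : A →ₗ[R] B} {a' : A' →ₗ[R] B'} {w : W →ₗ[R] V} (ha : IsEquivariant ρA ρB f a)
  (ha' : IsEquivariant ρA' ρB' f a') (hw : IsEquivariant ρW ρV f w)
  (hPQ : ∀ x y, Q (a x) (a' y) = w (P x y))

include hQ hPQ

/-- The cup product `H⁰ × H² → H²` is natural. -/
lemma map_cup02 (x : H0 ρA) (y : H2 L ρA') :
    map₂ hf hw (cup02 hP x y) = cup02 hQ (map₀ ha x) (map₂ hf ha' y) := by
  obtain ⟨z, rfl⟩ := cl₂_surjective y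
  exact congrArg _ (Subtype.ext (funext₂ fun g h => (hPQ _ _).symm))

/-- The cup product `H¹ × H¹ → H²` is natural. -/
lemma map_cup11 (hA : IsSmooth L ρA) (hB : IsSmooth L₂ ρB) (hB' : IsSmooth L₂ ρB') (x : H1 L ρA)
    (y : H1 L ρA') :
    map₂ hf hw (cup11 hP hA' hA x y) = cup11 hQ hB' hB (map₁ hf ha x) (map₁ hf ha' y) := by
  obtain ⟨z, rfl⟩ := cl₁_surjective x
  obtain ⟨z', rfl⟩ := cl₁_surjective y
  refine congrArg _ (Subtype.ext (funext₂ fun g h => ?_))
  change w (P (z.1 (f g)) (ρA' (f g) (z'.1 (f h)))) = Q (a (z.1 (f g))) (ρB' g (a' (z'.1 (f h))))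
  rw [← ha' g, hPQ]

end Naturality

end Fermat.CFT.Coh

namespace Fermat.CFT.Coh.SES

variable {G : Type} [Group G] {R : Type} [CommRing R] {L : Levels G} {A B C A' B' C' W : Type}
  [AddCommGroup A] [Module R A] [AddCommGroup B] [Module R B] [AddCommGroup C] [Module R C]
  [AddCommGroup A'] [Module R A'] [AddCommGroup B'] [Module R B'] [AddCommGroup C'] [Module R C']
  [AddCommGroup W] [Module R W]
  {ρA : Representation R G A} {ρB : Representation R G B} {ρC : Representation R G C}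
  {ρA' : Representation R G A'} {ρB' : Representation R G B'} {ρC' : Representation R G C'}
  {ρW : Representation R G W}
  (S : SES L ρA ρB ρC) (S' : SES L ρC' ρB' ρA')
  {PA : A →ₗ[R] A' →ₗ[R] W} {PB : B →ₗ[R] B' →ₗ[R] W} {PC : C →ₗ[R] C' →ₗ[R] W}
  (hA : IsPairing ρA ρA' ρW PA) (hB : IsPairing ρB ρB' ρW PB) (hC : IsPairing ρC ρC' ρW PC)
  (h₁ : ∀ a b', PB (S.ι a) b' = PA a (S'.π b'))
  (h₂ : ∀ b c', PB b (S'.ι c') = PC (S.π b) c')

include hB h₁ h₂

/-- The connecting maps of dual sequences are adjoint up to sign. -/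
theorem cup11_δ₀ (c : H0 ρC) (y : H1 L ρA') :
    cup11 hA S'.smoothC S.smoothA (S.δ₀ c) y = -cup02 hC c (S'.δ₁ y) := by
  obtain ⟨y, rfl⟩ := cl₁_surjective y
  set b := S.lift c.1
  set u : Z1 L ρA := ⟨_, S.pre_d₀_mem (S.π_d₀_lift c)⟩
  set z : G → B' := fun g => S'.lift (y.1 g)
  set w : Z2 L ρC' := ⟨_, S'.pre_d₁_mem (y.2.1.comp S'.lift) (S'.π_d₁_lift y)⟩
  change cupZ hA S'.smoothC u y = -cup02 hC c (cl₂ L ρC' w)
  change cl₂ L ρW _ = -cl₂ L ρW _
  rw [← map_neg]
  refine cl₂_eq_iff.mpr ⟨fun g => PB b (z g), (y.2.1.comp S'.lift).comp (PB b),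
    funext₂ fun g h => ?_⟩
  change d₁ ρW _ g h = PA (u.1 g) (ρA' g (y.1 h)) - -PC c.1 (w.1 g h)
  have e1 : PA (u.1 g) (ρA' g (y.1 h)) = PB (d₀ ρB b g) (ρB' g (z h)) := by
    rw [← S.ι_pre (S.π_d₀_lift c g), h₁, S'.π_apply, S'.π_lift]
  have e2 : PC c.1 (w.1 g h) = PB b (d₁ ρB' z g h) := by
    rw [← S'.ι_pre (S'.π_d₁_lift y g h), h₂, S.π_lift]
  rw [e1, e2]
  simp only [d₁_apply, d₀_apply, map_sub, map_add, LinearMap.sub_apply, ← hB g]
  abel

/-- The connecting maps of dual sequences are adjoint, in degrees `(2, 0)`. -/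
theorem cup02_δ₁ (x : H1 L ρC) (y : H0 ρA') :
    cup02 hA.flip y (S.δ₁ x) = cup11 hC S'.smoothA S.smoothC x (S'.δ₀ y) := by
  rw [cup11_comm hC S'.smoothA S.smoothC,
    S'.cup11_δ₀ S hC.flip hB.flip hA.flip (fun c' b => h₂ b c') (fun b' a => h₁ a b') y x,
    neg_neg]

end Fermat.CFT.Coh.SES
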