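import Fermat.Agent.CFT.Coh.Tower

/-!
# Classes inflated from a cyclic quotient die in an `e` times larger one, `e` killing `M`

A two-cocycle constant on a level with cyclic quotient bounds once a smaller level has an `e`
times larger cyclic quotient, `e` killing `M` (`cl₂_eq_zero_of_cyclic`).
-/

set_option autoImplicit false

noncomputable section

namespace Fermat.CFT.Coh

variable {G : Type} [Group G] {R : Type} [CommRing R] {L : Levels G} {M : Type} [AddCommGroup M]
  [Module R M] {ρ : Representation R G M}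

/-- If `z` is constant on a level with cyclic quotient of order dividing `m`, and a smaller level
has cyclic quotient of order `m * e` with `e` killing `M`, then `z` bounds. -/
theorem cl₂_eq_zero_of_cyclic (z : Z2 L ρ) {N₀ N₁ : Subgroup G}
    (hN₁ : L.IsLevel N₁) (hρ : ∀ s ∈ N₀, ∀ x, ρ s x = x)
    (hz : ∀ g h, ∀ s ∈ N₀, ∀ t ∈ N₀, z.1 (g * s) (h * t) = z.1 g h) (hle : N₁ ≤ N₀) {φ : G}
    (hgen : ∀ g, ∃ k : ℕ, (φ ^ k)⁻¹ * g ∈ N₁) {m e : ℕ} (hm : φ ^ m ∈ N₀)
    (hord : ∀ k, φ ^ k ∈ N₁ → m * e ∣ k) (he : ∀ x : M, e • x = 0) :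
    cl₂ L ρ z = 0 := by
  -- normalise `z` to vanish at `(g, 1)`
  set c₀ := z.1 1 1 with hc₀
  set z' : G → G → M := z.1 - d₁ ρ (fun _ => c₀) with hz'def
  have hz'2 : d₂ ρ z' = 0 := by rw [hz'def, map_sub, d₂_d₁, z.2.2, sub_zero]
  have hz'N : ∀ g h, ∀ s ∈ N₀, ∀ t ∈ N₀, z' (g * s) (h * t) = z' g h := fun g h s hs t ht => by
    simp only [hz'def, Pi.sub_apply, d₁_apply, hz g h s hs t ht]
    rw [map_mul, Module.End.mul_apply, hρ s hs]
  have hzz : ∀ g h j, ρ g (z.1 h j) - z.1 (g * h) j + z.1 g (h * j) - z.1 g h = 0 := fun g h j =>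
    congrFun (congrFun (congrFun z.2.2 g) h) j
  have h1 : ∀ g, z' g 1 = 0 := fun g => by
    have e := hzz g 1 1
    rw [mul_one, mul_one, sub_add_cancel] at e
    simp only [hz'def, Pi.sub_apply, d₁_apply, sub_add_cancel]
    linear_combination (norm := abel) -e
  -- on powers of `φ`, the cocycle is the coboundary of the partial sums `P`
  have hP : ∀ i j : ℕ, z' (φ ^ i) (φ ^ j) =
      ∑ k ∈ Finset.range (i + j), z' (φ ^ k) φ - ∑ k ∈ Finset.range i, z' (φ ^ k) φ -
        ρ (φ ^ i) (∑ k ∈ Finset.range j, z' (φ ^ k) φ) := fun i j => by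
    induction j with
    | zero => rw [pow_zero, h1]; simp
    | succ j ih =>
      have e := congrFun (congrFun (congrFun hz'2 (φ ^ i)) (φ ^ j)) φ
      rw [d₂_apply, ← pow_add, ← pow_succ, Pi.zero_apply, Pi.zero_apply, Pi.zero_apply] at e
      rw [Finset.sum_range_succ _ j, map_add, ← add_assoc, Finset.sum_range_succ _ (i + j),
        ← sub_eq_zero, ← e, ih]
      abel
  set P : ℕ → M := fun n => ∑ k ∈ Finset.range n, z' (φ ^ k) φ with hPdef
  have hadd : ∀ n, P (n + m) = P n + P m := fun n => by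
    simp only [hPdef]
    rw [add_comm n m, Finset.sum_range_add, add_comm]
    congr 1
    refine Finset.sum_congr rfl fun k _ => ?_
    have := hz'N (φ ^ k) φ (φ ^ m) hm 1 (one_mem _)
    rwa [mul_one, ← pow_add, add_comm k m] at this
  have hmul : ∀ n d : ℕ, P (n + d * m) = P n + d • P m := fun n d => by
    induction d with
    | zero => simp
    | succ d ih => rw [Nat.succ_mul, ← add_assoc, hadd, ih, succ_nsmul, add_assoc]
  -- `P` grows by `P m` every `m` steps, so is periodic modulo `N₁` as `e` kills `M`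
  have hper : ∀ a b : ℕ, φ ^ a * (φ ^ b)⁻¹ ∈ N₁ → P a = P b := by
    intro a b hab
    wlog hle' : b ≤ a generalizing a b
    · exact (this b a (by simpa using N₁.inv_mem hab) (le_of_not_ge hle')).symm
    obtain ⟨d, rfl⟩ := Nat.exists_eq_add_of_le hle'
    obtain ⟨t, ht⟩ := hord d (by rw [add_comm, pow_add, mul_inv_cancel_right] at hab; exact hab)
    rw [ht, show m * e * t = (t * e) * m by ring, hmul, mul_smul, he, smul_zero, add_zero]
  choose k hk using hgen
  have hnorm := L.normal N₁ hN₁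
  have hkey : ∀ g n, (φ ^ n)⁻¹ * g ∈ N₁ → P (k g) = P n := fun g n hn => hper _ _ (by
    have h := hnorm.conj_mem _ (mul_mem (hk g) (N₁.inv_mem hn)) (φ ^ n)
    have e : φ ^ n * ((φ ^ k g)⁻¹ * g * ((φ ^ n)⁻¹ * g)⁻¹) * (φ ^ n)⁻¹ =
        (φ ^ k g * (φ ^ n)⁻¹)⁻¹ := by group
    rw [e] at h
    exact inv_mem_iff.mp h)
  have hprod : ∀ g h, (φ ^ (k g + k h))⁻¹ * (g * h) ∈ N₁ := fun g h => by
    have e : (φ ^ (k g + k h))⁻¹ * (g * h) =
        (φ ^ k h)⁻¹ * ((φ ^ k g)⁻¹ * g) * φ ^ k h * ((φ ^ k h)⁻¹ * h) := by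
      rw [pow_add]; group
    rw [e]
    exact mul_mem (by simpa using hnorm.conj_mem _ (hk g) (φ ^ k h)⁻¹) (hk h)
  -- hence `g ↦ c₀ - P (k g)` is a smooth cochain with coboundary `z`
  refine cl₂_eq_zero.mpr ⟨fun g => c₀ - P (k g), ⟨N₁, hN₁, fun g s hs => ?_⟩, funext₂ fun g h => ?_⟩
  · change c₀ - P (k (g * s)) = c₀ - P (k g)
    rw [hkey (g * s) (k g) (by rw [← mul_assoc]; exact mul_mem (hk g) hs)]
  · have hg0 : ((φ ^ k g)⁻¹ * g) ∈ N₀ := hle (hk g)
    have hh0 : ((φ ^ k h)⁻¹ * h) ∈ N₀ := hle (hk h)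
    have e1 := hz'N (φ ^ k g) (φ ^ k h) _ hg0 _ hh0
    rw [mul_inv_cancel_left, mul_inv_cancel_left, hP] at e1
    have e2 : ρ g (P (k h)) = ρ (φ ^ k g) (P (k h)) := by
      conv_lhs => rw [← mul_inv_cancel_left (φ ^ k g) g, map_mul, Module.End.mul_apply, hρ _ hg0]
    simp only [hz'def, Pi.sub_apply, d₁_apply] at e1
    simp only [d₁_apply, map_sub]
    rw [hkey (g * h) (k g + k h) (hprod g h), e2]
    simp only [hPdef]
    simp only [hz'def, Pi.sub_apply, d₁_apply]
    linear_combination (norm := abel) -e1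

end Fermat.CFT.Coh
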