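import Mathlib

/-!
# The linear algebra of Poitou–Tate dévissage

Everything here is about finite-dimensional spaces with perfect pairings; the names of the maps
refer to a short exact sequence `M → B → C` of modules and the dual sequence.
-/

set_option autoImplicit false

noncomputable section

namespace Fermat.CFT.Devissage

variable {k : Type} [Field k]
variable {V W V₂ W₂ : Type} [AddCommGroup V] [Module k V] [AddCommGroup W] [Module k W]
  [AddCommGroup V₂] [Module k V₂] [AddCommGroup W₂] [Module k W₂]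

/-- The orthogonal complement of a subspace. -/
def perp (B : V →ₗ[k] W →ₗ[k] k) (S : Submodule k V) : Submodule k W :=
  (S.dualAnnihilator).comap B.flip

variable {B : V →ₗ[k] W →ₗ[k] k}

/-- Membership in the orthogonal complement. -/
@[simp] lemma mem_perp {S : Submodule k V} {w : W} : w ∈ perp B S ↔ ∀ s ∈ S, B s w = 0 := by
  simp [perp, Submodule.mem_dualAnnihilator]

/-- A larger subspace has a smaller orthogonal complement. -/
lemma perp_antitone {S S' : Submodule k V} (h : S ≤ S') : perp B S' ≤ perp B S :=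
  fun _ hw => mem_perp.mpr fun s hs => mem_perp.mp hw s (h hs)

/-- The orthogonal of a sum is the intersection of the orthogonals. -/
lemma perp_sup (S S' : Submodule k V) : perp B (S ⊔ S') = perp B S ⊓ perp B S' := by
  rw [perp, Submodule.dualAnnihilator_sup_eq, Submodule.comap_inf]
  rfl

variable [FiniteDimensional k V] [FiniteDimensional k W]

omit [FiniteDimensional k W] in
/-- For a perfect pairing the dimensions of a subspace and its orthogonal add up. -/
lemma finrank_perp (hB : Function.Bijective B) (S : Submodule k V) :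
    Module.finrank k S + Module.finrank k (perp B S) = Module.finrank k V := by
  have hf : Function.Bijective B.flip := LinearMap.flip_bijective_iff₁.mpr hB
  let e := LinearEquiv.ofBijective B.flip hf
  have h : perp B S = S.dualAnnihilator.map (e.symm : Module.Dual k V →ₗ[k] W) := by
    rw [Submodule.map_equiv_eq_comap_symm, LinearEquiv.symm_symm]
    rfl
  rw [h, LinearEquiv.finrank_map_eq]
  exact Subspace.finrank_add_finrank_dualAnnihilator_eq S

/-- For a perfect pairing the double orthogonal is the subspace itself. -/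
lemma perp_perp (hB : Function.Bijective B) (S : Submodule k V) :
    perp B.flip (perp B S) = S := by
  have hf : Function.Bijective B.flip := LinearMap.flip_bijective_iff₁.mpr hB
  refine (Submodule.eq_of_le_of_finrank_le (fun s hs => mem_perp.mpr fun w hw =>
    mem_perp.mp hw s hs) ?_).symm
  have h1 := finrank_perp hB S
  have h2 := finrank_perp hf (perp B S)
  have h3 : Module.finrank k W = Module.finrank k V :=
    ((LinearEquiv.ofBijective B.flip hf).finrank_eq).trans Subspace.dual_finrank_eq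
  omega

/-- For a perfect pairing the orthogonal of an intersection is the sum of the orthogonals. -/
lemma perp_inf (hB : Function.Bijective B) (S S' : Submodule k W) :
    perp B.flip (S ⊓ S') = perp B.flip S ⊔ perp B.flip S' := by
  have hf : Function.Bijective B.flip := LinearMap.flip_bijective_iff₁.mpr hB
  have hBf : ∀ U : Submodule k W, perp B (perp B.flip U) = U := fun U => perp_perp hf U
  conv_lhs => rw [← hBf S, ← hBf S', ← perp_sup, perp_perp hB]

/-- Adjoint maps: the orthogonal of a kernel is a range. -/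
lemma perp_ker (hB : Function.Bijective B)
    {B₂ : V₂ →ₗ[k] W₂ →ₗ[k] k} (hB₂ : Function.Injective B₂) {f : V →ₗ[k] V₂} {f' : W₂ →ₗ[k] W}
    (h : ∀ v w, B₂ (f v) w = B v (f' w)) : perp B (LinearMap.ker f) = LinearMap.range f' := by
  have hf : Function.Bijective B.flip := LinearMap.flip_bijective_iff₁.mpr hB
  have e : perp B.flip (LinearMap.range f') = LinearMap.ker f := by
    refine Submodule.ext fun v => ⟨fun hv => ?_, fun hv => ?_⟩
    · refine hB₂ (LinearMap.ext fun w => ?_)
      rw [h, map_zero, LinearMap.zero_apply]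
      exact mem_perp.mp hv _ ⟨w, rfl⟩
    · refine mem_perp.mpr ?_
      rintro _ ⟨w, rfl⟩
      change B v (f' w) = 0
      rw [← h, show f v = 0 from hv, map_zero, LinearMap.zero_apply]
  rw [← e]
  exact perp_perp hf _

omit [FiniteDimensional k W] in
/-- The dimension of the image of a subspace plus that of its part in the kernel. -/
lemma finrank_map_add (f : V →ₗ[k] W) (S : Submodule k V) :
    Module.finrank k (S.map f) + Module.finrank k (S ⊓ LinearMap.ker f : Submodule k V) =
      Module.finrank k S := by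
  have h := LinearMap.finrank_range_add_finrank_ker (f.domRestrict S)
  rw [LinearMap.range_domRestrict, LinearMap.ker_domRestrict] at h
  convert h using 2
  exact (Submodule.comapSubtypeEquivOfLe (inf_le_left (b := LinearMap.ker f))).finrank_eq.symm.trans
    (LinearEquiv.ofEq _ _ (by
      rw [Submodule.comap_inf, Submodule.comap_subtype_self, top_inf_eq])).finrank_eq

omit [FiniteDimensional k V] [FiniteDimensional k W] in
/-- An injective map preserves the dimension of subspaces. -/
lemma finrank_map_of_injective {f : V →ₗ[k] W} (hf : Function.Injective f) (S : Submodule k V) :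
    Module.finrank k (S.map f) = Module.finrank k S :=
  (Submodule.equivMapOfInjective f hf S).finrank_eq.symm

omit [FiniteDimensional k W] in
/-- The dimension of the preimage of a subspace. -/
lemma finrank_comap_add (f : V →ₗ[k] W) (S : Submodule k W) :
    Module.finrank k (S.comap f) =
      Module.finrank k (S ⊓ LinearMap.range f : Submodule k W) +
        Module.finrank k (LinearMap.ker f) := by
  have h := finrank_map_add f (S.comap f)
  rw [Submodule.map_comap_eq, inf_comm,
    inf_eq_right.mpr (LinearMap.ker_le_comap f : LinearMap.ker f ≤ S.comap f)] at h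
  exact h.symm

omit [FiniteDimensional k W] in
/-- The dimensions of the image of `S` and of the kernel add up to that of their sum in the
source. -/
lemma finrank_map_sup_ker (f : V →ₗ[k] W) (S : Submodule k V) :
    Module.finrank k (S.map f) + Module.finrank k (LinearMap.ker f) =
      Module.finrank k (S ⊔ LinearMap.ker f : Submodule k V) := by
  have h := finrank_map_add f (S ⊔ LinearMap.ker f)
  have h0 : (LinearMap.ker f).map f = ⊥ := by
    rw [Submodule.eq_bot_iff]
    rintro _ ⟨x, hx, rfl⟩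
    exact hx
  rw [inf_eq_right.mpr le_sup_right, Submodule.map_sup, h0, sup_bot_eq] at h
  exact h

/-! ### The three steps -/

section Lift

variable {HB HM PN PB PM H0M' H0B' H0N' P0M' P0B' P0N' : Type}
  [AddCommGroup HB] [Module k HB] [AddCommGroup HM] [Module k HM]
  [AddCommGroup PN] [Module k PN] [AddCommGroup PB] [Module k PB] [AddCommGroup PM] [Module k PM]
  [AddCommGroup H0M'] [Module k H0M'] [AddCommGroup H0B'] [Module k H0B']
  [AddCommGroup H0N'] [Module k H0N'] [AddCommGroup P0M'] [Module k P0M']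
  [AddCommGroup P0B'] [Module k P0B'] [AddCommGroup P0N'] [Module k P0N']

/-- **Step 1**: classes orthogonal to the global invariants are localisations of classes coming
from the covering module. -/
theorem perp_le_range {π : HB →ₗ[k] HM} {ιP : PN →ₗ[k] PB} {πP : PB →ₗ[k] PM}
    {lB : HB →ₗ[k] PB} {lM : HM →ₗ[k] PM} (hlπ : ∀ x, lM (π x) = πP (lB x))
    (hπP : Function.Surjective πP) (hπι : ∀ n, πP (ιP n) = 0)
    {π₀ : H0M' →ₗ[k] H0B'} {ι₀ : H0B' →ₗ[k] H0N'} (hex : Function.Exact π₀ ι₀)
    {π₀P : P0M' →ₗ[k] P0B'} {ι₀P : P0B' →ₗ[k] P0N'}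
    {aM : H0M' →ₗ[k] P0M'} {aB : H0B' →ₗ[k] P0B'} {aN : H0N' →ₗ[k] P0N'}
    (haπ : ∀ x, π₀P (aM x) = aB (π₀ x)) (haι : ∀ x, ι₀P (aB x) = aN (ι₀ x))
    (haN : Function.Injective aN)
    {qN : PN →ₗ[k] P0N' →ₗ[k] k} {qB : PB →ₗ[k] P0B' →ₗ[k] k} {qM : PM →ₗ[k] P0M' →ₗ[k] k}
    (hqN : Function.Surjective qN)
    (hadjι : ∀ n y, qB (ιP n) y = qN n (ι₀P y)) (hadjπ : ∀ b y, qM (πP b) y = qB b (π₀P y))
    (hB : LinearMap.range lB = perp qB.flip (LinearMap.range aB)) :
    perp qM.flip (LinearMap.range aM) ≤ LinearMap.range (lM ∘ₗ π) := by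
  intro z hz
  obtain ⟨b, rfl⟩ := hπP z
  have hker : LinearMap.ker ι₀ ≤ LinearMap.ker ((qB b).comp aB) := by
    intro x hx
    obtain ⟨m, rfl⟩ := (hex x).mp hx
    change qB b (aB (π₀ m)) = 0
    rw [← haπ, ← hadjπ]
    exact mem_perp.mp hz _ ⟨m, rfl⟩
  set ψ : LinearMap.range ι₀ →ₗ[k] k :=
    ((LinearMap.ker ι₀).liftQ ((qB b).comp aB) hker).comp ι₀.quotKerEquivRange.symm.toLinearMap
  obtain ⟨Ψ, hΨ⟩ := LinearMap.exists_extend ψ
  obtain ⟨g, hg⟩ := aN.exists_leftInverse_of_injective (LinearMap.ker_eq_bot.mpr haN)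
  obtain ⟨n, hn⟩ := hqN (-(Ψ.comp g))
  have hmem : b + ιP n ∈ LinearMap.range lB := by
    rw [hB, mem_perp]
    rintro _ ⟨x, rfl⟩
    have h1 : g (aN (ι₀ x)) = ι₀ x := LinearMap.congr_fun hg (ι₀ x)
    have h2 : Ψ (ι₀ x) = qB b (aB x) := by
      have h3 := LinearMap.congr_fun hΨ ⟨ι₀ x, x, rfl⟩
      refine h3.trans ?_
      change (LinearMap.ker ι₀).liftQ _ hker (ι₀.quotKerEquivRange.symm ⟨ι₀ x, _⟩) = _
      rw [show (⟨ι₀ x, x, rfl⟩ : LinearMap.range ι₀) =
          ι₀.quotKerEquivRange (Submodule.Quotient.mk x) from Subtype.ext rfl,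
        LinearEquiv.symm_apply_apply]
      rfl
    change qB (b + ιP n) (aB x) = 0
    rw [map_add, LinearMap.add_apply, hadjι, haι, hn, LinearMap.neg_apply, LinearMap.comp_apply,
      h1, h2, add_neg_cancel]
  obtain ⟨y, hy⟩ := hmem
  exact ⟨y, by rw [LinearMap.comp_apply, hlπ, hy, map_add, hπι, add_zero]⟩

end Lift

section Lower

variable {HN HB HM PN PB PM H0B' H0N' H1M' H1B' P0B' P0N' P1M' P1B' : Type}
  [AddCommGroup HN] [Module k HN] [AddCommGroup HB] [Module k HB] [AddCommGroup HM] [Module k HM]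
  [AddCommGroup PN] [Module k PN] [AddCommGroup PB] [Module k PB] [AddCommGroup PM] [Module k PM]
  [AddCommGroup H0B'] [Module k H0B'] [AddCommGroup H0N'] [Module k H0N']
  [AddCommGroup H1M'] [Module k H1M'] [AddCommGroup H1B'] [Module k H1B']
  [AddCommGroup P0B'] [Module k P0B'] [AddCommGroup P0N'] [Module k P0N']
  [AddCommGroup P1M'] [Module k P1M'] [AddCommGroup P1B'] [Module k P1B']
  [FiniteDimensional k HB]
  [FiniteDimensional k PN]
  [FiniteDimensional k H0N'] [FiniteDimensional k P0B']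
  [FiniteDimensional k P0N']

omit [FiniteDimensional k P0B'] in
/-- **Step 2**: enough locally trivial classes come from the covering module. -/
theorem finrank_sha_le {ι : HN →ₗ[k] HB} {π : HB →ₗ[k] HM} (hex₂ : Function.Exact ι π)
    {ιP : PN →ₗ[k] PB} {πP : PB →ₗ[k] PM} (hexP : Function.Exact ιP πP)
    {lN : HN →ₗ[k] PN} {lB : HB →ₗ[k] PB} {lM : HM →ₗ[k] PM}
    (hlι : ∀ x, lB (ι x) = ιP (lN x)) (hlπ : ∀ x, lM (π x) = πP (lB x))
    (hlB : Function.Injective lB)
    {ι₀ : H0B' →ₗ[k] H0N'} {δ : H0N' →ₗ[k] H1M'} {π₁ : H1M' →ₗ[k] H1B'}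
    (hex₀ : Function.Exact ι₀ δ) (hex₁ : Function.Exact δ π₁)
    {ι₀P : P0B' →ₗ[k] P0N'} {δP : P0N' →ₗ[k] P1M'} {π₁P : P1M' →ₗ[k] P1B'}
    (hex₀P : Function.Exact ι₀P δP)
    {aB : H0B' →ₗ[k] P0B'} {aN : H0N' →ₗ[k] P0N'} {l₁M : H1M' →ₗ[k] P1M'}
    {l₁B : H1B' →ₗ[k] P1B'}
    (haι : ∀ x, ι₀P (aB x) = aN (ι₀ x)) (haδ : ∀ x, δP (aN x) = l₁M (δ x))
    (hlπ₁ : ∀ x, l₁B (π₁ x) = π₁P (l₁M x)) (haN : Function.Injective aN)
    (hl₁B : Function.Injective l₁B)
    {qN : PN →ₗ[k] P0N' →ₗ[k] k} {qB : PB →ₗ[k] P0B' →ₗ[k] k}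
    (hqN : Function.Bijective qN) (hqB : Function.Bijective qB)
    (hadjι : ∀ n y, qB (ιP n) y = qN n (ι₀P y))
    (hB : LinearMap.range lB = perp qB.flip (LinearMap.range aB))
    (hN : LinearMap.range lN ≤ perp qN.flip (LinearMap.range aN)) :
    Module.finrank k (LinearMap.ker l₁M) ≤
      Module.finrank k ((LinearMap.ker lM).comap π |>.map π) := by
  set sh := LinearMap.ker l₁M
  have hqNf : Function.Bijective qN.flip := LinearMap.flip_bijective_iff₁.mpr hqN
  -- the image inside `HB`
  set V := (LinearMap.ker lM).comap π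
  have hV : V = (LinearMap.range ιP).comap lB := Submodule.ext fun x => by
    change lM (π x) = 0 ↔ lB x ∈ LinearMap.range ιP
    rw [hlπ]; exact hexP (lB x)
  have hkerπ : LinearMap.ker π = LinearMap.range ι := hex₂.linearMap_ker_eq
  have e1 := finrank_map_add π V
  rw [inf_eq_right.mpr (LinearMap.ker_le_comap π), hkerπ] at e1
  -- the dimension of `V`
  set W := perp qN.flip ((LinearMap.range aB).map ι₀P)
  have hW : (LinearMap.range lB).comap ιP = W := Submodule.ext fun n => by
    simp only [hB, W, Submodule.mem_comap, mem_perp, LinearMap.flip_apply, Submodule.mem_map]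
    constructor
    · rintro h _ ⟨y, hy, rfl⟩; rw [← hadjι]; exact h y hy
    · intro h y hy; rw [hadjι]; exact h _ ⟨y, hy, rfl⟩
  have e2 : Module.finrank k V = Module.finrank k (W.map ιP) := by
    rw [hV, ← finrank_map_of_injective hlB, Submodule.map_comap_eq, ← hW, Submodule.map_comap_eq,
      inf_comm]
  set X := perp qN.flip (LinearMap.range aN)
  have e3 : Module.finrank k (LinearMap.range ι) ≤ Module.finrank k (X.map ιP) := by
    rw [← finrank_map_of_injective hlB, ← LinearMap.range_comp]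
    refine Submodule.finrank_mono ?_
    rintro _ ⟨x, rfl⟩
    exact ⟨lN x, hN ⟨x, rfl⟩, (hlι x).symm⟩
  have e4 := finrank_map_sup_ker ιP W
  have e5 := finrank_map_sup_ker ιP X
  have hadj' : ∀ v w, qB (ιP v) w = qN v (ι₀P w) := hadjι
  have hK : LinearMap.ker ιP = perp qN.flip (LinearMap.range ι₀P) := by
    rw [← perp_ker hqN hqB.1 hadj', perp_perp hqN]
  have hWK : W ⊔ LinearMap.ker ιP = W := sup_eq_left.mpr (by
    rw [hK]; exact perp_antitone LinearMap.map_le_range)
  rw [hWK] at e4
  rw [hK] at e4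
  rw [hK, ← perp_inf hqN] at e5
  have e6 := finrank_perp hqNf ((LinearMap.range aB).map ι₀P)
  have e7 := finrank_perp hqNf (LinearMap.range aN ⊓ LinearMap.range ι₀P)
  -- the global side
  have e8 : LinearMap.range aN ⊓ LinearMap.range ι₀P = (sh.comap δ).map aN := by
    rw [← hex₀P.linearMap_ker_eq, ← Submodule.map_comap_eq]
    congr 1
    ext x
    change δP (aN x) = 0 ↔ l₁M (δ x) = 0
    rw [haδ]
  have e9 := finrank_comap_add δ sh
  have hsh : sh ≤ LinearMap.range δ := fun y hy => (hex₁ y).mp (hl₁B (by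
    rw [hlπ₁, show l₁M y = 0 from hy, map_zero, map_zero]))
  rw [inf_eq_left.mpr hsh, hex₀.linearMap_ker_eq] at e9
  have e10 : (LinearMap.range aB).map ι₀P = (LinearMap.range ι₀).map aN := by
    rw [← LinearMap.range_comp, ← LinearMap.range_comp]
    congr 1
    exact LinearMap.ext haι
  rw [e10, finrank_map_of_injective haN] at e6
  rw [e8, finrank_map_of_injective haN] at e7
  rw [e2] at e1
  have hW' : W = perp qN.flip ((LinearMap.range ι₀).map aN) := by rw [← e10]
  rw [hW'] at e4 e1
  rw [e8] at e5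
  omega

end Lower

section Upper

variable {H1M H1B H1C H2M H2B H1M' H1B' H1C' H2C' P1M P1B P1C P2M P2B P1M' P1B' P1C' : Type}
  [AddCommGroup H1B] [Module k H1B] [AddCommGroup H1C] [Module k H1C]
  [AddCommGroup H2M] [Module k H2M] [AddCommGroup H2B] [Module k H2B]
  [AddCommGroup H1M'] [Module k H1M'] [AddCommGroup H1B'] [Module k H1B']
  [AddCommGroup H1C'] [Module k H1C'] [AddCommGroup H2C'] [Module k H2C']
  [AddCommGroup P1M] [Module k P1M] [AddCommGroup P1B] [Module k P1B]
  [AddCommGroup P1C] [Module k P1C] [AddCommGroup P2M] [Module k P2M]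
  [AddCommGroup P2B] [Module k P2B]
  [AddCommGroup P1M'] [Module k P1M'] [AddCommGroup P1B'] [Module k P1B']
  [AddCommGroup P1C'] [Module k P1C']
  [FiniteDimensional k H1C]
  [FiniteDimensional k H1M'] [FiniteDimensional k H1B']
  [FiniteDimensional k P1M] [FiniteDimensional k P1B]
  [FiniteDimensional k P1B']

/-- **Step 3**: the upper bound for locally trivial classes of degree two. -/
theorem finrank_sha_add_le {π : H1B →ₗ[k] H1C} {δ : H1C →ₗ[k] H2M} {ι₂ : H2M →ₗ[k] H2B}
    (hexC : Function.Exact π δ) (hexM : Function.Exact δ ι₂)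
    {ιP : P1M →ₗ[k] P1B} {πP : P1B →ₗ[k] P1C} {δP : P1C →ₗ[k] P2M} {ι₂P : P2M →ₗ[k] P2B}
    (hexBP : Function.Exact ιP πP) (hexCP : Function.Exact πP δP)
    {lB : H1B →ₗ[k] P1B} {lC : H1C →ₗ[k] P1C} {l₂M : H2M →ₗ[k] P2M} {l₂B : H2B →ₗ[k] P2B}
    (hlπ : ∀ x, lC (π x) = πP (lB x)) (hlδ : ∀ x, l₂M (δ x) = δP (lC x))
    (hlι₂ : ∀ x, l₂B (ι₂ x) = ι₂P (l₂M x)) (hl₂B : Function.Injective l₂B)
    {π' : H1C' →ₗ[k] H1B'} {ι' : H1B' →ₗ[k] H1M'} {δ' : H1M' →ₗ[k] H2C'}
    (hexB' : Function.Exact π' ι') (hexM' : Function.Exact ι' δ')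
    {π'P : P1C' →ₗ[k] P1B'} {ι'P : P1B' →ₗ[k] P1M'} (hexB'P : Function.Exact π'P ι'P)
    {lC' : H1C' →ₗ[k] P1C'} {lB' : H1B' →ₗ[k] P1B'} {lM' : H1M' →ₗ[k] P1M'}
    (hlπ' : ∀ x, lB' (π' x) = π'P (lC' x)) (hlι' : ∀ x, lM' (ι' x) = ι'P (lB' x))
    (hlB' : Function.Injective lB')
    {qM : P1M →ₗ[k] P1M' →ₗ[k] k} {qB : P1B →ₗ[k] P1B' →ₗ[k] k} {qC : P1C →ₗ[k] P1C' →ₗ[k] k}
    (hqM : Function.Bijective qM) (hqB : Function.Bijective qB)
    (hadjι : ∀ m y, qB (ιP m) y = qM m (ι'P y)) (hadjπ : ∀ b y, qC (πP b) y = qB b (π'P y))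
    (hB : LinearMap.range lB = perp qB.flip (LinearMap.range lB'))
    (hC : ∀ x y, qC (lC x) (lC' y) = 0) :
    Module.finrank k (LinearMap.ker l₂M) + Module.finrank k ((LinearMap.ker lM').map δ') ≤
      Module.finrank k ((LinearMap.ker lC).map δ) + Module.finrank k (LinearMap.ker lM') := by
  have hqBf : Function.Bijective qB.flip := LinearMap.flip_bijective_iff₁.mpr hqB
  -- `ker l₂M` is the image under `δ` of the classes that are locally in the range of `πP`
  set G := (LinearMap.range πP).comap lC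
  have hG : LinearMap.ker l₂M = G.map δ := by
    have h1 : LinearMap.ker l₂M ≤ LinearMap.range δ := fun z hz => (hexM z).mp (hl₂B (by
      rw [hlι₂, show l₂M z = 0 from hz, map_zero, map_zero]))
    have h2 : G = (LinearMap.ker l₂M).comap δ := Submodule.ext fun x => by
      change lC x ∈ LinearMap.range πP ↔ l₂M (δ x) = 0
      rw [hlδ]; exact (hexCP (lC x)).symm
    rw [h2, Submodule.map_comap_eq, inf_eq_right.mpr h1]
  have hkerδ : LinearMap.ker δ = LinearMap.range π := hexC.linearMap_ker_eq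
  have hπG : LinearMap.range π ≤ G := by
    rintro _ ⟨x, rfl⟩
    exact ⟨lB x, (hlπ x).symm⟩
  -- dimension counts
  have f1 := finrank_map_add δ G
  rw [← hG, hkerδ, inf_eq_right.mpr hπG] at f1
  have f2 := finrank_map_add lC G
  rw [inf_eq_right.mpr (LinearMap.ker_le_comap lC)] at f2
  have f3 := finrank_map_add lC (LinearMap.range π)
  have f4 := finrank_map_add δ (LinearMap.ker lC)
  rw [hkerδ, inf_comm] at f4
  have f5 : (LinearMap.range π).map lC = (LinearMap.range lB).map πP := by
    rw [← LinearMap.range_comp, ← LinearMap.range_comp]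
    congr 1
    exact LinearMap.ext hlπ
  rw [f5] at f3
  -- the local term
  set V := perp qB.flip ((LinearMap.range lC').map π'P)
  have f6 : Module.finrank k (G.map lC) ≤ Module.finrank k (V.map πP) := by
    refine Submodule.finrank_mono ?_
    rintro _ ⟨x, ⟨b, hb⟩, rfl⟩
    refine ⟨b, mem_perp.mpr ?_, hb⟩
    rintro _ ⟨_, ⟨y, rfl⟩, rfl⟩
    change qB b (π'P (lC' y)) = 0
    rw [← hadjπ, hb]; exact hC x y
  have f7 := finrank_map_sup_ker πP V
  have f8 := finrank_map_sup_ker πP (LinearMap.range lB)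
  have hK : LinearMap.ker πP = perp qB.flip (LinearMap.range π'P) := by
    rw [hexBP.linearMap_ker_eq, ← hexB'P.linearMap_ker_eq]
    exact (perp_ker (B := qB.flip) hqBf (B₂ := qM.flip)
      (LinearMap.flip_bijective_iff₁.mpr hqM).1 (f' := ιP) fun y m => (hadjι m y).symm).symm
  have hVK : V ⊔ LinearMap.ker πP = V := sup_eq_left.mpr (by
    rw [hK]; exact perp_antitone LinearMap.map_le_range)
  rw [hVK] at f7
  rw [hK, hB, ← perp_inf hqB, ← hB, ← hK] at f8
  -- the dual side: orthogonals have complementary dimension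
  have f9 := finrank_perp hqBf ((LinearMap.range lC').map π'P)
  have f10 := finrank_perp hqBf (LinearMap.range lB' ⊓ LinearMap.range π'P)
  have f11 : (LinearMap.range lC').map π'P = (LinearMap.range π').map lB' := by
    rw [← LinearMap.range_comp, ← LinearMap.range_comp]
    congr 1
    exact LinearMap.ext fun x => (hlπ' x).symm
  have f12 : LinearMap.range lB' ⊓ LinearMap.range π'P =
      ((LinearMap.ker lM').comap ι').map lB' := by
    rw [← hexB'P.linearMap_ker_eq, ← Submodule.map_comap_eq]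
    congr 1
    ext x
    change ι'P (lB' x) = 0 ↔ lM' (ι' x) = 0
    rw [hlι']
  rw [f11, finrank_map_of_injective hlB'] at f9
  rw [f12, finrank_map_of_injective hlB'] at f10
  have f13 := finrank_comap_add ι' (LinearMap.ker lM')
  rw [hexB'.linearMap_ker_eq] at f13
  have f14 := finrank_map_add δ' (LinearMap.ker lM')
  rw [hexM'.linearMap_ker_eq] at f14
  have hV' : V = perp qB.flip ((LinearMap.range π').map lB') := by rw [← f11]
  rw [hV'] at f6 f7
  rw [f12] at f8
  omega

end Upper

end Fermat.CFT.Devissage
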