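import Fermat.Agent.CFT.Coh.Ind
import Fermat.Prelude.Def_GroupCohomology_Selmer

/-!
# Twisted duals and short exact sequences from submodules

The twisted dual `dualRep`, the exact sequence of twisted duals (`dual`) and the short exact
sequence of an equivariant injection (`SES.ofInjective`).
-/

set_option autoImplicit false

noncomputable section

namespace Fermat.CFT.Coh

attribute [local instance] Subgroup.fintypeQuotientOfFiniteIndex

variable {G : Type} [Group G] {R : Type} [Field R] {M M' : Type} [AddCommGroup M] [Module R M]
  [AddCommGroup M'] [Module R M'] {L : Levels G} (χ : G →* Rˣ)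

/-- The line on which `G` acts by `χ`. -/
def charRep : Representation R G R := (Representation.trivial R G R).twist χ

/-- The action on the line `χ`. -/
@[simp] lemma charRep_apply (g : G) (a : R) : charRep χ g a = (χ g : R) * a := rfl

/-- The dual twisted by `χ`. -/
def dualRep (ρ : Representation R G M) : Representation R G (Module.Dual R M) := ρ.dual.twist χ

/-- The action on the twisted dual. -/
@[simp] lemma dualRep_apply (ρ : Representation R G M) (g : G) (f : Module.Dual R M) (m : M) :
    dualRep χ ρ g f m = (χ g : R) * f (ρ g⁻¹ m) := rfl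

variable {χ}

/-- The transpose of an equivariant map is equivariant on twisted duals. -/
lemma IsEquivariant.dualMap {ρ : Representation R G M} {ρ' : Representation R G M'}
    {φ : M →ₗ[R] M'} (h : IsEquivariant ρ ρ' (MonoidHom.id G) φ) :
    IsEquivariant (dualRep χ ρ') (dualRep χ ρ) (MonoidHom.id G) φ.dualMap := fun g f => by
  ext m
  simp only [LinearMap.dualMap_apply, dualRep_apply, MonoidHom.id_apply]
  exact congrArg (fun x => (χ g : R) * f x) (h g⁻¹ m).symm

variable (R M) in
/-- The evaluation pairing. -/
def evalPairing : M →ₗ[R] Module.Dual R M →ₗ[R] R := Module.Dual.eval R M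

/-- The evaluation pairing of a vector and a form. -/
@[simp] lemma evalPairing_apply (m : M) (f : Module.Dual R M) : evalPairing R M m f = f m := rfl

/-- Evaluation pairs a module and its twisted dual into the line `χ`. -/
lemma isPairing_eval (ρ : Representation R G M) :
    IsPairing ρ (dualRep χ ρ) (charRep χ) (evalPairing R M) := fun g m f => by simp

/-- A level on which the character is trivial. -/
def CharSmooth (L : Levels G) (χ : G →* Rˣ) : Prop := ∃ N, L.IsLevel N ∧ ∀ s ∈ N, χ s = 1

/-- A finite-dimensional smooth module is fixed pointwise by one level. -/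
lemma IsSmooth.exists_fix_all [FiniteDimensional R M] {ρ : Representation R G M}
    (h : IsSmooth L ρ) : ∃ N, L.IsLevel N ∧ ∀ s ∈ N, ∀ m, ρ s m = m := by
  let b := Module.finBasis R M
  obtain ⟨N, hN, h1⟩ := h.exists_fix (Set.finite_range b)
  refine ⟨N, hN, fun s hs m => ?_⟩
  have : ρ s = LinearMap.id := b.ext fun i => h1 s hs _ ⟨i, rfl⟩
  rw [this]; rfl

/-- The line of a character trivial on a level is smooth. -/
lemma isSmooth_charRep (hχ : CharSmooth L χ) : IsSmooth L (charRep χ) := fun a => by
  obtain ⟨N, hN, h⟩ := hχ
  exact ⟨N, hN, fun s hs => by simp [h s hs]⟩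

/-- The twisted dual of a finite-dimensional smooth module is smooth. -/
lemma isSmooth_dualRep [FiniteDimensional R M] {ρ : Representation R G M} (hχ : CharSmooth L χ)
    (h : IsSmooth L ρ) : IsSmooth L (dualRep χ ρ) := fun f => by
  obtain ⟨N, hN, h1⟩ := h.exists_fix_all
  obtain ⟨N', hN', h2⟩ := hχ
  obtain ⟨N'', hN'', i1, i2⟩ := L.exists_le N N' hN hN'
  refine ⟨N'', hN'', fun s hs => LinearMap.ext fun m => ?_⟩
  rw [dualRep_apply, h2 s (i2 hs), h1 _ (inv_mem (i1 hs)), Units.val_one, one_mul]

/-- The map to the twisted bidual is equivariant. -/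
lemma eval_equivariant (ρ : Representation R G M) :
    IsEquivariant ρ (dualRep χ (dualRep χ ρ)) (MonoidHom.id G) (Module.Dual.eval R M) :=
  fun g m => LinearMap.ext fun f => by simp

namespace SES

variable {A B C : Type} [AddCommGroup A] [Module R A] [AddCommGroup B] [Module R B]
  [AddCommGroup C] [Module R C] {ρA : Representation R G A} {ρB : Representation R G B}
  {ρC : Representation R G C} (S : SES L ρA ρB ρC) [FiniteDimensional R B]

/-- The exact sequence of twisted duals, in the opposite order. -/
def dual (hχ : CharSmooth L χ) : SES L (dualRep χ ρC) (dualRep χ ρB) (dualRep χ ρA) where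
  ι := S.π.dualMap
  π := S.ι.dualMap
  ι_eq := IsEquivariant.dualMap S.π_eq
  π_eq := IsEquivariant.dualMap S.ι_eq
  injective := LinearMap.dualMap_injective_of_surjective S.surjective
  surjective := LinearMap.dualMap_surjective_of_injective S.injective
  exact := by
    rw [LinearMap.exact_iff, LinearMap.range_dualMap_eq_dualAnnihilator_ker,
      LinearMap.ker_dualMap_eq_dualAnnihilator_range, LinearMap.exact_iff.mp S.exact]
  smooth := isSmooth_dualRep hχ S.smooth

end SES

section Quotient

variable {ρ : Representation R G M} {ρ' : Representation R G M'}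

/-- The action on a quotient by a stable subspace. -/
def quotRep (ρ : Representation R G M) (N : Submodule R M) (hN : ∀ g, N ≤ N.comap (ρ g)) :
    Representation R G (M ⧸ N) where
  toFun g := N.mapQ N (ρ g) (hN g)
  map_one' := Submodule.linearMap_qext _ (LinearMap.ext fun m => by simp)
  map_mul' g h := Submodule.linearMap_qext _ (LinearMap.ext fun m => by simp)

/-- The image of an equivariant map is stable. -/
lemma range_le_comap {φ : M →ₗ[R] M'} (h : IsEquivariant ρ ρ' (MonoidHom.id G) φ) (g : G) :
    LinearMap.range φ ≤ (LinearMap.range φ).comap (ρ' g) := by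
  rintro _ ⟨m, rfl⟩
  exact ⟨ρ g m, h g m⟩

/-- The short exact sequence of an equivariant injection. -/
def SES.ofInjective {φ : M →ₗ[R] M'} (h : IsEquivariant ρ ρ' (MonoidHom.id G) φ)
    (hφ : Function.Injective φ) (hs : IsSmooth L ρ') :
    SES L ρ ρ' (quotRep ρ' (LinearMap.range φ) (range_le_comap h)) where
  ι := φ
  π := (LinearMap.range φ).mkQ
  ι_eq := h
  π_eq _ _ := rfl
  injective := hφ
  surjective := Submodule.mkQ_surjective _
  exact := fun x => by
    rw [Submodule.mkQ_apply, Submodule.Quotient.mk_eq_zero]
    rfl
  smooth := hs

end Quotient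

section IndDual

variable {H : Subgroup G} [H.FiniteIndex] {ρ : Representation R G M}

variable (R M H) in
/-- An induced dual is the dual of the induced module. -/
def indDualMap : ((G ⧸ H) → Module.Dual R M) →ₗ[R] Module.Dual R ((G ⧸ H) → M) :=
  (indPairing H (evalPairing R M)).flip

/-- The pairing of functions with values in the dual and in the module. -/
@[simp] lemma indDualMap_apply (f' : (G ⧸ H) → Module.Dual R M) (f : (G ⧸ H) → M) :
    indDualMap R M H f' f = ∑ x, f' x (f x) := by
  simp [indDualMap]

/-- The map from functions valued in the dual to the dual of the functions on the cosets is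
bijective. -/
lemma indDualMap_bijective : Function.Bijective (indDualMap R M H) := by
  classical
  constructor
  · intro f f' h
    funext x
    ext m
    have h1 := LinearMap.congr_fun h (Pi.single x m)
    simp only [indDualMap_apply] at h1
    rw [Finset.sum_eq_single x (fun y _ hy => by simp [hy]) (by simp),
      Finset.sum_eq_single x (fun y _ hy => by simp [hy]) (by simp)] at h1
    simpa using h1
  · intro Φ
    refine ⟨fun x => Φ.comp (LinearMap.single R (fun _ => M) x), LinearMap.ext fun f => ?_⟩
    rw [indDualMap_apply]
    simp only [LinearMap.comp_apply, LinearMap.single_apply, ← map_sum]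
    rw [Finset.univ_sum_single]

/-- The map from the induced dual to the dual of the induced module is equivariant. -/
lemma indDualMap_equivariant :
    IsEquivariant (indRep H (dualRep χ ρ)) (dualRep χ (indRep H ρ)) (MonoidHom.id G)
      (indDualMap R M H) := by
  intro g f'
  refine LinearMap.ext fun f => ?_
  simp only [indDualMap_apply, dualRep_apply, indRep_apply, MonoidHom.id_apply, Finset.mul_sum,
    inv_inv]
  exact Fintype.sum_equiv (MulAction.toPerm g⁻¹) _ _ fun x => by simp

end IndDual

end Fermat.CFT.Coh
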