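import Fermat.Agent.CFT.Coh.Dual

/-!
# Duality from its validity on induced trivial modules

Given an invariant map on `H²` of the line `χ`, injective corestrictions and the non-degeneracy of
the cup product on `H¹` of the subgroups fixing the line, cup product is a perfect pairing between
`Hⁱ(M)` and `H²⁻ⁱ` of the twisted dual, for every finite-dimensional smooth `M`.
-/

set_option autoImplicit false

noncomputable section

namespace Fermat.CFT.Coh

attribute [local instance] Subgroup.fintypeQuotientOfFiniteIndex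

/-! ### Generalities -/

section General

variable {G : Type} [Group G] {R : Type} [CommRing R] {M M' W : Type} [AddCommGroup M] [Module R M]
  [AddCommGroup M'] [Module R M'] [AddCommGroup W] [Module R W] {L : Levels G}
  {ρ : Representation R G M} {ρ' : Representation R G M'} {ρW : Representation R G W}

/-- A pairing stays equivariant along a homomorphism. -/
lemma IsPairing.comp {G' : Type} [Group G'] {P : M →ₗ[R] M' →ₗ[R] W}
    (hP : IsPairing ρ ρ' ρW P) (f : G' →* G) :
    IsPairing (ρ.comp f) (ρ'.comp f) (ρW.comp f) P := fun g => hP (f g)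

/-- The identity is equivariant. -/
lemma IsEquivariant.id (ρ : Representation R G M) :
    IsEquivariant ρ ρ (MonoidHom.id G) LinearMap.id := fun _ _ => rfl

/-- The identity induces the identity on `H¹`. -/
lemma map₁_id (x : H1 L ρ) : map₁ (IsLevelsHom.id L) (IsEquivariant.id ρ) x = x := by
  obtain ⟨z, rfl⟩ := cl₁_surjective x
  rfl

/-- The identity induces the identity on `H²`. -/
lemma map₂_id (x : H2 L ρ) : map₂ (IsLevelsHom.id L) (IsEquivariant.id ρ) x = x := by
  obtain ⟨z, rfl⟩ := cl₂_surjective x
  rfl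

variable {φ : M →ₗ[R] M'}

/-- The inverse of an equivariant bijection is equivariant. -/
lemma equivariant_symm (h : IsEquivariant ρ ρ' (MonoidHom.id G) φ) (hb : Function.Bijective φ) :
    IsEquivariant ρ' ρ (MonoidHom.id G) (LinearEquiv.ofBijective φ hb).symm.toLinearMap := by
  intro g m
  refine hb.injective ?_
  have h1 : ∀ x, φ ((LinearEquiv.ofBijective φ hb).symm x) = x :=
    (LinearEquiv.ofBijective φ hb).apply_symm_apply
  simp only [LinearEquiv.coe_coe, MonoidHom.id_apply, h1]
  have := h g ((LinearEquiv.ofBijective φ hb).symm m)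
  rw [h1] at this
  exact this.symm

/-- An equivariant bijection is bijective on `H¹`. -/
theorem map₁_bijective (h : IsEquivariant ρ ρ' (MonoidHom.id G) φ) (hb : Function.Bijective φ) :
    Function.Bijective (map₁ (IsLevelsHom.id L) h) := by
  set e := LinearEquiv.ofBijective φ hb
  refine ⟨Function.LeftInverse.injective (g := map₁ (IsLevelsHom.id L) (equivariant_symm h hb))
    fun x => ?_, Function.RightInverse.surjective (g := map₁ (IsLevelsHom.id L)
      (equivariant_symm h hb))
    fun x => ?_⟩
  · obtain ⟨z, rfl⟩ := cl₁_surjective x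
    exact congrArg _ (Subtype.ext (funext fun g => e.symm_apply_apply _))
  · obtain ⟨z, rfl⟩ := cl₁_surjective x
    exact congrArg _ (Subtype.ext (funext fun g => e.apply_symm_apply _))

/-- An equivariant bijection is bijective on `H²`. -/
theorem map₂_bijective (h : IsEquivariant ρ ρ' (MonoidHom.id G) φ) (hb : Function.Bijective φ) :
    Function.Bijective (map₂ (IsLevelsHom.id L) h) := by
  set e := LinearEquiv.ofBijective φ hb
  refine ⟨Function.LeftInverse.injective (g := map₂ (IsLevelsHom.id L) (equivariant_symm h hb))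
    fun x => ?_, Function.RightInverse.surjective (g := map₂ (IsLevelsHom.id L)
      (equivariant_symm h hb))
    fun x => ?_⟩
  · obtain ⟨z, rfl⟩ := cl₂_surjective x
    exact congrArg _ (Subtype.ext (funext₂ fun g j => e.symm_apply_apply _))
  · obtain ⟨z, rfl⟩ := cl₂_surjective x
    exact congrArg _ (Subtype.ext (funext₂ fun g j => e.apply_symm_apply _))

/-- An equivariant bijection is bijective on invariants. -/
theorem map₀_bijective (h : IsEquivariant ρ ρ' (MonoidHom.id G) φ) (hb : Function.Bijective φ) :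
    Function.Bijective (map₀ h) := by
  refine ⟨fun a b hab => Subtype.ext (hb.injective (congrArg Subtype.val hab)), fun m => ?_⟩
  obtain ⟨a, ha⟩ := hb.surjective m.1
  refine ⟨⟨a, mem_ker_d₀.mpr fun g => hb.injective ?_⟩, Subtype.ext ha⟩
  exact (h g a).trans (by rw [ha, H0_fixed])

/-- A class killed by all coordinates is zero. -/
lemma cl₁_eq_zero_of_coords {ι : Type} [Fintype ι] (b : Module.Basis ι R M)
    {ρR : ι → Representation R G R} (hb : ∀ i, IsEquivariant ρ (ρR i) (MonoidHom.id G) (b.coord i))
    (x : H1 L ρ) (hx : ∀ i, map₁ (IsLevelsHom.id L) (hb i) x = 0) : x = 0 := by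
  obtain ⟨z, rfl⟩ := cl₁_surjective x
  choose c hc using fun i => cl₁_eq_zero.mp (hx i)
  refine cl₁_eq_zero.mpr ⟨∑ i, c i • b i, funext fun g => b.ext_elem fun i => ?_⟩
  have h := congrFun (hc i) g
  simp only [d₀_apply, mapZ1_apply, Module.Basis.coord_apply, MonoidHom.id_apply] at h
  rw [d₀_apply, ← h, map_sub, Finsupp.sub_apply, b.repr_sum_self]
  congr 1
  have := hb i g (∑ i, c i • b i)
  simp only [Module.Basis.coord_apply, MonoidHom.id_apply, b.repr_sum_self] at this
  exact this

/-- A class of degree two vanishes if its images under all the coordinates of an equivariant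
basis do. -/
lemma cl₂_eq_zero_of_coords {ι : Type} [Fintype ι] (b : Module.Basis ι R M)
    {ρR : ι → Representation R G R} (hb : ∀ i, IsEquivariant ρ (ρR i) (MonoidHom.id G) (b.coord i))
    (x : H2 L ρ) (hx : ∀ i, map₂ (IsLevelsHom.id L) (hb i) x = 0) : x = 0 := by
  classical
  obtain ⟨z, rfl⟩ := cl₂_surjective x
  choose c hc1 hc using fun i => cl₂_eq_zero.mp (hx i)
  have hLC : ∀ s : Finset ι, L.IsLC₁ fun g => ∑ i ∈ s, c i g • b i := fun s => by
    induction s using Finset.induction with
    | empty => simpa using Levels.IsLC₁.const (L := L) (0 : M)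
    | insert i s hi ih =>
      simp only [Finset.sum_insert hi]
      exact ((hc1 i).comp (· • b i)).map₂ ih (· + ·)
  refine cl₂_eq_zero.mpr ⟨fun g => ∑ i, c i g • b i, hLC _,
    funext₂ fun g j => b.ext_elem fun i => ?_⟩
  have h := congrFun (congrFun (hc i) g) j
  simp only [d₁_apply, mapZ2_apply, Module.Basis.coord_apply, MonoidHom.id_apply] at h
  rw [d₁_apply, ← h, map_add, map_sub, Finsupp.add_apply, Finsupp.sub_apply, b.repr_sum_self,
    b.repr_sum_self]
  congr 2
  have := hb i g (∑ i, c i j • b i)
  simp only [Module.Basis.coord_apply, MonoidHom.id_apply, b.repr_sum_self] at this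
  exact this

end General

section Field

variable {G : Type} [Group G] {R : Type} [Field R] {L : Levels G} {χ : G →* Rˣ}

/-- What duality needs to know about the line `χ`. -/
structure DualityData (L : Levels G) (χ : G →* Rˣ) where
  /-- The character is trivial on some level. -/
  charSmooth : CharSmooth L χ
  /-- The invariant map, identifying `H²` of the line with the field. -/
  inv : H2 L (charRep χ) ≃ₗ[R] R
  /-- Corestriction from a subgroup containing a level is injective on `H²` of the line. -/
  sum_injective : ∀ (H : Subgroup G) [H.FiniteIndex], ContainsLevel L H →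
    Function.Injective (map₂ (IsLevelsHom.id L) (indSum_equivariant (H := H) (ρ := charRep χ)))
  /-- On a subgroup with a level where `χ` is trivial `H²` of the trivial module is nonzero. -/
  exists_ne_zero : ∀ H : Subgroup G, ContainsLevel L H → (∀ h ∈ H, χ h = 1) →
    ∃ c : H2 (subLevels L H) (Representation.trivial R H R), c ≠ 0
  /-- On such a subgroup `H¹` of the trivial module is finite-dimensional. -/
  finite_H1 : ∀ H : Subgroup G, ContainsLevel L H → (∀ h ∈ H, χ h = 1) →
    FiniteDimensional R (H1 (subLevels L H) (Representation.trivial R H R))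
  /-- On such a subgroup the cup product on `H¹` is non-degenerate. -/
  cup_nondegenerate : ∀ H : Subgroup G, ContainsLevel L H → (∀ h ∈ H, χ h = 1) →
    ∀ x : H1 (subLevels L H) (Representation.trivial R H R), x ≠ 0 →
      ∃ y, cup11 (P := LinearMap.mul R R)
        (ρW := Representation.trivial R H R) (fun _ _ _ => rfl)
        (isSmooth_trivial _) (isSmooth_trivial _) x y ≠ 0

variable {M M' : Type} [AddCommGroup M] [Module R M] [AddCommGroup M'] [Module R M']
  {ρ : Representation R G M} {ρ' : Representation R G M'}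

/-- Restricted to a subgroup fixing everything the action is trivial. -/
lemma comp_subtype_eq_trivial {H : Subgroup G} (h : ∀ k ∈ H, ∀ m, ρ k m = m) :
    ρ.comp H.subtype = Representation.trivial R H M :=
  MonoidHom.ext fun k => LinearMap.ext fun m => h k k.2 m

namespace DualityData

variable (D : DualityData L χ)

/-- Any linear form is equivariant to the trivial line on a subgroup fixing everything. -/
lemma form_equivariant {H : Subgroup G}
    (hM : ∀ k ∈ H, ∀ m, ρ k m = m) (f : M →ₗ[R] R) :
    IsEquivariant (ρ.comp H.subtype) (Representation.trivial R H R) (MonoidHom.id H) f :=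
  fun g m => congrArg f (hM g g.2 m)

section Induced

variable {H : Subgroup G} [H.FiniteIndex] (hH : ContainsLevel L H) (hχ : ∀ k ∈ H, χ k = 1)
  (hM : ∀ k ∈ H, ∀ m, ρ k m = m) (hM' : ∀ k ∈ H, ∀ m, ρ' k m = m)
  {P : M →ₗ[R] M' →ₗ[R] R} (hP : IsPairing ρ ρ' (charRep χ) P)
  (hflip : Function.Surjective P.flip) [FiniteDimensional R M]

include hχ in
omit [H.FiniteIndex] in
/-- A subgroup on which `χ` is trivial fixes the line `χ`. -/
lemma charRep_fix : ∀ k ∈ H, ∀ a : R, charRep χ k a = a := fun k hk a => by simp [hχ k hk]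

include D hH hχ hM hM' hP hflip

omit hM in
/-- Invariants of an induced module are detected by `H²` of the dual induced module. -/
theorem ind_cup02_ne_zero (a : H0 (indRep H ρ)) (ha : a ≠ 0) :
    ∃ y : H2 L (indRep H ρ'), cup02 hP.indPairing a y ≠ 0 := by
  have hρ : IsSmooth L ρ' := fun m =>
    let ⟨N, hN, h⟩ := hH; ⟨N, hN, fun s hs => hM' s (h hs) m⟩
  set m := (shapiro₀ H ρ a).1 with hm
  have hm0 : m ≠ 0 := fun h => ha (shapiro₀_bijective.injective
    (by rw [map_zero]; exact Subtype.ext h))
  obtain ⟨f, hf⟩ : ∃ f : Module.Dual R M, f m ≠ 0 := by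
    by_contra hno
    push Not at hno
    exact hm0 ((Module.forall_dual_apply_eq_zero_iff R m).mp hno)
  obtain ⟨m', rfl⟩ := hflip f
  obtain ⟨c, hc⟩ := D.exists_ne_zero H hH hχ
  -- the class `c ⊗ m'`
  have hincl : IsEquivariant (Representation.trivial R H R) (ρ'.comp H.subtype) (MonoidHom.id H)
      (LinearMap.toSpanSingleton R M' m') := fun g r => by
    simp [hM' g g.2]
  obtain ⟨y, hy⟩ := (shapiro₂_bijective hH hρ).surjective
    (map₂ (IsLevelsHom.id _) hincl c)
  refine ⟨y, fun h0 => hc ?_⟩
  have h1 : map₂ (IsLevelsHom.id L) (indSum_equivariant (H := H) (ρ := charRep χ))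
      (cup02 hP.indMul a y) = 0 := by
    rw [map_cup02 hP.indMul hP.indPairing (IsLevelsHom.id L) (IsEquivariant.id _)
      (IsEquivariant.id _) indSum_equivariant (fun _ _ => rfl), map₂_id]
    exact h0
  have h2 := D.sum_injective H hH (h1.trans (map_zero _).symm)
  have h3 : shapiro₂ L H (charRep χ) (cup02 hP.indMul a y) = 0 := by rw [h2, map_zero]
  unfold shapiro₂ at h3
  rw [map_cup02 hP.indMul (hP.comp H.subtype) (IsLevelsHom.comap L H.subtype) evOne_equivariant
    evOne_equivariant evOne_equivariant (fun _ _ => rfl)] at h3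
  change cup02 (hP.comp H.subtype) (shapiro₀ H ρ a) (shapiro₂ L H ρ' y) = 0 at h3
  rw [hy] at h3
  obtain ⟨z, rfl⟩ := cl₂_surjective c
  rw [map₂_cl₂] at h3
  obtain ⟨x, hx1, hx⟩ := cl₂_eq_zero.mp h3
  refine cl₂_eq_zero.mpr ⟨fun g => (P m m')⁻¹ * x g, hx1.comp _, funext₂ fun g j => ?_⟩
  have hgj := congrFun (congrFun hx g) j
  change d₁ ((charRep χ).comp H.subtype) x g j = P m (z.1 g j • m') at hgj
  rw [map_smul, smul_eq_mul] at hgj
  simp only [d₁_apply, comp_subtype_eq_trivial (charRep_fix hχ),
    Representation.trivial_apply] at hgj ⊢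
  rw [← mul_sub, ← mul_add, hgj, mul_comm (z.1 g j), inv_mul_cancel_left₀ (a := P m m') hf]

/-- `H²` of an induced module is detected by the invariants of the dual induced module. -/
theorem ind_cup02_flip_ne_zero
    (x : H2 L (indRep H ρ)) (hx : x ≠ 0) :
    ∃ a : H0 (indRep H ρ'), cup02 hP.flip.indPairing a x ≠ 0 := by
  have hρ : IsSmooth L ρ := fun m =>
    let ⟨N, hN, h⟩ := hH; ⟨N, hN, fun s hs => hM s (h hs) m⟩
  -- by Shapiro some coordinate of the class on `H` is nonzero
  set z := shapiro₂ L H ρ x with hz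
  have hz0 : z ≠ 0 := fun h =>
    hx ((shapiro₂_bijective hH hρ).injective (h.trans (map_zero _).symm))
  set b := Module.finBasis R M
  obtain ⟨i, hi⟩ : ∃ i, map₂ (IsLevelsHom.id _) (form_equivariant hM (b.coord i)) z ≠ 0 := by
    by_contra hno
    push Not at hno
    exact hz0 (cl₂_eq_zero_of_coords b _ z hno)
  -- pair with the invariant function corresponding to the coordinate form
  obtain ⟨m', hm'⟩ := hflip (b.coord i)
  obtain ⟨a, ha⟩ := shapiro₀_bijective.surjective
    (⟨m', mem_ker_d₀.mpr fun g => hM' g g.2 m'⟩ : H0 (ρ'.comp H.subtype))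
  refine ⟨a, fun h0 => hi ?_⟩
  have h1 : map₂ (IsLevelsHom.id L) (indSum_equivariant (H := H) (ρ := charRep χ))
      (cup02 hP.flip.indMul a x) = 0 := by
    rw [map_cup02 hP.flip.indMul hP.flip.indPairing (IsLevelsHom.id L) (IsEquivariant.id _)
      (IsEquivariant.id _) indSum_equivariant (fun _ _ => rfl), map₂_id]
    exact h0
  -- a zero pairing kills the coordinate, as summation is injective on `H²`
  have h2 := D.sum_injective H hH (h1.trans (map_zero _).symm)
  have h3 : shapiro₂ L H (charRep χ) (cup02 hP.flip.indMul a x) = 0 := by rw [h2, map_zero]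
  unfold shapiro₂ at h3
  rw [map_cup02 hP.flip.indMul (hP.flip.comp H.subtype) (IsLevelsHom.comap L H.subtype)
    evOne_equivariant evOne_equivariant evOne_equivariant (fun _ _ => rfl)] at h3
  change cup02 (hP.flip.comp H.subtype) (shapiro₀ H ρ' a) z = 0 at h3
  rw [ha] at h3
  obtain ⟨w, hw⟩ := cl₂_surjective z
  rw [← hw] at h3 ⊢
  obtain ⟨y, hy1, hy⟩ := cl₂_eq_zero.mp h3
  refine cl₂_eq_zero.mpr ⟨y, hy1, funext₂ fun g j => ?_⟩
  have hgj := congrFun (congrFun hy g) j
  change d₁ ((charRep χ).comp H.subtype) y g j = P (w.1 g j) m' at hgj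
  simp only [comp_subtype_eq_trivial (charRep_fix hχ)] at hgj
  rw [hgj, mapZ2_apply]
  exact LinearMap.congr_fun hm' _

/-- `H¹` of an induced module is detected by `H¹` of the dual induced module. -/
theorem ind_cup11_ne_zero (x : H1 L (indRep H ρ)) (hx : x ≠ 0) :
    ∃ y : H1 L (indRep H ρ'), cup11 hP.indPairing
      (isSmooth_indRep hH fun m => let ⟨N, hN, h⟩ := hH; ⟨N, hN, fun s hs => hM' s (h hs) m⟩)
      (isSmooth_indRep hH fun m => let ⟨N, hN, h⟩ := hH; ⟨N, hN, fun s hs => hM s (h hs) m⟩)
      x y ≠ 0 := by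
  have hρ : IsSmooth L ρ := fun m =>
    let ⟨N, hN, h⟩ := hH; ⟨N, hN, fun s hs => hM s (h hs) m⟩
  have hρ' : IsSmooth L ρ' := fun m =>
    let ⟨N, hN, h⟩ := hH; ⟨N, hN, fun s hs => hM' s (h hs) m⟩
  set z := shapiro₁ L H ρ x with hz
  have hz0 : z ≠ 0 := fun h =>
    hx ((shapiro₁_bijective hH).injective (h.trans (map_zero _).symm))
  set b := Module.finBasis R M
  -- some coordinate of `x` on `H` is a nonzero class, detected by a class `y₀`
  obtain ⟨i, hi⟩ : ∃ i, map₁ (IsLevelsHom.id _) (form_equivariant hM (b.coord i)) z ≠ 0 := by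
    by_contra hno
    push Not at hno
    exact hz0 (cl₁_eq_zero_of_coords b _ z hno)
  obtain ⟨m', hm'⟩ := hflip (b.coord i)
  obtain ⟨y₀, hy₀⟩ := D.cup_nondegenerate H hH hχ _ hi
  have hincl : IsEquivariant (Representation.trivial R H R) (ρ'.comp H.subtype) (MonoidHom.id H)
      (LinearMap.toSpanSingleton R M' m') := fun g r => by
    simp [hM' g g.2]
  obtain ⟨y, hy⟩ := (shapiro₁_bijective hH).surjective (map₁ (IsLevelsHom.id _) hincl y₀)
  -- if `x ∪ y` vanished, so would the product in the induced line (summing is injective), hence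
  -- its Shapiro image, which is that coordinate cup `y₀`
  refine ⟨y, fun h0 => hy₀ ?_⟩
  have h1 : map₂ (IsLevelsHom.id L) (indSum_equivariant (H := H) (ρ := charRep χ))
      (cup11 hP.indMul (isSmooth_indRep hH hρ') (isSmooth_indRep hH hρ) x y) = 0 := by
    rw [map_cup11 hP.indMul (isSmooth_indRep hH hρ') hP.indPairing (IsLevelsHom.id L)
      (IsEquivariant.id _) (IsEquivariant.id _) indSum_equivariant (fun _ _ => rfl)
      (isSmooth_indRep hH hρ) (isSmooth_indRep hH hρ) (isSmooth_indRep hH hρ'),
      map₁_id, map₁_id]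
    exact h0
  have h2 := D.sum_injective H hH (h1.trans (map_zero _).symm)
  have h3 : shapiro₂ L H (charRep χ)
      (cup11 hP.indMul (isSmooth_indRep hH hρ') (isSmooth_indRep hH hρ) x y) = 0 := by
    rw [h2, map_zero]
  unfold shapiro₂ at h3
  have hs := IsLevelsHom.comap L H.subtype
  rw [map_cup11 hP.indMul (isSmooth_indRep hH hρ') (hP.comp H.subtype) hs evOne_equivariant
    evOne_equivariant evOne_equivariant (fun _ _ => rfl) (isSmooth_indRep hH hρ)
    (IsSmooth.comp hs hρ) (IsSmooth.comp hs hρ')] at h3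
  change cup11 (hP.comp H.subtype) _ _ z (shapiro₁ L H ρ' y) = 0 at h3
  rw [hy] at h3
  obtain ⟨w, hw⟩ := cl₁_surjective z
  obtain ⟨v, rfl⟩ := cl₁_surjective y₀
  rw [← hw] at h3 ⊢
  obtain ⟨u, hu1, hu⟩ := cl₂_eq_zero.mp h3
  refine cl₂_eq_zero.mpr ⟨u, hu1, funext₂ fun g j => ?_⟩
  have hgj := congrFun (congrFun hu g) j
  change d₁ ((charRep χ).comp H.subtype) u g j =
    P (w.1 g) (ρ' (g : G) (v.1 j • m')) at hgj
  simp only [comp_subtype_eq_trivial (charRep_fix hχ), hM' _ g.2] at hgj
  rw [map_smul, smul_eq_mul, mul_comm] at hgj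
  rw [hgj]
  change P (w.1 g) m' * v.1 j = b.coord i (w.1 g) * v.1 j
  rw [← hm', LinearMap.flip_apply]

end Induced

end DualityData

end Field

end Fermat.CFT.Coh
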