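import Fermat.Agent.CFT.Coh.Duality

/-!
# Duality for all finite-dimensional smooth modules

`α₁_bijective`, `α₂_bijective` and the right exactness `π₂_surjective`, from the data of `Duality`.
`CFT/Local/Data` provides such data at a decomposition group, where `CFT/Global/Setup` uses the
theorems.
-/

set_option autoImplicit false
set_option linter.unusedSectionVars false

noncomputable section

namespace Fermat.CFT.Coh

attribute [local instance] Subgroup.fintypeQuotientOfFiniteIndex

variable {G : Type} [Group G] {R : Type} [Field R] {L : Levels G} {χ : G →* Rˣ}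

namespace DualityData

variable (D : DualityData L χ) {M M' : Type} [AddCommGroup M] [Module R M] [AddCommGroup M']
  [Module R M'] {ρ : Representation R G M} {ρ' : Representation R G M'}
  [FiniteDimensional R M] [FiniteDimensional R M']

include D in
/-- An open subgroup of finite index trivial on `χ` and on two given modules. -/
lemma exists_common_level (hρ : IsSmooth L ρ) (hρ' : IsSmooth L ρ') :
    ∃ H : Subgroup G, H.FiniteIndex ∧ ContainsLevel L H ∧ (∀ k ∈ H, χ k = 1) ∧
      (∀ k ∈ H, ∀ m, ρ k m = m) ∧ ∀ k ∈ H, ∀ m, ρ' k m = m := by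
  obtain ⟨N₁, hN₁, h1⟩ := hρ.exists_fix_all
  obtain ⟨N₂, hN₂, h2⟩ := hρ'.exists_fix_all
  obtain ⟨N₃, hN₃, h3⟩ := D.charSmooth
  obtain ⟨N, hN, i1, i2⟩ := L.exists_le N₁ N₂ hN₁ hN₂
  obtain ⟨H, hH, j1, j2⟩ := L.exists_le N N₃ hN hN₃
  exact ⟨H, L.finiteIndex H hH, ⟨H, hH, le_rfl⟩, fun k hk => h3 k (j2 hk),
    fun k hk => h1 k (i1 (j1 hk)), fun k hk => h2 k (i2 (j1 hk))⟩

include D in
/-- Invariants are detected by `H²` of a dual module. -/
theorem cup02_ne_zero (hρ : IsSmooth L ρ) (hρ' : IsSmooth L ρ') {P : M →ₗ[R] M' →ₗ[R] R}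
    (hP : IsPairing ρ ρ' (charRep χ) P) (hflip : Function.Surjective P.flip)
    (a : H0 ρ) (ha : a ≠ 0) : ∃ y : H2 L ρ', cup02 hP a y ≠ 0 := by
  obtain ⟨H, hHf, hH, hχ, hM, hM'⟩ := D.exists_common_level hρ hρ'
  have hne : map₀ (indDiag_equivariant (H := H) (ρ := ρ)) a ≠ 0 := fun h => ha (by
    have h1 := congrFun (congrArg Subtype.val h) ((1 : G) : G ⧸ H)
    exact Subtype.ext h1)
  obtain ⟨y, hy⟩ := D.ind_cup02_ne_zero hH hχ hM' hP hflip _ hne
  refine ⟨map₂ (IsLevelsHom.id L) (indSum_equivariant (H := H) (ρ := ρ')) y, fun h0 => hy ?_⟩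
  have hQ : IsPairing ρ (indRep H ρ') (charRep χ) (P.compl₂ (indSum R M' H)) := fun g m f => by
    change P (ρ g m) (indSum R M' H (indRep H ρ' g f)) = charRep χ g (P m (indSum R M' H f))
    rw [← hP g, ← indSum_equivariant (ρ := ρ') g f]
    rfl
  have e1 : map₂ (IsLevelsHom.id L) (IsEquivariant.id (charRep χ)) (cup02 hQ a y) =
      cup02 hP a (map₂ (IsLevelsHom.id L) (indSum_equivariant (H := H) (ρ := ρ')) y) := by
    rw [map_cup02 hQ hP (IsLevelsHom.id L) (IsEquivariant.id _)
      indSum_equivariant (IsEquivariant.id _) (fun _ _ => rfl)]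
    rfl
  have e2 : map₂ (IsLevelsHom.id L) (IsEquivariant.id (charRep χ)) (cup02 hQ a y) =
      cup02 hP.indPairing (map₀ indDiag_equivariant a) y := by
    rw [map_cup02 hQ hP.indPairing (IsLevelsHom.id L) indDiag_equivariant
      (IsEquivariant.id _) (IsEquivariant.id _) (fun m f => by simp [map_sum]), map₂_id]
  rw [← e2, e1, h0]

variable (ρ) in
/-- Cup product `H⁰(M) → H²(M*)*`. -/
def α₀ : H0 ρ →ₗ[R] Module.Dual R (H2 L (dualRep χ ρ)) :=
  (cup02 (isPairing_eval ρ)).compr₂ D.inv.toLinearMap

variable (ρ) in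
/-- Cup product `H²(M) → H⁰(M*)*`. -/
def α₂ : H2 L ρ →ₗ[R] Module.Dual R (H0 (dualRep χ ρ)) :=
  ((cup02 (isPairing_eval (χ := χ) ρ).flip).compr₂ D.inv.toLinearMap).flip

/-- Cup product `H¹(M) → H¹(M*)*`. -/
def α₁ (hρ : IsSmooth L ρ) : H1 L ρ →ₗ[R] Module.Dual R (H1 L (dualRep χ ρ)) :=
  (cup11 (isPairing_eval ρ) (isSmooth_dualRep D.charSmooth hρ) hρ).compr₂ D.inv.toLinearMap

/-- The value of `α₀`. -/
@[simp] lemma α₀_apply (a : H0 ρ) (y : H2 L (dualRep χ ρ)) :
    D.α₀ ρ a y = D.inv (cup02 (isPairing_eval ρ) a y) := rfl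

/-- The value of `α₂`. -/
@[simp] lemma α₂_apply (x : H2 L ρ) (a : H0 (dualRep χ ρ)) :
    D.α₂ ρ x a = D.inv (cup02 (isPairing_eval ρ).flip a x) := rfl

/-- The value of `α₁`. -/
@[simp] lemma α₁_apply (hρ : IsSmooth L ρ) (x : H1 L ρ) (y : H1 L (dualRep χ ρ)) :
    D.α₁ hρ x y = D.inv (cup11 (isPairing_eval ρ) (isSmooth_dualRep D.charSmooth hρ) hρ x y) :=
  rfl

section Induced

variable {H : Subgroup G} [H.FiniteIndex] (hH : ContainsLevel L H) (hχ : ∀ k ∈ H, χ k = 1)
  (hM : ∀ k ∈ H, ∀ m, ρ k m = m)

include hχ hM in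
omit [FiniteDimensional R M'] in
/-- A subgroup fixing `χ` and the module fixes the twisted dual. -/
lemma dualRep_fix : ∀ k ∈ H, ∀ f : Module.Dual R M, dualRep χ ρ k f = f := fun k hk f =>
  LinearMap.ext fun m => by rw [dualRep_apply, hχ k hk, hM _ (inv_mem hk)]; simp

include D hH hχ hM

omit D hχ in
/-- The module induced from an open subgroup acting trivially is smooth. -/
lemma ind_smooth : IsSmooth L (indRep H ρ) :=
  isSmooth_indRep hH fun m => let ⟨N, hN, h⟩ := hH; ⟨N, hN, fun s hs => hM s (h hs) m⟩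

/-- `H¹` of such an induced module is finite-dimensional. -/
lemma finite_H1_ind : FiniteDimensional R (H1 L (indRep H ρ)) := by
  set b := Module.finBasis R M
  have := D.finite_H1 H hH hχ
  refine FiniteDimensional.of_injective
    ((LinearMap.pi fun i => map₁ (IsLevelsHom.id _)
      (form_equivariant hM (b.coord i))).comp
        (shapiro₁ L H ρ))
    ((injective_iff_map_eq_zero _).mpr fun x hx => (shapiro₁_bijective hH).injective
      ((cl₁_eq_zero_of_coords b _ _ fun i => congrFun hx i).trans (map_zero _).symm))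

/-- For an induced module `α₀` is injective. -/
lemma α₀_ind_injective : Function.Injective (D.α₀ (indRep H ρ)) := by
  rw [← LinearMap.ker_eq_bot, LinearMap.ker_eq_bot']
  intro a ha
  by_contra hne
  obtain ⟨y, hy⟩ := D.ind_cup02_ne_zero hH hχ (dualRep_fix hχ hM) (isPairing_eval ρ)
    (fun f => ⟨f, rfl⟩) a hne
  refine hy (D.inv.injective ?_)
  have := LinearMap.congr_fun ha (map₂ (IsLevelsHom.id L) indDualMap_equivariant y)
  rw [α₀_apply] at this
  rw [map_zero]
  refine Eq.trans (congrArg D.inv ?_) this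
  rw [← map₂_id (cup02 (isPairing_eval ρ).indPairing a y),
    map_cup02 (isPairing_eval ρ).indPairing (isPairing_eval (indRep H ρ)) (IsLevelsHom.id L)
      (IsEquivariant.id _) indDualMap_equivariant (IsEquivariant.id _) (fun f f' => by simp)]
  rfl

/-- For an induced module only the zero class of degree two of the dual is orthogonal to all
invariants. -/
lemma α₀_ind_flip_injective : Function.Injective (D.α₀ (indRep H ρ)).flip := by
  rw [← LinearMap.ker_eq_bot, LinearMap.ker_eq_bot']
  intro y hy
  obtain ⟨y, rfl⟩ := (map₂_bijective (L := L) (indDualMap_equivariant (χ := χ) (ρ := ρ) (H := H))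
    indDualMap_bijective).surjective y
  by_contra hne
  obtain ⟨a, ha⟩ := D.ind_cup02_flip_ne_zero hH hχ (dualRep_fix hχ hM) hM (isPairing_eval ρ).flip
    (fun f => ⟨(Module.evalEquiv R M).symm f, by
      refine LinearMap.ext fun g => ?_
      change g ((Module.evalEquiv R M).symm f) = f g
      rw [Module.apply_evalEquiv_symm_apply]⟩)
    y (fun h => hne (by rw [h, map_zero]))
  refine ha (D.inv.injective ?_)
  have := LinearMap.congr_fun hy a
  rw [LinearMap.flip_apply, α₀_apply] at this
  rw [map_zero]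
  refine Eq.trans (congrArg D.inv ?_) this
  rw [← map₂_id (cup02 (isPairing_eval ρ).flip.flip.indPairing a y),
    map_cup02 (isPairing_eval ρ).flip.flip.indPairing (isPairing_eval (indRep H ρ))
      (IsLevelsHom.id L)
      (IsEquivariant.id _) indDualMap_equivariant (IsEquivariant.id _) (fun f f' => by simp)]
  rfl

/-- Cup product in degree one is injective on induced modules. -/
lemma α₁_ind_injective : Function.Injective (D.α₁ (ind_smooth hH hM)) := by
  rw [← LinearMap.ker_eq_bot, LinearMap.ker_eq_bot']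
  intro x hx
  by_contra hne
  obtain ⟨y, hy⟩ := D.ind_cup11_ne_zero hH hχ hM (dualRep_fix hχ hM) (isPairing_eval ρ)
    (fun f => ⟨f, rfl⟩) x hne
  refine hy (D.inv.injective ?_)
  have := LinearMap.congr_fun hx (map₁ (IsLevelsHom.id L) indDualMap_equivariant y)
  rw [α₁_apply] at this
  rw [map_zero]
  refine Eq.trans (congrArg D.inv ?_) this
  have hsd : IsSmooth L (indRep H (dualRep χ ρ)) := isSmooth_indRep hH fun f =>
    let ⟨N, hN, h⟩ := hH; ⟨N, hN, fun s hs => dualRep_fix hχ hM s (h hs) f⟩
  rw [← map₂_id (cup11 (isPairing_eval ρ).indPairing hsd (ind_smooth hH hM) x y),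
    map_cup11 (isPairing_eval ρ).indPairing hsd (isPairing_eval (indRep H ρ)) (IsLevelsHom.id L)
      (IsEquivariant.id _) indDualMap_equivariant (IsEquivariant.id _) (fun f f' => by simp)
      (ind_smooth hH hM) (ind_smooth hH hM)
      (isSmooth_dualRep D.charSmooth (ind_smooth hH hM)),
    map₁_id]

/-- For an induced module `α₀` is surjective. -/
lemma α₀_ind_surjective : Function.Surjective (D.α₀ (indRep H ρ)) := by
  have : FiniteDimensional R (H2 L (dualRep χ (indRep H ρ))) :=
    FiniteDimensional.of_injective _ (D.α₀_ind_flip_injective hH hχ hM)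
  have e := LinearMap.finrank_le_finrank_of_injective (D.α₀_ind_injective hH hχ hM)
  have e' := LinearMap.finrank_le_finrank_of_injective (D.α₀_ind_flip_injective hH hχ hM)
  rw [Subspace.dual_finrank_eq] at e e'
  exact (LinearMap.injective_iff_surjective_of_finrank_eq_finrank
    (by rw [Subspace.dual_finrank_eq]; exact le_antisymm e e')).mp (D.α₀_ind_injective hH hχ hM)

end Induced

/-! ### The theorems -/

variable (hρ : IsSmooth L ρ)

include D hρ

/-- Invariants inject into the dual of `H²` of the twisted dual. -/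
theorem α₀_injective : Function.Injective (D.α₀ ρ) := by
  rw [← LinearMap.ker_eq_bot, LinearMap.ker_eq_bot']
  intro a ha
  by_contra hne
  obtain ⟨y, hy⟩ := D.cup02_ne_zero hρ (isSmooth_dualRep D.charSmooth hρ) (isPairing_eval ρ)
    (fun f => ⟨f, rfl⟩) a hne
  exact hy (D.inv.injective ((LinearMap.congr_fun ha y).trans (map_zero _).symm))

/-- Every functional on the invariants of the dual is cup product with a class of degree two. -/
theorem α₂_surjective : Function.Surjective (D.α₂ ρ) := by
  have h1 : Function.Injective (D.α₂ ρ).flip := by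
    refine (injective_iff_map_eq_zero _).mpr ?_
    intro a ha
    by_contra hne
    obtain ⟨y, hy⟩ := D.cup02_ne_zero (isSmooth_dualRep D.charSmooth hρ) hρ
      (isPairing_eval ρ).flip (fun f => ⟨(Module.evalEquiv R M).symm f, by
        refine LinearMap.ext fun g => ?_
        change g ((Module.evalEquiv R M).symm f) = f g
        rw [Module.apply_evalEquiv_symm_apply]⟩) a hne
    exact hy (D.inv.injective ((LinearMap.congr_fun ha y).trans (map_zero _).symm))
  rw [← LinearMap.range_eq_top, ← Submodule.dualAnnihilator_eq_bot_iff]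
  rw [eq_bot_iff]
  intro Φ hΦ
  have : FiniteDimensional R (H0 (dualRep χ ρ)) := inferInstance
  have : Module.Free R (H0 (dualRep χ ρ)) := Module.Free.of_divisionRing R (H0 (dualRep χ ρ))
  obtain ⟨a, rfl⟩ := (Module.evalEquiv R (H0 (dualRep χ ρ))).surjective Φ
  rw [Submodule.mem_dualAnnihilator] at hΦ
  have : (D.α₂ ρ).flip a = 0 := LinearMap.ext fun x => by
    have := hΦ _ (LinearMap.mem_range_self (D.α₂ ρ) x)
    simpa using this
  rw [h1 (this.trans (map_zero _).symm), map_zero]
  exact zero_mem _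

omit D hρ in
/-- The sequence embedding `M` in an induced module. -/
def indSES (H : Subgroup G) [H.FiniteIndex] (hH : ContainsLevel L H) (hρ : IsSmooth L ρ) :=
  SES.ofInjective (L := L) (indDiag_equivariant (H := H) (ρ := ρ))
    (fun _ _ h => congrFun h ((1 : G) : G ⧸ H)) (isSmooth_indRep hH hρ)

/-- Cup product gives an injection of `H¹` into the dual of `H¹` of the twisted dual. -/
theorem α₁_injective : Function.Injective (D.α₁ hρ) := by
  obtain ⟨H, hHf, hH, hχ, hM, -⟩ := D.exists_common_level hρ hρ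
  rw [← LinearMap.ker_eq_bot, LinearMap.ker_eq_bot']
  intro x hx
  set S := indSES H hH hρ
  set S' := S.dual D.charSmooth
  -- the image in the induced module vanishes
  have h1 : S.ι₁ x = 0 := by
    refine D.α₁_ind_injective hH hχ hM (Eq.trans (LinearMap.ext fun y => ?_) (map_zero _).symm)
    have h := LinearMap.congr_fun hx (S'.π₁ y)
    rw [α₁_apply] at h ⊢
    rw [LinearMap.zero_apply, ← map_zero D.inv]
    rw [LinearMap.zero_apply, ← map_zero D.inv] at h
    refine congrArg D.inv (Eq.trans ?_ (D.inv.injective h))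
    have hQ : IsPairing ρ (dualRep χ (indRep H ρ)) (charRep χ)
        ((evalPairing R ((G ⧸ H) → M)).comp (indDiag R M H)) := fun g m f =>
      Eq.trans (congrArg (fun z => evalPairing R _ z (dualRep χ (indRep H ρ) g f))
        (indDiag_equivariant g m)) (isPairing_eval (indRep H ρ) g _ f)
    have hsB := ind_smooth hH hM
    have e1 := map_cup11 hQ (isSmooth_dualRep D.charSmooth hsB) (isPairing_eval (indRep H ρ))
      (IsLevelsHom.id L) (indDiag_equivariant) (IsEquivariant.id _) (IsEquivariant.id _)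
      (fun _ _ => rfl) hρ hsB (isSmooth_dualRep D.charSmooth hsB) x y
    have e2 := map_cup11 hQ (isSmooth_dualRep D.charSmooth hsB) (isPairing_eval ρ)
      (IsLevelsHom.id L) (IsEquivariant.id _) S'.π_eq (IsEquivariant.id _)
      (fun _ _ => rfl) hρ hρ (isSmooth_dualRep D.charSmooth hρ) x y
    rw [map₂_id, map₁_id] at e1 e2
    exact e1.symm.trans e2
  obtain ⟨c, rfl⟩ := (S.exact₁A x).mp h1
  -- `α₀ c` kills the image of the connecting map, so it comes from the induced module
  have hC := isPairing_eval (χ := χ) (quotRep (indRep H ρ) (LinearMap.range (indDiag R M H))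
    (range_le_comap indDiag_equivariant))
  have hker : LinearMap.ker S'.ι₂ ≤ LinearMap.ker (D.α₀ _ c) := by
    intro z hz
    obtain ⟨y, rfl⟩ := (S'.exact₂A z).mp hz
    have h := LinearMap.congr_fun hx y
    rw [α₁_apply, LinearMap.zero_apply] at h
    change D.inv (cup02 hC c (S'.δ₁ y)) = 0
    have e := S.cup11_δ₀ S' (isPairing_eval ρ) (isPairing_eval (indRep H ρ)) hC
      (fun _ _ => rfl) (fun _ _ => rfl) c y
    rw [← neg_eq_zero, ← map_neg]
    exact (congrArg D.inv e.symm).trans h
  obtain ⟨Θ, hΘ⟩ : D.α₀ _ c ∈ LinearMap.range S'.ι₂.dualMap := by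
    rw [LinearMap.range_dualMap_eq_dualAnnihilator_ker, Submodule.mem_dualAnnihilator]
    exact fun z hz => hker hz
  obtain ⟨b, rfl⟩ := D.α₀_ind_surjective hH hχ hM Θ
  have hb : c = S.π₀ b := by
    refine D.α₀_injective S.smoothC (LinearMap.ext fun z => ?_)
    rw [← hΘ]
    change D.inv (cup02 (isPairing_eval (indRep H ρ)) b (S'.ι₂ z)) = D.inv (cup02 hC (S.π₀ b) z)
    refine congrArg D.inv ?_
    have hQ : IsPairing (indRep H ρ) (dualRep χ _) (charRep χ)
        ((evalPairing R _).comp (LinearMap.range (indDiag R M H)).mkQ) := fun g f φ =>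
      hC g ((LinearMap.range (indDiag R M H)).mkQ f) φ
    have e1 := map_cup02 hQ (isPairing_eval (indRep H ρ)) (IsLevelsHom.id L) (IsEquivariant.id _)
      S'.ι_eq (IsEquivariant.id _) (fun _ _ => rfl) b z
    have e2 := map_cup02 hQ hC (IsLevelsHom.id L) S.π_eq
      (IsEquivariant.id _) (IsEquivariant.id _) (fun _ _ => rfl) b z
    rw [map₂_id] at e1 e2
    rw [map₂_id] at e2
    exact e1.symm.trans e2
  rw [hb]
  exact (S.exact₀C (S.π₀ b)).mpr ⟨b, rfl⟩

/-- `H¹` of a finite-dimensional smooth module is finite-dimensional. -/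
theorem finiteDimensional_H1 : FiniteDimensional R (H1 L ρ) := by
  obtain ⟨H, hHf, hH, hχ, hM, -⟩ := D.exists_common_level hρ hρ
  set S := indSES H hH hρ
  have := D.finite_H1_ind hH hχ hM
  have h1 : FiniteDimensional R (LinearMap.range S.ι₁) := inferInstance
  have h2 : FiniteDimensional R (LinearMap.ker S.ι₁) := by
    rw [LinearMap.exact_iff.mp S.exact₁A]
    infer_instance
  have : FiniteDimensional R (H1 L ρ ⧸ LinearMap.ker S.ι₁) :=
    Module.Finite.equiv S.ι₁.quotKerEquivRange.symm
  exact Module.Finite.of_submodule_quotient (LinearMap.ker S.ι₁)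

omit [FiniteDimensional R M'] in
/-- `H¹` is no larger than `H¹` of the twisted dual. -/
theorem finrank_H1_le :
    Module.finrank R (H1 L ρ) ≤ Module.finrank R (H1 L (dualRep χ ρ)) := by
  have := D.finiteDimensional_H1 (isSmooth_dualRep D.charSmooth hρ)
  simpa [Subspace.dual_finrank_eq] using
    LinearMap.finrank_le_finrank_of_injective (D.α₁_injective hρ)

/-- `H¹` and `H¹` of the twisted dual have the same dimension. -/
theorem finrank_H1_dual :
    Module.finrank R (H1 L (dualRep χ ρ)) = Module.finrank R (H1 L ρ) := by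
  refine le_antisymm ?_ (D.finrank_H1_le hρ)
  refine (D.finrank_H1_le (isSmooth_dualRep D.charSmooth hρ)).trans (le_of_eq ?_)
  exact (LinearEquiv.ofBijective _ (map₁_bijective (L := L) (eval_equivariant (χ := χ) ρ)
    (Module.evalEquiv R M).bijective)).finrank_eq.symm

/-- Cup product identifies `H¹` with the dual of `H¹` of the twisted dual. -/
theorem α₁_bijective : Function.Bijective (D.α₁ hρ) := by
  have := D.finiteDimensional_H1 hρ
  have := D.finiteDimensional_H1 (isSmooth_dualRep D.charSmooth hρ)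
  exact ⟨D.α₁_injective hρ, (LinearMap.injective_iff_surjective_of_finrank_eq_finrank
    (by rw [Subspace.dual_finrank_eq, D.finrank_H1_dual hρ])).mp (D.α₁_injective hρ)⟩

/-- Cup product gives an injection of `H²` into the dual of the invariants of the twisted dual. -/
theorem α₂_injective : Function.Injective (D.α₂ ρ) := by
  obtain ⟨H, hHf, hH, hχ, hM, -⟩ := D.exists_common_level hρ hρ
  rw [← LinearMap.ker_eq_bot, LinearMap.ker_eq_bot']
  intro x hx
  set S := indSES H hH hρ
  set S' := S.dual D.charSmooth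
  have hsB := ind_smooth hH hM
  -- `x` dies in the induced module, where invariants detect `H²`
  have h1 : S.ι₂ x = 0 := by
    by_contra hne
    obtain ⟨a, ha⟩ := D.ind_cup02_flip_ne_zero hH hχ hM (dualRep_fix hχ hM) (isPairing_eval ρ)
      (fun f => ⟨f, rfl⟩) _ hne
    refine ha (D.inv.injective ?_)
    rw [map_zero]
    have h := LinearMap.congr_fun hx
      (S'.π₀ (map₀ (indDualMap_equivariant (χ := χ) (ρ := ρ) (H := H)) a))
    rw [α₂_apply, LinearMap.zero_apply] at h
    refine Eq.trans (congrArg D.inv ?_) h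
    have hQ : IsPairing (dualRep χ (indRep H ρ)) ρ (charRep χ)
        ((evalPairing R ((G ⧸ H) → M)).comp (indDiag R M H)).flip := fun g f m =>
      Eq.trans (congrArg (fun z => evalPairing R _ z (dualRep χ (indRep H ρ) g f))
        (indDiag_equivariant g m)) (isPairing_eval (indRep H ρ) g _ f)
    have e0 := map_cup02 (isPairing_eval ρ).flip.indPairing (isPairing_eval (indRep H ρ)).flip
      (IsLevelsHom.id L) indDualMap_equivariant (IsEquivariant.id _) (IsEquivariant.id _)
      (fun f f' => by simp) a (S.ι₂ x)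
    have e1 := map_cup02 hQ (isPairing_eval (indRep H ρ)).flip (IsLevelsHom.id L)
      (IsEquivariant.id _) indDiag_equivariant (IsEquivariant.id _) (fun _ _ => rfl)
      (map₀ indDualMap_equivariant a) x
    have e2 := map_cup02 hQ (isPairing_eval ρ).flip (IsLevelsHom.id L)
      S'.π_eq (IsEquivariant.id _) (IsEquivariant.id _) (fun _ _ => rfl)
      (map₀ indDualMap_equivariant a) x
    rw [map₂_id] at e0 e1 e2
    rw [map₂_id] at e0
    rw [map₂_id] at e2
    exact e0.trans (e1.symm.trans e2)
  -- so `x = δ c`, and `c` pairs to zero with the image of `S'.δ₀`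
  obtain ⟨c, rfl⟩ := (S.exact₂A x).mp h1
  have hC := isPairing_eval (χ := χ) (quotRep (indRep H ρ) (LinearMap.range (indDiag R M H))
    (range_le_comap indDiag_equivariant))
  obtain ⟨Θ, hΘ⟩ : D.α₁ S.smoothC c ∈ LinearMap.range S'.ι₁.dualMap := by
    rw [LinearMap.range_dualMap_eq_dualAnnihilator_ker, Submodule.mem_dualAnnihilator]
    intro z hz
    obtain ⟨y, rfl⟩ := (S'.exact₁A z).mp hz
    have h := LinearMap.congr_fun hx y
    rw [α₂_apply, LinearMap.zero_apply] at h
    rw [α₁_apply]
    refine Eq.trans (congrArg D.inv ?_) h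
    exact (S.cup02_δ₁ S' (isPairing_eval ρ) (isPairing_eval (indRep H ρ)) hC
      (fun _ _ => rfl) (fun _ _ => rfl) c y).symm
  obtain ⟨b, rfl⟩ := (D.α₁_bijective hsB).surjective Θ
  -- by duality for the induced module, `c` lifts to it
  have hb : c = S.π₁ b := by
    refine D.α₁_injective S.smoothC (LinearMap.ext fun z => ?_)
    rw [← hΘ]
    change D.inv (cup11 (isPairing_eval (indRep H ρ)) _ _ b (S'.ι₁ z)) =
      D.inv (cup11 hC _ _ (S.π₁ b) z)
    refine congrArg D.inv ?_
    have hQ : IsPairing (indRep H ρ) (dualRep χ _) (charRep χ)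
        ((evalPairing R _).comp (LinearMap.range (indDiag R M H)).mkQ) := fun g f φ =>
      hC g ((LinearMap.range (indDiag R M H)).mkQ f) φ
    have e1 := map_cup11 hQ (isSmooth_dualRep D.charSmooth S.smoothC)
      (isPairing_eval (indRep H ρ)) (IsLevelsHom.id L) (IsEquivariant.id _) S'.ι_eq
      (IsEquivariant.id _) (fun _ _ => rfl) hsB hsB (isSmooth_dualRep D.charSmooth hsB) b z
    have e2 := map_cup11 hQ (isSmooth_dualRep D.charSmooth S.smoothC)
      hC (IsLevelsHom.id L) S.π_eq (IsEquivariant.id _)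
      (IsEquivariant.id _) (fun _ _ => rfl) hsB S.smoothC
      (isSmooth_dualRep D.charSmooth S.smoothC) b z
    rw [map₂_id, map₁_id] at e1 e2
    exact e1.symm.trans e2
  rw [hb]
  exact (S.exact₁C (S.π₁ b)).mpr ⟨b, rfl⟩

/-- Cup product identifies `H²` with the dual of the invariants of the twisted dual. -/
theorem α₂_bijective : Function.Bijective (D.α₂ ρ) := ⟨D.α₂_injective hρ, D.α₂_surjective hρ⟩

/-- `H²` of a finite-dimensional smooth module is finite-dimensional. -/
theorem finiteDimensional_H2 : FiniteDimensional R (H2 L ρ) :=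
  FiniteDimensional.of_injective _ (D.α₂_injective hρ)

omit hρ [FiniteDimensional R M'] in
/-- `H²` is right exact. -/
theorem π₂_surjective {A C : Type} [AddCommGroup A] [Module R A] [AddCommGroup C] [Module R C]
    [FiniteDimensional R C] {ρA : Representation R G A} {ρC : Representation R G C}
    (S : SES L ρA ρ ρC) : Function.Surjective S.π₂ := by
  set S' := S.dual D.charSmooth
  intro y
  obtain ⟨Θ, hΘ⟩ := LinearMap.dualMap_surjective_of_injective (K := R) (V₁ := H0 (dualRep χ ρC))
    (V₂ := H0 (dualRep χ ρ)) (f := S'.ι₀) S'.ι₀_injective (D.α₂ ρC y)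
  obtain ⟨x, rfl⟩ := D.α₂_surjective S.smooth Θ
  refine ⟨x, D.α₂_injective S.smoothC (LinearMap.ext fun a => ?_)⟩
  rw [← hΘ]
  change D.inv (cup02 (isPairing_eval ρC).flip a (S.π₂ x)) =
    D.inv (cup02 (isPairing_eval ρ).flip (S'.ι₀ a) x)
  refine congrArg D.inv ?_
  have hQ : IsPairing (dualRep χ ρC) ρ (charRep χ) ((evalPairing R C).comp S.π).flip :=
      fun g φ b => by
    change evalPairing R C (S.π (ρ g b)) (dualRep χ ρC g φ) = _
    rw [S.π_apply]
    exact isPairing_eval ρC g _ φ
  have e1 := map_cup02 hQ (isPairing_eval ρC).flip (IsLevelsHom.id L) (IsEquivariant.id _)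
    S.π_eq (IsEquivariant.id _) (fun _ _ => rfl) a x
  have e2 := map_cup02 hQ (isPairing_eval ρ).flip (IsLevelsHom.id L) S'.ι_eq
    (IsEquivariant.id _) (IsEquivariant.id _) (fun _ _ => rfl) a x
  rw [map₂_id] at e1 e2
  rw [map₂_id] at e2
  exact e1.symm.trans e2

end DualityData

end Fermat.CFT.Coh
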