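import Fermat.Agent.CFT.Coh.Shapiro

/-!
# Maps between induced modules; invariance under conjugation

Functoriality, diagonal, sum and pairing of induced modules, and the triviality of conjugation on
`H¹` and `H²` (`map₁_conj`, `map₂_conj`).
-/

set_option autoImplicit false

noncomputable section

namespace Fermat.CFT.Coh

variable {G : Type} [Group G] {R : Type} [CommRing R] {M M' W : Type} [AddCommGroup M] [Module R M]
  [AddCommGroup M'] [Module R M'] [AddCommGroup W] [Module R W]
  {ρ : Representation R G M} {ρ' : Representation R G M'} {ρW : Representation R G W}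
  {L : Levels G} {H : Subgroup G}

variable (H) in
/-- Apply a map to every value. -/
def indMap (φ : M →ₗ[R] M') : ((G ⧸ H) → M) →ₗ[R] ((G ⧸ H) → M') := φ.compLeft (G ⧸ H)

/-- The values of the map applied coordinatewise. -/
@[simp] lemma indMap_apply (φ : M →ₗ[R] M') (f : (G ⧸ H) → M) (x : G ⧸ H) :
    indMap H φ f x = φ (f x) := rfl

/-- An equivariant map gives an equivariant map of induced modules. -/
lemma indMap_equivariant {φ : M →ₗ[R] M'} (h : IsEquivariant ρ ρ' (MonoidHom.id G) φ) :
    IsEquivariant (indRep H ρ) (indRep H ρ') (MonoidHom.id G) (indMap H φ) :=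
  fun g _ => funext fun _ => h g _

variable (R H M) in
/-- The constant functions. -/
def indDiag : M →ₗ[R] (G ⧸ H) → M := LinearMap.pi fun _ => LinearMap.id

/-- The values of a constant function. -/
@[simp] lemma indDiag_apply (m : M) (x : G ⧸ H) : indDiag R M H m x = m := rfl

/-- The constant functions form an equivariant copy of the module. -/
lemma indDiag_equivariant :
    IsEquivariant ρ (indRep H ρ) (MonoidHom.id G) (indDiag R M H) := fun _ _ => rfl

attribute [local instance] Subgroup.fintypeQuotientOfFiniteIndex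

variable [H.FiniteIndex]

variable (R H M) in
/-- The sum of the values. -/
def indSum : ((G ⧸ H) → M) →ₗ[R] M := ∑ x : G ⧸ H, LinearMap.proj x

/-- The sum of the values, as a sum over the cosets. -/
@[simp] lemma indSum_apply (f : (G ⧸ H) → M) : indSum R M H f = ∑ x, f x := by
  simp [indSum]

/-- Summing the values is equivariant. -/
lemma indSum_equivariant :
    IsEquivariant (indRep H ρ) ρ (MonoidHom.id G) (indSum R M H) := fun g f => by
  simp only [indSum_apply, indRep_apply, MonoidHom.id_apply, map_sum]
  exact Fintype.sum_equiv (MulAction.toPerm g⁻¹) _ _ fun x => rfl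

/-- The sum of a constant function is the index times its value. -/
lemma indSum_indDiag (m : M) : indSum R M H (indDiag R M H m) = H.index • m := by
  simp [Subgroup.index_eq_card]

variable (H) in
/-- The pointwise pairing of induced modules. -/
def indMul (P : M →ₗ[R] M' →ₗ[R] W) :
    ((G ⧸ H) → M) →ₗ[R] ((G ⧸ H) → M') →ₗ[R] ((G ⧸ H) → W) :=
  LinearMap.mk₂ R (fun f f' x => P (f x) (f' x))
    (fun _ _ _ => funext fun _ => LinearMap.map_add₂ P _ _ _)
    (fun _ _ _ => funext fun _ => LinearMap.map_smul₂ P _ _ _)
    (fun _ _ _ => funext fun _ => map_add (P _) _ _)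
    (fun _ _ _ => funext fun _ => map_smul (P _) _ _)

omit [H.FiniteIndex] in
/-- The values of the pointwise pairing. -/
@[simp] lemma indMul_apply (P : M →ₗ[R] M' →ₗ[R] W) (f : (G ⧸ H) → M) (f' : (G ⧸ H) → M')
    (x : G ⧸ H) : indMul H P f f' x = P (f x) (f' x) := rfl

omit [H.FiniteIndex] in
/-- The pointwise pairing of induced modules is equivariant. -/
lemma IsPairing.indMul {P : M →ₗ[R] M' →ₗ[R] W} (hP : IsPairing ρ ρ' ρW P) :
    IsPairing (indRep H ρ) (indRep H ρ') (indRep H ρW) (Coh.indMul H P) :=
  fun g _ _ => funext fun _ => hP g _ _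

variable (H) in
/-- The pairing of induced modules. -/
def indPairing (P : M →ₗ[R] M' →ₗ[R] W) : ((G ⧸ H) → M) →ₗ[R] ((G ⧸ H) → M') →ₗ[R] W :=
  (Coh.indMul H P).compr₂ (indSum R W H)

/-- The pairing of induced modules as a sum over the cosets. -/
@[simp] lemma indPairing_apply (P : M →ₗ[R] M' →ₗ[R] W) (f : (G ⧸ H) → M) (f' : (G ⧸ H) → M') :
    indPairing H P f f' = ∑ x, P (f x) (f' x) := by
  simp [indPairing]

/-- The pairing of induced modules is equivariant. -/
lemma IsPairing.indPairing {P : M →ₗ[R] M' →ₗ[R] W} (hP : IsPairing ρ ρ' ρW P) :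
    IsPairing (indRep H ρ) (indRep H ρ') ρW (Coh.indPairing H P) := fun g f f' => by
  change indSum R W H (Coh.indMul H P _ _) = ρW g (indSum R W H (Coh.indMul H P f f'))
  rw [hP.indMul g]
  exact indSum_equivariant g _

/-! ### Invariance under conjugation -/

section Conj

omit [H.FiniteIndex]

/-- Conjugation `x ↦ g⁻¹ x g`, as a homomorphism. -/
def conjHom (g : G) : G →* G := (MulAut.conj g⁻¹).toMonoidHom

/-- Conjugation sends `a` to `g⁻¹ * a * g`. -/
@[simp] lemma conjHom_apply (g a : G) : conjHom g a = g⁻¹ * a * g := by simp [conjHom]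

/-- Conjugation is compatible with the levels. -/
lemma isLevelsHom_conj (L : Levels G) (g : G) : IsLevelsHom L L (conjHom g) :=
  fun N hN => ⟨N, hN, fun s hs => by simpa using L.conj_mem hN hs g⟩

/-- The action of `g` is equivariant along conjugation by `g`. -/
lemma conj_equivariant (g : G) : IsEquivariant ρ ρ (conjHom g) (ρ g) := fun a m => by
  rw [conjHom_apply, ← Module.End.mul_apply, ← map_mul,
    show g * (g⁻¹ * a * g) = a * g by group, map_mul, Module.End.mul_apply]

/-- Conjugation by an element of the group acts trivially on `H¹`. -/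
lemma map₁_conj (g : G) (x : H1 L ρ) :
    map₁ (isLevelsHom_conj L g) (conj_equivariant (ρ := ρ) g) x = x := by
  obtain ⟨c, rfl⟩ := cl₁_surjective x
  refine cl₁_eq_iff.mpr ⟨c.1 g, funext fun a => ?_⟩
  change ρ a (c.1 g) - c.1 g = ρ g (c.1 (conjHom g a)) - c.1 a
  have h1 := cocycle₁ c.2 a g
  rw [show a * g = g * conjHom g a by simp [mul_assoc], cocycle₁ c.2 g (conjHom g a)] at h1
  rw [eq_sub_of_add_eq h1]
  abel

/-- Conjugation by an element of the group acts trivially on `H²`. -/
lemma map₂_conj (g : G) (x : H2 L ρ) :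
    map₂ (isLevelsHom_conj L g) (conj_equivariant (ρ := ρ) g) x = x := by
  obtain ⟨c, rfl⟩ := cl₂_surjective x
  refine cl₂_eq_iff.mpr ⟨fun a => c.1 g (conjHom g a) - c.1 a g, ?_, funext₂ fun a b => ?_⟩
  · have h1 : L.IsLC₂ c.1 := c.2.1
    obtain ⟨N, hN, h⟩ := h1
    refine ⟨N, hN, fun a s hs => ?_⟩
    have e : conjHom g (a * s) = conjHom g a * conjHom g s := map_mul _ _ _
    have h' : conjHom g s ∈ N := by simpa using L.conj_mem hN hs g
    simp only [e]
    have t1 := h g (conjHom g a) 1 (one_mem _) _ h'
    have t2 := h a g s hs 1 (one_mem _)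
    rw [mul_one] at t1 t2
    rw [t1, t2]
  · change d₁ ρ _ a b = ρ g (c.1 (conjHom g a) (conjHom g b)) - c.1 a b
    have hd := c.2.2
    have c1 := congrFun (congrFun (congrFun hd g) (conjHom g a)) (conjHom g b)
    have c2 := congrFun (congrFun (congrFun hd a) g) (conjHom g b)
    have c3 := congrFun (congrFun (congrFun hd a) b) g
    have e1 : g * conjHom g a = a * g := by simp [mul_assoc]
    have e2 : g * conjHom g b = b * g := by simp [mul_assoc]
    simp only [d₂_apply, Pi.zero_apply, e1, e2] at c1 c2 c3
    simp only [d₁_apply, map_sub, map_mul]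
    linear_combination (norm := abel) c2 - c1 - c3

end Conj

end Fermat.CFT.Coh
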