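import Fermat.Agent.CFT.Coh.Basic

/-!
# The long exact sequence up to degree `2`

A short exact sequence `SES` has connecting maps `δ₀`, `δ₁`, natural in the sequence and fitting
in exact sequences up to `H²(B)`.
-/

set_option autoImplicit false

noncomputable section

namespace Fermat.CFT.Coh

variable {G : Type} [Group G] {R : Type} [CommRing R] {A B C : Type}
  [AddCommGroup A] [Module R A] [AddCommGroup B] [Module R B] [AddCommGroup C] [Module R C]

/-- A short exact sequence of representations, with smooth middle term. -/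
structure SES (L : Levels G) (ρA : Representation R G A) (ρB : Representation R G B)
    (ρC : Representation R G C) where
  /-- The inclusion of the first term in the middle one. -/
  ι : A →ₗ[R] B
  /-- The projection of the middle term to the last one. -/
  π : B →ₗ[R] C
  /-- The inclusion is equivariant. -/
  ι_eq : IsEquivariant ρA ρB (MonoidHom.id G) ι
  /-- The projection is equivariant. -/
  π_eq : IsEquivariant ρB ρC (MonoidHom.id G) π
  /-- The inclusion is injective. -/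
  injective : Function.Injective ι
  /-- The projection is surjective. -/
  surjective : Function.Surjective π
  /-- The sequence is exact in the middle. -/
  exact : Function.Exact ι π
  /-- The middle term is smooth. -/
  smooth : IsSmooth L ρB

namespace SES

variable {L : Levels G} {ρA : Representation R G A} {ρB : Representation R G B}
  {ρC : Representation R G C} (S : SES L ρA ρB ρC)

/-- The composite of the two maps vanishes. -/
lemma π_ι (a : A) : S.π (S.ι a) = 0 := S.exact.apply_apply_eq_zero a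

/-- The first map is equivariant. -/
lemma ι_apply (g : G) (a : A) : S.ι (ρA g a) = ρB g (S.ι a) := S.ι_eq g a

/-- The second map is equivariant. -/
lemma π_apply (g : G) (b : B) : S.π (ρB g b) = ρC g (S.π b) := S.π_eq g b

/-- A lift of an element of `C`. -/
def lift (c : C) : B := (S.surjective c).choose

/-- A lift maps back to the element. -/
@[simp] lemma π_lift (c : C) : S.π (S.lift c) = c := (S.surjective c).choose_spec

open Classical in
/-- The preimage in `A` of an element killed by `π`. -/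
def pre (b : B) : A := if h : S.π b = 0 then ((S.exact b).mp h).choose else 0

/-- The preimage of an element killed by `π` maps back to it. -/
lemma ι_pre {b : B} (h : S.π b = 0) : S.ι (S.pre b) = b := by
  rw [pre, dif_pos h]; exact ((S.exact b).mp h).choose_spec

/-- The second map commutes with `d₀`. -/
lemma π_d₀ (b : B) (g : G) : S.π (d₀ ρB b g) = d₀ ρC (S.π b) g := by simp [π_apply]

/-- The second map commutes with `d₁`. -/
lemma π_d₁ (b : G → B) (g h : G) :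
    S.π (d₁ ρB b g h) = d₁ ρC (fun x => S.π (b x)) g h := by simp [π_apply]

/-- The first map commutes with `d₁`. -/
lemma ι_d₁ (a : G → A) (g h : G) :
    S.ι (d₁ ρA a g h) = d₁ ρB (fun x => S.ι (a x)) g h := by simp [ι_apply]

include S in
/-- The sub-module is smooth. -/
lemma smoothA : IsSmooth L ρA := by
  intro a
  obtain ⟨N, hN, h⟩ := S.smooth (S.ι a)
  exact ⟨N, hN, fun s hs => S.injective (by rw [S.ι_apply, h s hs])⟩

include S in
/-- The quotient module is smooth. -/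
lemma smoothC : IsSmooth L ρC := by
  intro c
  obtain ⟨b, rfl⟩ := S.surjective c
  obtain ⟨N, hN, h⟩ := S.smooth b
  exact ⟨N, hN, fun s hs => by rw [← S.π_apply, h s hs]⟩

/-! ### The connecting map from degree `0` -/

/-- The preimage of `d₀ b` is a cocycle when `π` kills it. -/
lemma pre_d₀_mem {b : B} (hb : ∀ g, S.π (d₀ ρB b g) = 0) :
    (fun g => S.pre (d₀ ρB b g)) ∈ Z1 L ρA := by
  refine ⟨(isLC₁_d₀ S.smooth b).comp S.pre, funext₂ fun g h => S.injective ?_⟩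
  rw [S.ι_d₁]
  simp only [S.ι_pre (hb _)]
  simp

/-- `d₀` of a lift of an invariant is killed by `π`. -/
lemma π_d₀_lift (c : H0 ρC) (g : G) : S.π (d₀ ρB (S.lift c.1) g) = 0 := by
  rw [S.π_d₀, S.π_lift, c.2]; rfl

/-- The connecting class does not depend on the lift. -/
lemma cl₁_pre_eq {b b' : B} (hb : ∀ g, S.π (d₀ ρB b g) = 0) (hb' : ∀ g, S.π (d₀ ρB b' g) = 0)
    (h : S.π b = S.π b') :
    cl₁ L ρA ⟨_, S.pre_d₀_mem hb⟩ = cl₁ L ρA ⟨_, S.pre_d₀_mem hb'⟩ := by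
  obtain ⟨a, ha⟩ := (S.exact (b - b')).mp (by rw [map_sub, h, sub_self])
  refine cl₁_eq_iff.mpr ⟨a, funext fun g => S.injective ?_⟩
  change S.ι (ρA g a - a) = S.ι (S.pre (d₀ ρB b g) - S.pre (d₀ ρB b' g))
  rw [map_sub S.ι, map_sub S.ι, S.ι_pre (hb g), S.ι_pre (hb' g), S.ι_apply, ha, d₀_apply,
    d₀_apply, map_sub]
  abel

/-- The connecting map `H⁰(C) → H¹(A)`. -/
def δ₀ : H0 ρC →ₗ[R] H1 L ρA where
  toFun c := cl₁ L ρA ⟨_, S.pre_d₀_mem (S.π_d₀_lift c)⟩
  map_add' c c' := by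
    have h : ∀ g, S.π (d₀ ρB (S.lift c.1 + S.lift c'.1) g) = 0 := fun g => by
      rw [map_add, Pi.add_apply, map_add, S.π_d₀_lift, S.π_d₀_lift, add_zero]
    rw [← map_add, S.cl₁_pre_eq (S.π_d₀_lift (c + c')) h (by simp)]
    refine congrArg _ (Subtype.ext (funext fun g => S.injective ?_))
    change S.ι (S.pre _) = S.ι (S.pre _ + S.pre _)
    rw [map_add S.ι, S.ι_pre (h g), S.ι_pre (S.π_d₀_lift c g), S.ι_pre (S.π_d₀_lift c' g), map_add,
      Pi.add_apply]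
  map_smul' r c := by
    have h : ∀ g, S.π (d₀ ρB (r • S.lift c.1) g) = 0 := fun g => by
      rw [map_smul, Pi.smul_apply, map_smul, S.π_d₀_lift, smul_zero]
    rw [RingHom.id_apply, ← map_smul, S.cl₁_pre_eq (S.π_d₀_lift (r • c)) h (by simp)]
    refine congrArg _ (Subtype.ext (funext fun g => S.injective ?_))
    change S.ι (S.pre _) = S.ι (r • S.pre _)
    rw [map_smul S.ι, S.ι_pre (h g), S.ι_pre (S.π_d₀_lift c g), map_smul, Pi.smul_apply]

/-- The connecting map from any lift. -/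
lemma δ₀_eq (c : H0 ρC) {b : B} (hb : S.π b = c.1) {a : Z1 L ρA}
    (ha : ∀ g, S.ι (a.1 g) = d₀ ρB b g) : S.δ₀ c = cl₁ L ρA a := by
  have h : ∀ g, S.π (d₀ ρB b g) = 0 := fun g => by rw [S.π_d₀, hb, c.2]; rfl
  change cl₁ L ρA _ = _
  rw [S.cl₁_pre_eq (S.π_d₀_lift c) h (by rw [S.π_lift, hb])]
  exact congrArg _ (Subtype.ext (funext fun g => S.injective (by rw [S.ι_pre (h g), ha])))

/-! ### The connecting map from degree `1` -/

/-- The preimage of `d₁ b` is a cocycle when `π` kills it. -/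
lemma pre_d₁_mem {b : G → B} (hb1 : L.IsLC₁ b) (hb : ∀ g h, S.π (d₁ ρB b g h) = 0) :
    (fun g h => S.pre (d₁ ρB b g h)) ∈ Z2 L ρA := by
  refine ⟨(isLC₂_d₁ S.smooth hb1).comp S.pre, funext₃ fun g h j => S.injective ?_⟩
  simp only [d₂_apply, map_sub, map_add, S.ι_apply, S.ι_pre (hb _ _)]
  simpa using congrFun (congrFun (congrFun (d₂_d₁ ρB b) g) h) j

/-- `d₁` of a lift of a cocycle is killed by `π`. -/
lemma π_d₁_lift (x : Z1 L ρC) (g h : G) : S.π (d₁ ρB (fun y => S.lift (x.1 y)) g h) = 0 := by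
  rw [S.π_d₁]
  simp only [S.π_lift]
  exact congrFun (congrFun x.2.2 g) h

/-- The connecting class of degree two does not depend on the lift. -/
lemma cl₂_pre_eq {b b' : G → B} (hb1 : L.IsLC₁ b) (hb : ∀ g h, S.π (d₁ ρB b g h) = 0)
    (hb1' : L.IsLC₁ b') (hb' : ∀ g h, S.π (d₁ ρB b' g h) = 0)
    (h : ∀ g, S.π (b g) = S.π (b' g)) :
    cl₂ L ρA ⟨_, S.pre_d₁_mem hb1 hb⟩ = cl₂ L ρA ⟨_, S.pre_d₁_mem hb1' hb'⟩ := by
  have hk : ∀ g, S.π (b g - b' g) = 0 := fun g => by rw [map_sub, h, sub_self]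
  refine cl₂_eq_iff.mpr ⟨fun g => S.pre (b g - b' g),
    (hb1.map₂ hb1' (· - ·)).comp S.pre, funext₂ fun g j => S.injective ?_⟩
  change S.ι (d₁ ρA (fun g => S.pre (b g - b' g)) g j) =
    S.ι (S.pre (d₁ ρB b g j) - S.pre (d₁ ρB b' g j))
  rw [map_sub S.ι, S.ι_pre (hb _ _), S.ι_pre (hb' _ _), S.ι_d₁]
  simp only [S.ι_pre (hk _), d₁_apply, map_sub]
  abel

/-- The connecting map on cocycles. -/
def δZ : Z1 L ρC →ₗ[R] H2 L ρA where
  toFun x := cl₂ L ρA ⟨_, S.pre_d₁_mem (x.2.1.comp S.lift) (S.π_d₁_lift x)⟩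
  map_add' x x' := by
    have h1 : L.IsLC₁ (fun y => S.lift (x.1 y) + S.lift (x'.1 y)) :=
      (x.2.1.comp S.lift).map₂ (x'.2.1.comp S.lift) (· + ·)
    have h : ∀ g j, S.π (d₁ ρB (fun y => S.lift (x.1 y) + S.lift (x'.1 y)) g j) = 0 := fun g j => by
      rw [show (fun y => S.lift (x.1 y) + S.lift (x'.1 y)) =
        (fun y => S.lift (x.1 y)) + fun y => S.lift (x'.1 y) from rfl, map_add, Pi.add_apply,
        Pi.add_apply, map_add, S.π_d₁_lift, S.π_d₁_lift, add_zero]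
    rw [← map_add, S.cl₂_pre_eq ((x + x').2.1.comp S.lift) (S.π_d₁_lift (x + x')) h1 h
      (fun g => by simp)]
    refine congrArg _ (Subtype.ext (funext₂ fun g j => S.injective ?_))
    change S.ι (S.pre _) = S.ι (S.pre _ + S.pre _)
    rw [map_add S.ι, S.ι_pre (h g j), S.ι_pre (S.π_d₁_lift x g j), S.ι_pre (S.π_d₁_lift x' g j)]
    simp only [d₁_apply, map_add]
    abel
  map_smul' r x := by
    have h1 : L.IsLC₁ (fun y => r • S.lift (x.1 y)) := (x.2.1.comp S.lift).comp (r • ·)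
    have h : ∀ g j, S.π (d₁ ρB (fun y => r • S.lift (x.1 y)) g j) = 0 := fun g j => by
      rw [show (fun y => r • S.lift (x.1 y)) = r • fun y => S.lift (x.1 y) from rfl, map_smul,
        Pi.smul_apply, Pi.smul_apply, map_smul, S.π_d₁_lift, smul_zero]
    rw [RingHom.id_apply, ← map_smul, S.cl₂_pre_eq ((r • x).2.1.comp S.lift)
      (S.π_d₁_lift (r • x)) h1 h (fun g => by simp)]
    refine congrArg _ (Subtype.ext (funext₂ fun g j => S.injective ?_))
    change S.ι (S.pre _) = S.ι (r • S.pre _)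
    rw [map_smul S.ι, S.ι_pre (h g j), S.ι_pre (S.π_d₁_lift x g j)]
    simp only [d₁_apply, map_smul, smul_add, smul_sub]

/-- The connecting map on cocycles from any lift. -/
lemma δZ_eq (x : Z1 L ρC) {b : G → B} (hb1 : L.IsLC₁ b) (hb : ∀ g, S.π (b g) = x.1 g)
    {a : Z2 L ρA} (ha : ∀ g h, S.ι (a.1 g h) = d₁ ρB b g h) : S.δZ x = cl₂ L ρA a := by
  have h : ∀ g j, S.π (d₁ ρB b g j) = 0 := fun g j => by
    rw [S.π_d₁, funext hb]; exact congrFun (congrFun x.2.2 g) j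
  change cl₂ L ρA _ = _
  rw [S.cl₂_pre_eq (x.2.1.comp S.lift) (S.π_d₁_lift x) hb1 h fun g => by simp [hb]]
  exact congrArg _ (Subtype.ext (funext₂ fun g j => S.injective (by rw [S.ι_pre (h g j), ha])))

/-- The connecting map `H¹(C) → H²(A)`. -/
def δ₁ : H1 L ρC →ₗ[R] H2 L ρA :=
  Submodule.liftQ _ S.δZ (by
    rintro x ⟨c, hc⟩
    rw [LinearMap.mem_ker, S.δZ_eq x (b := d₀ ρB (S.lift c)) (isLC₁_d₀ S.smooth _)
      (fun g => by rw [S.π_d₀, S.π_lift, hc]; rfl) (a := 0) (fun g h => by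
        rw [d₁_d₀]; simp), map_zero])

/-- The connecting map on the class of a cocycle. -/
@[simp] lemma δ₁_cl₁ (x : Z1 L ρC) : S.δ₁ (cl₁ L ρC x) = S.δZ x := rfl

/-- The connecting map `δ₁` from any lift. -/
lemma δ₁_eq (x : Z1 L ρC) {b : G → B} (hb1 : L.IsLC₁ b) (hb : ∀ g, S.π (b g) = x.1 g)
    {a : Z2 L ρA} (ha : ∀ g h, S.ι (a.1 g h) = d₁ ρB b g h) :
    S.δ₁ (cl₁ L ρC x) = cl₂ L ρA a := S.δZ_eq x hb1 hb ha

/-! ### The maps and exactness -/

/-- `H⁰(A) → H⁰(B)`. -/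
def ι₀ : H0 ρA →ₗ[R] H0 ρB := map₀ S.ι_eq

/-- `H⁰(B) → H⁰(C)`. -/
def π₀ : H0 ρB →ₗ[R] H0 ρC := map₀ S.π_eq

/-- `H¹(A) → H¹(B)`. -/
def ι₁ : H1 L ρA →ₗ[R] H1 L ρB := map₁ (IsLevelsHom.id L) S.ι_eq

/-- `H¹(B) → H¹(C)`. -/
def π₁ : H1 L ρB →ₗ[R] H1 L ρC := map₁ (IsLevelsHom.id L) S.π_eq

/-- `H²(A) → H²(B)`. -/
def ι₂ : H2 L ρA →ₗ[R] H2 L ρB := map₂ (IsLevelsHom.id L) S.ι_eq

/-- `H²(B) → H²(C)`. -/
def π₂ : H2 L ρB →ₗ[R] H2 L ρC := map₂ (IsLevelsHom.id L) S.π_eq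

/-- The long sequence starts with an injection. -/
lemma ι₀_injective : Function.Injective S.ι₀ :=
  fun _ _ h => Subtype.ext (S.injective (congrArg Subtype.val h))

/-- Exactness at `H⁰(B)`. -/
lemma exact₀B : Function.Exact S.ι₀ S.π₀ := by
  intro b
  refine ⟨fun h => ?_, ?_⟩
  · obtain ⟨a, ha⟩ := (S.exact b.1).mp (congrArg Subtype.val h)
    refine ⟨⟨a, mem_ker_d₀.mpr fun g => S.injective ?_⟩, Subtype.ext ha⟩
    rw [S.ι_apply, ha, H0_fixed b g]
  · rintro ⟨a, rfl⟩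
    exact Subtype.ext (S.π_ι a.1)

/-- Exactness at `H⁰(C)`. -/
lemma exact₀C : Function.Exact S.π₀ S.δ₀ := by
  intro c
  refine ⟨fun h => ?_, ?_⟩
  · obtain ⟨a, ha⟩ := cl₁_eq_zero.mp h
    have hb : S.π (S.lift c.1 - S.ι a) = c.1 := by rw [map_sub, S.π_ι, S.π_lift, sub_zero]
    refine ⟨⟨S.lift c.1 - S.ι a, mem_ker_d₀.mpr fun g => ?_⟩, Subtype.ext hb⟩
    have h1 : S.ι (d₀ ρA a g) = S.ι (S.pre (d₀ ρB (S.lift c.1) g)) := by rw [ha]
    rw [S.ι_pre (S.π_d₀_lift c g), d₀_apply, d₀_apply, map_sub, S.ι_apply] at h1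
    rw [map_sub, ← sub_eq_zero, sub_sub_sub_comm, h1, sub_self]
  · rintro ⟨b, rfl⟩
    rw [S.δ₀_eq _ (b := b.1) rfl (a := 0) fun g => by simp [H0_fixed b g], map_zero]

/-- Exactness at `H¹(A)`. -/
lemma exact₁A : Function.Exact S.δ₀ S.ι₁ := by
  intro x
  obtain ⟨x, rfl⟩ := cl₁_surjective x
  refine ⟨fun h => ?_, ?_⟩
  · obtain ⟨b, hb⟩ := cl₁_eq_zero.mp h
    refine ⟨⟨S.π b, mem_ker_d₀.mpr fun g => ?_⟩, S.δ₀_eq _ rfl fun g => (congrFun hb g).symm⟩
    have := congrArg S.π (congrFun hb g)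
    rw [S.π_d₀] at this
    simp only [mapZ1_apply, S.π_ι, d₀_apply, sub_eq_zero] at this
    exact this
  · rintro ⟨c, hc⟩
    rw [← hc]
    exact cl₁_eq_zero.mpr ⟨S.lift c.1, funext fun g => (S.ι_pre (S.π_d₀_lift c g)).symm⟩

/-- Exactness at `H¹` of the middle term. -/
lemma exact₁B : Function.Exact S.ι₁ S.π₁ := by
  intro x
  obtain ⟨x, rfl⟩ := cl₁_surjective x
  refine ⟨fun h => ?_, ?_⟩
  · obtain ⟨c, hc⟩ := cl₁_eq_zero.mp h
    have h0 : ∀ g, S.π (x.1 g - d₀ ρB (S.lift c) g) = 0 := fun g => by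
      rw [map_sub, S.π_d₀, S.π_lift, hc]
      simp
    have hmem : (fun g => S.pre (x.1 g - d₀ ρB (S.lift c) g)) ∈ Z1 L ρA := by
      refine ⟨(x.2.1.map₂ (isLC₁_d₀ S.smooth _) (· - ·)).comp S.pre,
        funext₂ fun g j => S.injective ?_⟩
      rw [S.ι_d₁]
      simp only [S.ι_pre (h0 _)]
      rw [show (fun g => x.1 g - d₀ ρB (S.lift c) g) = x.1 - d₀ ρB (S.lift c) from rfl, map_sub,
        x.2.2, d₁_d₀]
      simp
    refine ⟨cl₁ L ρA ⟨_, hmem⟩, cl₁_eq_iff.mpr ⟨-S.lift c, funext fun g => ?_⟩⟩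
    rw [map_neg, Pi.neg_apply, Pi.sub_apply, mapZ1_apply]
    rw [show S.ι (S.pre (x.1 (MonoidHom.id G g) - d₀ ρB (S.lift c) (MonoidHom.id G g))) = _ from
      S.ι_pre (h0 _)]
    simp
  · rintro ⟨y, hy⟩
    obtain ⟨y, rfl⟩ := cl₁_surjective y
    rw [← hy]
    exact cl₁_eq_zero.mpr ⟨0, funext fun g => by simp [S.π_ι]⟩

/-- Exactness at `H¹` of the quotient. -/
lemma exact₁C : Function.Exact S.π₁ S.δ₁ := by
  intro x
  obtain ⟨x, rfl⟩ := cl₁_surjective x
  refine ⟨fun h => ?_, ?_⟩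
  · obtain ⟨a, ha1, ha⟩ := cl₂_eq_zero.mp h
    have hmem : (fun g => S.lift (x.1 g) - S.ι (a g)) ∈ Z1 L ρB := by
      refine ⟨(x.2.1.comp S.lift).map₂ (ha1.comp S.ι) (· - ·), funext₂ fun g j => ?_⟩
      have h1 := congrArg S.ι (congrFun (congrFun ha g) j)
      rw [S.ι_pre (S.π_d₁_lift x g j), S.ι_d₁] at h1
      rw [show (fun g => S.lift (x.1 g) - S.ι (a g)) =
        (fun g => S.lift (x.1 g)) - fun g => S.ι (a g) from rfl, map_sub, Pi.sub_apply,
        Pi.sub_apply, h1, sub_self]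
      rfl
    refine ⟨cl₁ L ρB ⟨_, hmem⟩, congrArg _ (Subtype.ext (funext fun g => ?_))⟩
    simp [S.π_ι]
  · rintro ⟨y, hy⟩
    obtain ⟨y, rfl⟩ := cl₁_surjective y
    rw [← hy]
    change S.δ₁ (cl₁ L ρC _) = 0
    rw [S.δ₁_eq _ (b := y.1) y.2.1 (fun g => rfl) (a := 0) fun g j => by
      rw [y.2.2]; simp, map_zero]

/-- Exactness at `H²` of the subobject. -/
lemma exact₂A : Function.Exact S.δ₁ S.ι₂ := by
  intro x
  obtain ⟨x, rfl⟩ := cl₂_surjective x
  refine ⟨fun h => ?_, ?_⟩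
  · obtain ⟨b, hb1, hb⟩ := cl₂_eq_zero.mp h
    have hmem : (fun g => S.π (b g)) ∈ Z1 L ρC := by
      refine ⟨hb1.comp S.π, funext₂ fun g j => ?_⟩
      rw [← S.π_d₁, hb]
      exact S.π_ι _
    exact ⟨cl₁ L ρC ⟨_, hmem⟩,
      S.δ₁_eq _ hb1 (fun g => rfl) fun g j => (congrFun (congrFun hb g) j).symm⟩
  · rintro ⟨y, hy⟩
    obtain ⟨y, rfl⟩ := cl₁_surjective y
    rw [← hy]
    exact cl₂_eq_zero.mpr ⟨fun g => S.lift (y.1 g), y.2.1.comp _,
      funext₂ fun g j => (S.ι_pre (S.π_d₁_lift y g j)).symm⟩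

/-- Exactness at `H²` of the middle term. -/
lemma exact₂B : Function.Exact S.ι₂ S.π₂ := by
  intro x
  obtain ⟨x, rfl⟩ := cl₂_surjective x
  refine ⟨fun h => ?_, ?_⟩
  · obtain ⟨c, hc1, hc⟩ := cl₂_eq_zero.mp h
    have hb1 : L.IsLC₁ fun g => S.lift (c g) := hc1.comp S.lift
    have h0 : ∀ g j, S.π (x.1 g j - d₁ ρB (fun g => S.lift (c g)) g j) = 0 := fun g j => by
      rw [map_sub, S.π_d₁]
      simp only [S.π_lift]
      rw [hc]
      simp
    have hmem : (fun g j => S.pre (x.1 g j - d₁ ρB (fun g => S.lift (c g)) g j)) ∈ Z2 L ρA := by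
      refine ⟨(x.2.1.map₂ (isLC₂_d₁ S.smooth hb1) (· - ·)).comp S.pre,
        funext₃ fun g j k => S.injective ?_⟩
      have h1 := congrFun (congrFun (congrFun x.2.2 g) j) k
      have h2 := congrFun (congrFun (congrFun (d₂_d₁ ρB fun g => S.lift (c g)) g) j) k
      simp only [d₂_apply, map_sub, map_add, S.ι_apply, S.ι_pre (h0 _ _), Pi.zero_apply] at h1 h2 ⊢
      rw [map_zero, ← sub_eq_zero.mpr (h1.trans h2.symm)]
      abel
    refine ⟨cl₂ L ρA ⟨_, hmem⟩, cl₂_eq_iff.mpr ⟨-fun g => S.lift (c g), hb1.comp Neg.neg,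
      funext₂ fun g j => ?_⟩⟩
    rw [map_neg, Pi.neg_apply, Pi.neg_apply, Pi.sub_apply, Pi.sub_apply, mapZ2_apply]
    rw [show S.ι (S.pre (x.1 (MonoidHom.id G g) (MonoidHom.id G j) -
      d₁ ρB (fun g => S.lift (c g)) (MonoidHom.id G g) (MonoidHom.id G j))) = _ from
      S.ι_pre (h0 _ _)]
    simp
  · rintro ⟨y, hy⟩
    obtain ⟨y, rfl⟩ := cl₂_surjective y
    rw [← hy]
    exact cl₂_eq_zero.mpr ⟨0, Levels.IsLC₁.const 0, funext₂ fun g j => by simp [S.π_ι]⟩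

/-! ### Naturality -/

section Naturality

variable {G' : Type} [Group G'] {L' : Levels G'} {A' B' C' : Type} [AddCommGroup A'] [Module R A']
  [AddCommGroup B'] [Module R B'] [AddCommGroup C'] [Module R C']
  {ρA' : Representation R G' A'} {ρB' : Representation R G' B'} {ρC' : Representation R G' C'}
  (S' : SES L' ρA' ρB' ρC') {f : G' →* G} (hf : IsLevelsHom L L' f) {a : A →ₗ[R] A'}
  {b : B →ₗ[R] B'} {c : C →ₗ[R] C'} (ha : IsEquivariant ρA ρA' f a)
  (hc : IsEquivariant ρC ρC' f c) (hab : ∀ x, b (S.ι x) = S'.ι (a x))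
  (hbc : ∀ x, c (S.π x) = S'.π (b x)) (hb : IsEquivariant ρB ρB' f b)

include hab hbc hb

/-- The connecting map `δ₀` is natural. -/
lemma δ₀_natural (x : H0 ρC) : map₁ hf ha (S.δ₀ x) = S'.δ₀ (map₀ hc x) := by
  refine (S'.δ₀_eq _ (b := b (S.lift x.1)) (by rw [← hbc, S.π_lift, map₀_apply])
    (a := mapZ1 hf ha ⟨_, S.pre_d₀_mem (S.π_d₀_lift x)⟩) fun g => ?_).symm
  rw [mapZ1_apply, ← hab, S.ι_pre (S.π_d₀_lift x _)]
  exact congrFun (hb.d₀ (S.lift x.1)) g

/-- The connecting map `δ₁` is natural. -/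
lemma δ₁_natural (x : H1 L ρC) : map₂ hf ha (S.δ₁ x) = S'.δ₁ (map₁ hf hc x) := by
  obtain ⟨x, rfl⟩ := cl₁_surjective x
  rw [map₁_cl₁, S.δ₁_cl₁]
  refine (S'.δ₁_eq _ (b := fun g => b (S.lift (x.1 (f g))))
    ((hf.isLC₁ (x.2.1.comp S.lift)).comp b) (fun g => by rw [← hbc, S.π_lift]; rfl)
    (a := mapZ2 hf ha ⟨_, S.pre_d₁_mem (x.2.1.comp S.lift) (S.π_d₁_lift x)⟩) fun g j => ?_).symm
  rw [mapZ2_apply, ← hab, S.ι_pre (S.π_d₁_lift x _ _)]
  exact congrFun (congrFun (hb.d₁ fun y => S.lift (x.1 y)) g) j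

end Naturality

end SES

end Fermat.CFT.Coh
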