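import Fermat.Agent.CFT.Coh.Cup

/-!
# Induced modules and Shapiro's lemma in degrees at most `2`

The kernel of a homomorphism to `ℤ/p`, the open subgroup to which the lemma is applied, comes at
the end.
-/

set_option autoImplicit false

noncomputable section

namespace Fermat.CFT.Coh

variable {G : Type} [Group G] {R : Type} [CommRing R] {M : Type} [AddCommGroup M] [Module R M]

/-- The action on functions on `G ⧸ H`. -/
def indRep (H : Subgroup G) (ρ : Representation R G M) : Representation R G ((G ⧸ H) → M) where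
  toFun g :=
    { toFun := fun f x => ρ g (f (g⁻¹ • x))
      map_add' := fun f f' => funext fun x => map_add (ρ g) _ _
      map_smul' := fun c f => funext fun x => map_smul (ρ g) c _ }
  map_one' := LinearMap.ext fun f => funext fun x => by simp
  map_mul' g h := LinearMap.ext fun f => funext fun x => by simp [mul_smul]

/-- The action on a function on the cosets. -/
@[simp] lemma indRep_apply (H : Subgroup G) (ρ : Representation R G M) (g : G)
    (f : (G ⧸ H) → M) (x : G ⧸ H) : indRep H ρ g f x = ρ g (f (g⁻¹ • x)) := rfl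

variable {L : Levels G} {H : Subgroup G} {ρ : Representation R G M}

/-- A subgroup containing a level. -/
def ContainsLevel (L : Levels G) (H : Subgroup G) : Prop := ∃ N, L.IsLevel N ∧ N ≤ H

/-- A subgroup containing a level has finite index. -/
lemma ContainsLevel.finiteIndex (hH : ContainsLevel L H) : H.FiniteIndex :=
  let ⟨N, hN, h⟩ := hH
  have := L.finiteIndex N hN
  Subgroup.finiteIndex_of_le h

/-- A level inside `H` fixes every coset of `H`. -/
lemma smul_quot_eq_self {N : Subgroup G} (hN : L.IsLevel N) (h : N ≤ H) {s : G} (hs : s ∈ N)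
    (x : G ⧸ H) : s • x = x := by
  obtain ⟨g, rfl⟩ := QuotientGroup.mk_surjective x
  rw [MulAction.Quotient.smul_mk, smul_eq_mul, QuotientGroup.eq]
  have := h (L.conj_mem hN (inv_mem hs) g)
  simpa [mul_assoc] using this

/-- The module induced from an open subgroup is smooth. -/
lemma isSmooth_indRep (hH : ContainsLevel L H) (hρ : IsSmooth L ρ) :
    IsSmooth L (indRep H ρ) := by
  intro f
  obtain ⟨N, hN, hNH⟩ := hH
  have := (ContainsLevel.finiteIndex ⟨N, hN, hNH⟩ : H.FiniteIndex)
  obtain ⟨N', hN', h⟩ := hρ.exists_fix (Set.finite_range f)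
  obtain ⟨N'', hN'', h1, h2⟩ := L.exists_le N N' hN hN'
  refine ⟨N'', hN'', fun s hs => funext fun x => ?_⟩
  rw [indRep_apply, smul_quot_eq_self hN hNH (inv_mem (h1 hs)), h s (h2 hs) _ ⟨x, rfl⟩]

variable (H) in
/-- Evaluation at the trivial coset. -/
def evOne : ((G ⧸ H) → M) →ₗ[R] M := LinearMap.proj ((1 : G) : G ⧸ H)

/-- Evaluation at the trivial coset is `H`-equivariant. -/
lemma evOne_equivariant :
    IsEquivariant (indRep H ρ) (ρ.comp H.subtype) H.subtype (evOne H) := by
  intro h f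
  change ρ (h : G) (f ((h : G)⁻¹ • ((1 : G) : G ⧸ H))) = ρ (h : G) (f ((1 : G) : G ⧸ H))
  rw [MulAction.Quotient.smul_mk, smul_eq_mul, mul_one]
  congr 2
  rw [QuotientGroup.eq]
  simp

/-! ### A section of `G → G ⧸ H` -/

open Classical in
variable (H) in
/-- A section with `1` over the trivial coset. -/
def cosetSec (x : G ⧸ H) : G := if x = ((1 : G) : G ⧸ H) then 1 else x.out

/-- The section takes the value `1` at the trivial coset. -/
@[simp] lemma cosetSec_one : cosetSec H ((1 : G) : G ⧸ H) = 1 := if_pos rfl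

/-- The section is a section. -/
@[simp] lemma mk_cosetSec (x : G ⧸ H) : ((cosetSec H x : G) : G ⧸ H) = x := by
  unfold cosetSec
  split_ifs with h
  · exact h.symm
  · exact QuotientGroup.out_eq' x

/-- The representative moves the trivial coset to its coset. -/
lemma smul_one_coset (x : G ⧸ H) : cosetSec H x • ((1 : G) : G ⧸ H) = x := by
  rw [MulAction.Quotient.smul_mk, smul_eq_mul, mul_one, mk_cosetSec]

variable (H) in
/-- The component in `H` of `g` at the coset `x`. -/
def cosetPart (g : G) (x : G ⧸ H) : H :=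
  ⟨(cosetSec H x)⁻¹ * g * cosetSec H (g⁻¹ • x), by
    rw [mul_assoc, ← QuotientGroup.eq, mk_cosetSec, ← smul_eq_mul, ← MulAction.Quotient.smul_mk,
      mk_cosetSec, smul_inv_smul]⟩

/-- The defining equation of the component in `H`. -/
lemma cosetSec_mul_part (g : G) (x : G ⧸ H) :
    cosetSec H x * (cosetPart H g x : G) = g * cosetSec H (g⁻¹ • x) := by
  change cosetSec H x * ((cosetSec H x)⁻¹ * g * cosetSec H (g⁻¹ • x)) = _
  group

/-- The components in `H` form a cocycle. -/
lemma cosetPart_mul (g g' : G) (x : G ⧸ H) :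
    cosetPart H (g * g') x = cosetPart H g x * cosetPart H g' (g⁻¹ • x) := by
  apply Subtype.ext
  change (cosetSec H x)⁻¹ * (g * g') * cosetSec H ((g * g')⁻¹ • x) =
    (cosetSec H x)⁻¹ * g * cosetSec H (g⁻¹ • x) *
      ((cosetSec H (g⁻¹ • x))⁻¹ * g' * cosetSec H (g'⁻¹ • g⁻¹ • x))
  rw [mul_inv_rev, mul_smul]
  group

/-- At the trivial coset the component of an element of `H` is the element. -/
lemma cosetPart_one (h : H) : cosetPart H (h : G) ((1 : G) : G ⧸ H) = h := by
  apply Subtype.ext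
  change (cosetSec H ((1 : G) : G ⧸ H))⁻¹ * (h : G) *
    cosetSec H ((h : G)⁻¹ • ((1 : G) : G ⧸ H)) = h
  have : (h : G)⁻¹ • ((1 : G) : G ⧸ H) = ((1 : G) : G ⧸ H) := by
    rw [MulAction.Quotient.smul_mk, QuotientGroup.eq]; simp
  rw [this, cosetSec_one]
  simp

/-- The levels of `H`. -/
abbrev subLevels (L : Levels G) (H : Subgroup G) : Levels H := L.comap H.subtype

/-- Right multiplication by a level changes the components by elements of that level. -/
lemma cosetPart_mul_level {N : Subgroup G} (hN : L.IsLevel N) (hNH : N ≤ H) {s : G} (hs : s ∈ N)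
    (g : G) (x : G ⧸ H) :
    ∃ t : H, (t : G) ∈ N ∧ cosetPart H (g * s) x = cosetPart H g x * t := by
  refine ⟨cosetPart H s (g⁻¹ • x), ?_, cosetPart_mul g s x⟩
  change (cosetSec H (g⁻¹ • x))⁻¹ * s * cosetSec H (s⁻¹ • g⁻¹ • x) ∈ N
  rw [smul_quot_eq_self hN hNH (inv_mem hs)]
  exact L.conj_mem hN hs _

variable (H ρ) in
/-- The transfer of a `1`-cochain of `H`. -/
def extend₁ (f : H → M) : G → (G ⧸ H) → M :=
  fun g x => ρ (cosetSec H x) (f (cosetPart H g x))

variable (H ρ) in
/-- The transfer of a `2`-cochain of `H`. -/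
def extend₂ (f : H → H → M) : G → G → (G ⧸ H) → M :=
  fun g g' x => ρ (cosetSec H x) (f (cosetPart H g x) (cosetPart H g' (g⁻¹ • x)))

/-- The transfer of a level-constant `1`-cochain is level-constant. -/
lemma isLC₁_extend₁ (hH : ContainsLevel L H) {f : H → M} (hf : (subLevels L H).IsLC₁ f) :
    L.IsLC₁ (extend₁ H ρ f) := by
  obtain ⟨N, hN, hNH⟩ := hH
  obtain ⟨_, ⟨N', hN', rfl⟩, h⟩ := hf
  obtain ⟨M', hM', h1, h2⟩ := L.exists_le N N' hN hN'
  refine ⟨M', hM', fun g s hs => funext fun x => ?_⟩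
  obtain ⟨t, ht, e⟩ := cosetPart_mul_level hM' (h1.trans hNH) hs g x
  change ρ _ (f (cosetPart H (g * s) x)) = ρ _ (f (cosetPart H g x))
  rw [e, h _ t (h2 ht)]

/-- The transfer of a level-constant `2`-cochain is level-constant. -/
lemma isLC₂_extend₂ (hH : ContainsLevel L H) {f : H → H → M} (hf : (subLevels L H).IsLC₂ f) :
    L.IsLC₂ (extend₂ H ρ f) := by
  obtain ⟨N, hN, hNH⟩ := hH
  obtain ⟨_, ⟨N', hN', rfl⟩, h⟩ := hf
  obtain ⟨M', hM', h1, h2⟩ := L.exists_le N N' hN hN'
  refine ⟨M', hM', fun g g' s hs t ht => funext fun x => ?_⟩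
  obtain ⟨a, ha, e⟩ := cosetPart_mul_level hM' (h1.trans hNH) hs g x
  obtain ⟨b, hb, e'⟩ := cosetPart_mul_level hM' (h1.trans hNH) ht g' (g⁻¹ • x)
  change ρ _ (f (cosetPart H (g * s) x) (cosetPart H (g' * t) ((g * s)⁻¹ • x))) =
    ρ _ (f (cosetPart H g x) (cosetPart H g' (g⁻¹ • x)))
  rw [mul_inv_rev, mul_smul, smul_quot_eq_self hN hNH (h1 (inv_mem hs)), e, e',
    h _ _ a (h2 ha) b (h2 hb)]

/-- The transfer commutes with `d₁`. -/
lemma extend₁_d₁ (f : H → M) :
    d₁ (indRep H ρ) (extend₁ H ρ f) = extend₂ H ρ (d₁ (ρ.comp H.subtype) f) := by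
  funext g g' x
  simp only [d₁_apply, Pi.add_apply, Pi.sub_apply, indRep_apply, extend₁, extend₂,
    MonoidHom.comp_apply, Subgroup.subtype_apply, map_add, map_sub, ← cosetPart_mul]
  congr 2
  rw [← Module.End.mul_apply, ← map_mul, ← cosetSec_mul_part, map_mul, Module.End.mul_apply]

/-- `d₂` of a transfer, in terms of the components in `H`. -/
lemma extend₂_d₂ (f : H → H → M) :
    d₂ (indRep H ρ) (extend₂ H ρ f) =
      fun g g' g'' x => ρ (cosetSec H x) (d₂ (ρ.comp H.subtype) f (cosetPart H g x)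
        (cosetPart H g' (g⁻¹ • x)) (cosetPart H g'' (g'⁻¹ • g⁻¹ • x))) := by
  funext g g' g'' x
  simp only [d₂_apply, Pi.add_apply, Pi.sub_apply, indRep_apply, extend₂,
    MonoidHom.comp_apply, Subgroup.subtype_apply, map_add, map_sub, ← cosetPart_mul,
    mul_inv_rev, mul_smul]
  congr 3
  rw [← Module.End.mul_apply, ← map_mul, ← cosetSec_mul_part, map_mul, Module.End.mul_apply]

/-! ### Shapiro's lemma -/

variable (H ρ)

/-- Shapiro's map in degree `0`. -/
def shapiro₀ : H0 (indRep H ρ) →ₗ[R] H0 (ρ.comp H.subtype) := map₀ evOne_equivariant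

variable (L) in
/-- Shapiro's map in degree `1`. -/
def shapiro₁ : H1 L (indRep H ρ) →ₗ[R] H1 (subLevels L H) (ρ.comp H.subtype) :=
  map₁ (IsLevelsHom.comap L H.subtype) evOne_equivariant

variable (L) in
/-- Shapiro's map in degree `2`. -/
def shapiro₂ : H2 L (indRep H ρ) →ₗ[R] H2 (subLevels L H) (ρ.comp H.subtype) :=
  map₂ (IsLevelsHom.comap L H.subtype) evOne_equivariant

variable {H ρ}

/-- Shapiro's lemma in degree zero. -/
theorem shapiro₀_bijective : Function.Bijective (shapiro₀ H ρ) := by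
  constructor
  · intro a b h
    refine Subtype.ext (funext fun x => ?_)
    have h1 : a.1 ((1 : G) : G ⧸ H) = b.1 ((1 : G) : G ⧸ H) := congrArg Subtype.val h
    have key : ∀ c : H0 (indRep H ρ),
        c.1 x = ρ (cosetSec H x) (c.1 ((1 : G) : G ⧸ H)) := fun c => by
      conv_lhs => rw [← H0_fixed c (cosetSec H x)]
      rw [indRep_apply, inv_smul_eq_iff.mpr (smul_one_coset x).symm]
    rw [key a, key b, h1]
  · intro m
    refine ⟨⟨fun x => ρ (cosetSec H x) m.1, mem_ker_d₀.mpr fun g => funext fun x => ?_⟩,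
      Subtype.ext ?_⟩
    · rw [indRep_apply, ← Module.End.mul_apply, ← map_mul, ← cosetSec_mul_part, map_mul,
        Module.End.mul_apply]
      exact congrArg _ (H0_fixed m (cosetPart H g x))
    · change ρ (cosetSec H ((1 : G) : G ⧸ H)) m.1 = m.1
      rw [cosetSec_one, map_one]; rfl

/-- The transfer of a `1`-cocycle is a cocycle. -/
lemma extend₁_mem (hH : ContainsLevel L H) {f : H → M}
    (hf : f ∈ Z1 (subLevels L H) (ρ.comp H.subtype)) : extend₁ H ρ f ∈ Z1 L (indRep H ρ) :=
  ⟨isLC₁_extend₁ hH hf.1, by rw [extend₁_d₁, hf.2]; funext g g' x; simp [extend₂]⟩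

/-- The transfer of a `2`-cocycle is a cocycle. -/
lemma extend₂_mem (hH : ContainsLevel L H) {f : H → H → M}
    (hf : f ∈ Z2 (subLevels L H) (ρ.comp H.subtype)) : extend₂ H ρ f ∈ Z2 L (indRep H ρ) :=
  ⟨isLC₂_extend₂ hH hf.1, by rw [extend₂_d₂, hf.2]; funext g g' g'' x; simp⟩

/-- Shapiro's lemma in degree one, for a subgroup containing a level. -/
theorem shapiro₁_bijective (hH : ContainsLevel L H) :
    Function.Bijective (shapiro₁ L H ρ) := by
  constructor
  -- injective: a cocycle cobounded by `m` on `H` is cobounded by an explicit function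
  · rw [← LinearMap.ker_eq_bot, LinearMap.ker_eq_bot']
    intro z hz
    obtain ⟨F, rfl⟩ := cl₁_surjective z
    obtain ⟨m, hm⟩ := cl₁_eq_zero.mp hz
    refine cl₁_eq_zero.mpr ⟨-(fun x => F.1 (cosetSec H x) x - ρ (cosetSec H x) m),
      funext fun g => funext fun x => ?_⟩
    set y := g⁻¹ • x with hy
    set k := cosetPart H g x with hk
    have e := cosetSec_mul_part g x
    rw [← hk, ← hy] at e
    -- the cocycle identity evaluated in two ways along `g s(y) = s(x) k`
    have c1 : F.1 (g * cosetSec H y) x = ρ g (F.1 (cosetSec H y) y) + F.1 g x := by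
      rw [cocycle₁ F.2]; rfl
    have c2 : F.1 (cosetSec H x * k) x =
        ρ (cosetSec H x) (F.1 k ((1 : G) : G ⧸ H)) + F.1 (cosetSec H x) x := by
      rw [cocycle₁ F.2, Pi.add_apply, indRep_apply,
        inv_smul_eq_iff.mpr (smul_one_coset x).symm]
    have hk' : F.1 (k : G) ((1 : G) : G ⧸ H) = ρ (k : G) m - m := (congrFun hm k).symm
    rw [← e, c2, hk', map_sub, ← Module.End.mul_apply, ← map_mul, e, map_mul,
      Module.End.mul_apply] at c1
    change indRep H ρ g (-fun x => F.1 (cosetSec H x) x - ρ (cosetSec H x) m) x -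
      (-fun x => F.1 (cosetSec H x) x - ρ (cosetSec H x) m) x = F.1 g x
    simp only [map_neg, Pi.neg_apply, indRep_apply, map_sub]
    rw [eq_sub_of_add_eq' c1.symm]
    simp only [hy]
    abel
  -- surjective: extend a cocycle of `H` to the induced module
  · intro z
    obtain ⟨f, rfl⟩ := cl₁_surjective z
    refine ⟨cl₁ L (indRep H ρ) ⟨_, extend₁_mem hH f.2⟩,
      congrArg _ (Subtype.ext (funext fun h => ?_))⟩
    change ρ (cosetSec H ((1 : G) : G ⧸ H)) (f.1 (cosetPart H (h : G) ((1 : G) : G ⧸ H))) = f.1 h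
    rw [cosetSec_one, map_one, cosetPart_one]
    rfl

/-- Shapiro's lemma in degree two, for a smooth representation and a subgroup containing a level. -/
theorem shapiro₂_bijective (hH : ContainsLevel L H) (hρ : IsSmooth L ρ) :
    Function.Bijective (shapiro₂ L H ρ) := by
  constructor
  -- injectivity
  · rw [← LinearMap.ker_eq_bot, LinearMap.ker_eq_bot']
    intro z hz
    obtain ⟨F₀, rfl⟩ := cl₂_surjective z
    obtain ⟨m, hm1, hm⟩ := cl₂_eq_zero.mp hz
    -- subtract the transfer of `m`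
    set F : G → G → (G ⧸ H) → M := F₀.1 - d₁ (indRep H ρ) (extend₁ H ρ m) with hF
    have hF0 : ∀ h h' : H, F h h' ((1 : G) : G ⧸ H) = 0 := by
      intro h h'
      change F₀.1 h h' _ - d₁ (indRep H ρ) (extend₁ H ρ m) h h' _ = 0
      rw [extend₁_d₁, hm]
      change F₀.1 h h' _ - ρ (cosetSec H ((1 : G) : G ⧸ H))
        (F₀.1 (cosetPart H (h : G) ((1 : G) : G ⧸ H))
          (cosetPart H (h' : G) ((h : G)⁻¹ • ((1 : G) : G ⧸ H))) ((1 : G) : G ⧸ H)) = 0
      have : (h : G)⁻¹ • ((1 : G) : G ⧸ H) = ((1 : G) : G ⧸ H) := by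
        rw [MulAction.Quotient.smul_mk, QuotientGroup.eq]; simp
      rw [this, cosetSec_one, map_one, cosetPart_one, cosetPart_one]
      exact sub_self _
    have hFd : d₂ (indRep H ρ) F = 0 := by rw [hF, map_sub, F₀.2.2, d₂_d₁, sub_zero]
    have coc : ∀ (a b c : G) (x : G ⧸ H),
        ρ a (F b c (a⁻¹ • x)) - F (a * b) c x + F a (b * c) x - F a b x = 0 := fun a b c x => by
      have := congrFun (congrFun (congrFun (congrFun hFd a) b) c) x
      simpa using this
    set μ : G → (G ⧸ H) → M := fun g x =>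
      F g (cosetSec H (g⁻¹ • x)) x - F (cosetSec H x) (cosetPart H g x) x with hμ
    -- what is left is the coboundary of the explicit cochain `μ`
    have key : d₁ (indRep H ρ) μ = F := by
      funext g₁ g₂ x
      set y := g₁⁻¹ • x with hy
      set z := g₂⁻¹ • y with hz
      set k₁ := cosetPart H g₁ x with hk₁
      set k₂ := cosetPart H g₂ y with hk₂
      have hz' : (g₁ * g₂)⁻¹ • x = z := by rw [hz, hy, mul_inv_rev, mul_smul]
      have hk : cosetPart H (g₁ * g₂) x = k₁ * k₂ := cosetPart_mul g₁ g₂ x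
      have ey : cosetSec H y * (k₂ : G) = g₂ * cosetSec H z := cosetSec_mul_part g₂ y
      have ex : cosetSec H x * (k₁ : G) = g₁ * cosetSec H y := cosetSec_mul_part g₁ x
      have c1 := coc g₁ g₂ (cosetSec H z) x
      have c2 := coc g₁ (cosetSec H y) k₂ x
      have c3 := coc (cosetSec H x) k₁ k₂ x
      rw [← ey] at c1
      rw [← ex] at c2
      rw [inv_smul_eq_iff.mpr (smul_one_coset x).symm, hF0, map_zero] at c3
      simp only [hμ, d₁_apply, Pi.add_apply, Pi.sub_apply, indRep_apply, map_sub, hz', hk,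
        Subgroup.coe_mul, ← hy, ← hz, ← hk₁, ← hk₂] at c1 c2 c3 ⊢
      linear_combination (norm := abel) c1 - c2 + c3
    -- which is locally constant
    have hμ1 : L.IsLC₁ μ := by
      obtain ⟨N, hN, hNH⟩ := hH
      obtain ⟨N', hN', hl⟩ : L.IsLC₂ F :=
        F₀.2.1.map₂ (isLC₂_d₁ (isSmooth_indRep ⟨N, hN, hNH⟩ hρ)
          (isLC₁_extend₁ ⟨N, hN, hNH⟩ hm1)) (· - ·)
      obtain ⟨M', hM', h1, h2⟩ := L.exists_le N N' hN hN'
      refine ⟨M', hM', fun g s hs => funext fun x => ?_⟩
      obtain ⟨t, ht, e⟩ := cosetPart_mul_level hM' (h1.trans hNH) hs g x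
      change F (g * s) (cosetSec H ((g * s)⁻¹ • x)) x -
        F (cosetSec H x) (cosetPart H (g * s) x : G) x = μ g x
      rw [mul_inv_rev, mul_smul, smul_quot_eq_self hN hNH (h1 (inv_mem hs)), e, Subgroup.coe_mul]
      have a1 := congrFun (hl g (cosetSec H (g⁻¹ • x)) s (h2 hs) 1 (one_mem _)) x
      have a2 := congrFun (hl (cosetSec H x) (cosetPart H g x : G) 1 (one_mem _) t (h2 ht)) x
      rw [mul_one] at a1 a2
      rw [a1, a2]
    refine cl₂_eq_zero.mpr ⟨μ + extend₁ H ρ m, hμ1.map₂ (isLC₁_extend₁ hH hm1) (· + ·), ?_⟩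
    rw [map_add, key, hF, sub_add_cancel]
  · intro z
    obtain ⟨f, rfl⟩ := cl₂_surjective z
    -- surjectivity: extend by cosets
    refine ⟨cl₂ L (indRep H ρ) ⟨_, extend₂_mem hH f.2⟩,
      congrArg _ (Subtype.ext (funext₂ fun h h' => ?_))⟩
    change ρ (cosetSec H ((1 : G) : G ⧸ H)) (f.1 (cosetPart H (h : G) ((1 : G) : G ⧸ H))
      (cosetPart H (h' : G) ((h : G)⁻¹ • ((1 : G) : G ⧸ H)))) = f.1 h h'
    have : (h : G)⁻¹ • ((1 : G) : G ⧸ H) = ((1 : G) : G ⧸ H) := by
      rw [MulAction.Quotient.smul_mk, QuotientGroup.eq]; simp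
    rw [this, cosetSec_one, map_one, cosetPart_one, cosetPart_one]
    rfl

/-! ### Kernels of homomorphisms to `ℤ/p` -/

section Kernel

variable (p : ℕ) [Fact p.Prime] {G : Type} [Group G] {L : Levels G}

/-- The trivial line. -/
abbrev triv (G : Type) [Group G] : Representation (ZMod p) G (ZMod p) :=
  Representation.trivial (ZMod p) G (ZMod p)

variable {p}

/-- Cocycles of the trivial line are homomorphisms. -/
lemma triv_hom (z : Z1 L (triv p G)) (g h : G) : z.1 (g * h) = z.1 g + z.1 h := by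
  rw [cocycle₁ z.2, Representation.trivial_apply, add_comm]

/-- The kernel of a homomorphism. -/
def homKer (z : Z1 L (triv p G)) : Subgroup G where
  carrier := {g | z.1 g = 0}
  one_mem' := Z1_one z.2
  mul_mem' {a b} ha hb := show z.1 (a * b) = 0 by
    rw [triv_hom, show z.1 a = 0 from ha, show z.1 b = 0 from hb, add_zero]
  inv_mem' {a} ha := show z.1 a⁻¹ = 0 by
    rw [Z1_inv z.2, show z.1 a = 0 from ha, map_zero, neg_zero]

/-- Membership in the kernel. -/
lemma mem_homKer {z : Z1 L (triv p G)} {g : G} : g ∈ homKer z ↔ z.1 g = 0 := Iff.rfl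

/-- A homomorphism on an inverse. -/
lemma triv_inv (z : Z1 L (triv p G)) (g : G) : z.1 g⁻¹ = -z.1 g := by
  rw [Z1_inv z.2, Representation.trivial_apply]

/-- A homomorphism on a power. -/
lemma triv_pow (z : Z1 L (triv p G)) (g : G) (n : ℕ) : z.1 (g ^ n) = n * z.1 g := by
  induction n with
  | zero => rw [pow_zero, Z1_one z.2, Nat.cast_zero, zero_mul]
  | succ n ih => rw [pow_succ, triv_hom, ih]; push_cast; ring

/-- The kernel is normal. -/
lemma conj_mem_homKer {z : Z1 L (triv p G)} {h : G} (hh : h ∈ homKer z) (g : G) :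
    g⁻¹ * h * g ∈ homKer z := by
  rw [mem_homKer, triv_hom, triv_hom, triv_inv, mem_homKer.mp hh]; abel

/-- `p`-th powers lie in the kernel. -/
lemma pow_mem_homKer {z : Z1 L (triv p G)} {σ : G} : σ ^ p ∈ homKer z := by
  rw [mem_homKer, triv_pow, ZMod.natCast_self, zero_mul]

/-- The kernel of a homomorphism is open. -/
lemma containsLevel_homKer (z : Z1 L (triv p G)) : ContainsLevel L (homKer z) :=
  let ⟨N, hN, h⟩ := z.2.1
  ⟨N, hN, fun s hs => show z.1 s = 0 by
    have := h 1 s hs
    rwa [one_mul, Z1_one z.2] at this⟩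

/-- The kernel of a homomorphism has finite index. -/
instance homKer_finiteIndex (z : Z1 L (triv p G)) : (homKer z).FiniteIndex :=
  (containsLevel_homKer z).finiteIndex

end Kernel

end Fermat.CFT.Coh
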