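import Fermat.Agent.CFT.Coh.Duality
import Fermat.Agent.CFT.Coh.Comap

/-!
# `H²` of a tower with a non-degenerate symbol

If every open subgroup fixing the line `χ` carries a non-degenerate symbol on `H¹(ℤ/p)`, classes
split by cyclic extensions are symbols and norms are not all trivial, then `H²` is a line and
corestrictions are surjective.  This yields the duality data.
-/

set_option autoImplicit false

noncomputable section

namespace Fermat.CFT.Coh

attribute [local instance] Subgroup.fintypeQuotientOfFiniteIndex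

/-- Classes of equal cocycles are equal. -/
lemma cl₂_congr {G : Type} [Group G] {R : Type} [CommRing R] {M : Type} [AddCommGroup M]
    [Module R M] {L : Levels G} {ρ : Representation R G M} {z z' : Z2 L ρ}
    (h : ∀ g g', z.1 g g' = z'.1 g g') : cl₂ L ρ z = cl₂ L ρ z' :=
  congrArg _ (Subtype.ext (funext₂ h))

/-- Cancelling a nonzero scalar. -/
lemma smul_mul_inv_smul {R V : Type} [Field R] [AddCommGroup V] [Module R V] (a : R) {b : R}
    (hb : b ≠ 0) (v : V) : (a * b⁻¹) • b • v = a • v := by
  rw [smul_smul, mul_assoc, inv_mul_cancel₀ hb, mul_one]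

/-! ### Restriction and corestriction -/

section ResCor

variable {G : Type} [Group G] {R : Type} [CommRing R] {L : Levels G} {M : Type} [AddCommGroup M]
  [Module R M] {ρ : Representation R G M}

variable (L ρ) in
/-- Restriction to a subgroup. -/
def res₂ (H : Subgroup G) : H2 L ρ →ₗ[R] H2 (subLevels L H) (ρ.comp H.subtype) :=
  map₂ (IsLevelsHom.comap L H.subtype) (IsEquivariant.restrict ρ H.subtype)

variable (L ρ) in
/-- The corestriction, from the induced module. -/
def cor₂ (H : Subgroup G) [H.FiniteIndex] : H2 L (indRep H ρ) →ₗ[R] H2 L ρ :=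
  map₂ (IsLevelsHom.id L) indSum_equivariant

variable (L ρ) in
/-- The map on `H²` induced by the inclusion of the constants in the induced module. -/
def diag₂ (H : Subgroup G) : H2 L ρ →ₗ[R] H2 L (indRep H ρ) :=
  map₂ (IsLevelsHom.id L) indDiag_equivariant

variable {H : Subgroup G}

/-- Shapiro's map after the diagonal is restriction. -/
lemma shapiro₂_diag₂ (c : H2 L ρ) : shapiro₂ L H ρ (diag₂ L ρ H c) = res₂ L ρ H c := by
  obtain ⟨z, rfl⟩ := cl₂_surjective c
  rfl

/-- Corestriction after the diagonal is multiplication by the index. -/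
lemma cor₂_diag₂ [H.FiniteIndex] (c : H2 L ρ) : cor₂ L ρ H (diag₂ L ρ H c) = H.index • c := by
  obtain ⟨z, rfl⟩ := cl₂_surjective c
  rw [← map_nsmul (cl₂ L ρ)]
  refine congrArg (cl₂ L ρ) (Subtype.ext (funext₂ fun g h => ?_))
  change indSum R M H (indDiag R M H (z.1 g h)) = H.index • z.1 g h
  exact indSum_indDiag _

/-- Restriction to a subgroup of invertible index is injective. -/
lemma res₂_eq_zero [H.FiniteIndex] (hH : ContainsLevel L H) (hρ : IsSmooth L ρ)
    (hidx : IsUnit (H.index : R)) {c : H2 L ρ} (hc : res₂ L ρ H c = 0) : c = 0 := by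
  have h1 : diag₂ L ρ H c = 0 :=
    (shapiro₂_bijective hH hρ).injective (by rw [shapiro₂_diag₂, hc, map_zero])
  have h2 := cor₂_diag₂ (H := H) c
  rw [h1, map_zero, ← Nat.cast_smul_eq_nsmul R] at h2
  obtain ⟨u, hu⟩ := hidx
  rw [← hu, eq_comm] at h2
  simpa using congrArg (((u⁻¹ : Rˣ) : R) • ·) h2

/-- Corestriction from a subgroup of invertible index is surjective. -/
lemma cor₂_surjective_of_unit [H.FiniteIndex] (hidx : IsUnit (H.index : R)) :
    Function.Surjective (cor₂ L ρ H) := fun c => by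
  obtain ⟨u, hu⟩ := hidx
  refine ⟨((u⁻¹ : Rˣ) : R) • diag₂ L ρ H c, ?_⟩
  rw [map_smul, cor₂_diag₂, ← Nat.cast_smul_eq_nsmul R, ← hu, smul_smul, Units.inv_mul, one_smul]

variable {K : Subgroup G} (hKH : K ≤ H)

variable (R M) in
open scoped Classical in
/-- Summation along `G/K → G/H`. -/
def fibSum [K.FiniteIndex] : ((G ⧸ K) → M) →ₗ[R] (G ⧸ H) → M where
  toFun F := fun x =>
    ∑ y ∈ Finset.univ.filter (fun y => Subgroup.quotientMapOfLE hKH y = x), F y
  map_add' F F' := funext fun x => Finset.sum_add_distrib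
  map_smul' c F := funext fun x => by
    simp only [Pi.smul_apply, RingHom.id_apply, Finset.smul_sum]

/-- Summing over the fibres of `G / K → G / H` is equivariant. -/
lemma fibSum_equivariant [K.FiniteIndex] :
    IsEquivariant (indRep K ρ) (indRep H ρ) (MonoidHom.id G) (fibSum R M hKH) := by
  classical
  intro g F
  funext x
  change ∑ y ∈ _, ρ g (F (g⁻¹ • y)) = ρ g (∑ y ∈ _, F y)
  rw [map_sum]
  refine Finset.sum_equiv (MulAction.toPerm g⁻¹) (fun y => ?_) (fun y _ => rfl)
  simp only [Finset.mem_filter, Finset.mem_univ, true_and, MulAction.toPerm_apply]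
  induction y using QuotientGroup.induction_on with
  | _ a =>
    change Subgroup.quotientMapOfLE hKH (a : G ⧸ K) = x ↔
      Subgroup.quotientMapOfLE hKH ((g⁻¹ * a : G) : G ⧸ K) = g⁻¹ • x
    change (a : G ⧸ H) = x ↔ ((g⁻¹ * a : G) : G ⧸ H) = g⁻¹ • x
    rw [← MulAction.Quotient.coe_smul_out (H := H) g⁻¹ x]
    constructor
    · intro h
      rw [MulAction.Quotient.coe_smul_out, ← h]
      rfl
    · intro h
      rw [MulAction.Quotient.coe_smul_out] at h
      have := congrArg (g • ·) h
      simp only [smul_inv_smul] at this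
      rw [← this]
      change (a : G ⧸ H) = ((g * (g⁻¹ * a) : G) : G ⧸ H)
      rw [mul_inv_cancel_left]

/-- The sum of the fibre sums is the whole sum. -/
lemma indSum_fibSum [K.FiniteIndex] [H.FiniteIndex] (F : (G ⧸ K) → M) :
    indSum R M H (fibSum R M hKH F) = indSum R M K F := by
  classical
  simp only [indSum_apply]
  exact Finset.sum_fiberwise _ _ _

/-- The subgroup `K` inside `H` gives the cosets of `K` in the trivial coset of `H`. -/
def innerCoset : H ⧸ K.subgroupOf H → G ⧸ K :=
  Quotient.map' (fun h => (h : G)) fun a b h => by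
    rw [QuotientGroup.leftRel_apply] at h ⊢
    exact h

variable (R M K) in
/-- Restriction of functions to the trivial coset. -/
def innerRes : ((G ⧸ K) → M) →ₗ[R] (H ⧸ K.subgroupOf H) → M :=
  LinearMap.funLeft R M innerCoset

/-- Restriction to the trivial coset of `H` is `H`-equivariant. -/
lemma innerRes_equivariant :
    IsEquivariant (indRep K ρ) (indRep (K.subgroupOf H) (ρ.comp H.subtype)) H.subtype
      (innerRes R M (H := H) K) := by
  intro g F
  funext x
  induction x using QuotientGroup.induction_on with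
  | _ a => rfl

/-- The value at the base coset of a fibre sum is the sum over `H / K` of the restriction to `H`. -/
lemma evOne_fibSum [K.FiniteIndex] [(K.subgroupOf H).FiniteIndex] (F : (G ⧸ K) → M) :
    evOne (H := H) (R := R) (fibSum R M hKH F) =
      indSum (G := H) R M (K.subgroupOf H) (innerRes R M (H := H) K F) := by
  classical
  rw [indSum_apply]
  change ∑ y ∈ Finset.univ.filter (fun y => Subgroup.quotientMapOfLE hKH y = ((1 : G) : G ⧸ H)),
      F y = ∑ z, F (innerCoset z)
  refine (Finset.sum_bij (fun z _ => innerCoset z) (fun z _ => ?_) (fun z _ z' _ h => ?_)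
    (fun y hy => ?_) (fun _ _ => rfl)).symm
  · induction z using QuotientGroup.induction_on with
    | _ a =>
      simp only [Finset.mem_filter, Finset.mem_univ, true_and]
      change ((a : G) : G ⧸ H) = ((1 : G) : G ⧸ H)
      rw [QuotientGroup.eq]
      simp
  · induction z using QuotientGroup.induction_on with
    | _ a =>
      induction z' using QuotientGroup.induction_on with
      | _ b =>
        change ((a : G) : G ⧸ K) = ((b : G) : G ⧸ K) at h
        rw [QuotientGroup.eq] at h ⊢
        exact h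
  · induction y using QuotientGroup.induction_on with
    | _ g =>
      simp only [Finset.mem_filter, Finset.mem_univ, true_and] at hy
      change (g : G ⧸ H) = ((1 : G) : G ⧸ H) at hy
      rw [QuotientGroup.eq] at hy
      exact ⟨(⟨g, by simpa using hy⟩ : H), Finset.mem_univ _, rfl⟩

/-- An open subgroup meets another one in an open subgroup of it. -/
lemma ContainsLevel.subgroupOf (hK : ContainsLevel L K) (H : Subgroup G) :
    ContainsLevel (subLevels L H) (K.subgroupOf H) :=
  let ⟨N, hN, h⟩ := hK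
  ⟨_, ⟨N, hN, rfl⟩, Subgroup.comap_mono h⟩

include hKH in
/-- Surjectivity of corestriction is transitive. -/
theorem cor₂_surjective_trans [K.FiniteIndex] [H.FiniteIndex] [(K.subgroupOf H).FiniteIndex]
    (hK : ContainsLevel L K) (hρ : IsSmooth L ρ)
    (h1 : Function.Surjective (cor₂ (subLevels L H) (ρ.comp H.subtype) (K.subgroupOf H)))
    (h2 : Function.Surjective (cor₂ L ρ H)) : Function.Surjective (cor₂ L ρ K) := by
  have hH : ContainsLevel L H := let ⟨N, hN, h⟩ := hK; ⟨N, hN, h.trans hKH⟩
  intro c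
  obtain ⟨d, rfl⟩ := h2 c
  obtain ⟨d', hd'⟩ := h1 (shapiro₂ L H ρ d)
  -- transport `d'` to the induced module from `K`
  let j : K →* (K.subgroupOf H) := (Subgroup.subgroupOfEquivOfLe hKH).symm.toMonoidHom
  have hj : IsLevelsHom (subLevels (subLevels L H) (K.subgroupOf H)) (subLevels L K) j := by
    rintro _ ⟨_, ⟨N, hN, rfl⟩, rfl⟩
    exact ⟨_, ⟨N, hN, rfl⟩, fun x hx => hx⟩
  have hje : IsEquivariant ((ρ.comp H.subtype).comp (K.subgroupOf H).subtype) (ρ.comp K.subtype) j
      (LinearMap.id : M →ₗ[R] M) := fun g m => rfl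
  obtain ⟨e, he⟩ := (shapiro₂_bijective hK hρ).surjective
    (map₂ hj hje (shapiro₂ (subLevels L H) (K.subgroupOf H) (ρ.comp H.subtype) d'))
  have hres : map₂ (IsLevelsHom.comap L H.subtype) (innerRes_equivariant (ρ := ρ)) e = d' := by
    refine (shapiro₂_bijective (hK.subgroupOf H)
      (hρ.comp (IsLevelsHom.comap L H.subtype))).injective ?_
    let i : (K.subgroupOf H) →* K := (Subgroup.subgroupOfEquivOfLe hKH).toMonoidHom
    have hi : IsLevelsHom (subLevels L K) (subLevels (subLevels L H) (K.subgroupOf H)) i := by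
      rintro _ ⟨N, hN, rfl⟩
      exact ⟨_, ⟨_, ⟨N, hN, rfl⟩, rfl⟩, fun x hx => hx⟩
    have hie : IsEquivariant (ρ.comp K.subtype) ((ρ.comp H.subtype).comp (K.subgroupOf H).subtype) i
        (LinearMap.id : M →ₗ[R] M) := fun g m => rfl
    have h3 := congrArg (map₂ hi hie) he
    obtain ⟨z, rfl⟩ := cl₂_surjective e
    obtain ⟨z', rfl⟩ := cl₂_surjective d'
    exact h3
  refine ⟨e, ?_⟩
  have hfib : map₂ (IsLevelsHom.id L) (fibSum_equivariant hKH (ρ := ρ)) e = d := by
    refine (shapiro₂_bijective hH hρ).injective (hd'.symm.trans ?_).symm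
    rw [← hres]
    obtain ⟨z, rfl⟩ := cl₂_surjective e
    refine (cl₂_congr fun g g' => ?_).symm
    exact evOne_fibSum hKH _
  rw [← hfib]
  obtain ⟨z, rfl⟩ := cl₂_surjective e
  refine (cl₂_congr fun g g' => ?_).symm
  exact indSum_fibSum hKH _

include hKH in
/-- Corestriction from a larger subgroup is surjective. -/
theorem cor₂_surjective_mono [K.FiniteIndex] [H.FiniteIndex]
    (h : Function.Surjective (cor₂ L ρ K)) : Function.Surjective (cor₂ L ρ H) := fun c => by
  obtain ⟨e, rfl⟩ := h c
  refine ⟨map₂ (IsLevelsHom.id L) (fibSum_equivariant hKH (ρ := ρ)) e, ?_⟩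
  obtain ⟨z, rfl⟩ := cl₂_surjective e
  refine cl₂_congr fun g g' => ?_
  exact indSum_fibSum hKH _

end ResCor

/-! ### The symbol -/

section Symbol

variable (p : ℕ) [hp : Fact p.Prime] {G : Type} [Group G]

/-- The cup product on `H¹(ℤ/p)`. -/
def sym (L : Levels G) : H1 L (triv p G) →ₗ[ZMod p] H1 L (triv p G) →ₗ[ZMod p] H2 L (triv p G) :=
  cup11 (P := LinearMap.mul (ZMod p) (ZMod p)) (ρW := triv p G) (fun _ _ _ => rfl)
    (isSmooth_trivial L) (isSmooth_trivial L)

variable {p} {L : Levels G}

/-- The symbol is skew-symmetric. -/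
lemma sym_skew (x y : H1 L (triv p G)) : sym p L x y = -sym p L y x := by
  obtain ⟨f, rfl⟩ := cl₁_surjective x
  obtain ⟨f', rfl⟩ := cl₁_surjective y
  refine (cupZ_comm (P := LinearMap.mul (ZMod p) (ZMod p)) (ρW := triv p G) (fun _ _ _ => rfl)
    (isSmooth_trivial L) (isSmooth_trivial L) f f').trans ?_
  refine congrArg Neg.neg (cl₂_congr fun g h => ?_)
  exact mul_comm _ _

variable (p) in
/-- A non-degenerate symbol with cyclic splitting and nontrivial norms. -/
structure SymbolData (L : Levels G) : Prop where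
  /-- `H¹` is finite. -/
  finite_H1 : Finite (H1 L (triv p G))
  /-- `H¹` is not zero. -/
  exists_ne : ∃ x : H1 L (triv p G), x ≠ 0
  /-- The symbol is non-degenerate. -/
  exists_sym_ne : ∀ x : H1 L (triv p G), x ≠ 0 → ∃ y, sym p L y x ≠ 0
  /-- Every symbol with a class is a multiple of any nonzero symbol with that class. -/
  proportional : ∀ (x y y' : H1 L (triv p G)), sym p L y x ≠ 0 →
    ∃ c : ZMod p, sym p L y' x = c • sym p L y x
  /-- A class split by the kernel of a nonzero class of degree one is a symbol with that class. -/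
  split : ∀ (z : Z1 L (triv p G)) (c : H2 L (triv p G)), cl₁ L (triv p G) z ≠ 0 →
    res₂ L (triv p G) (homKer z) c = 0 → ∃ y, sym p L y (cl₁ L (triv p G) z) = c
  /-- Corestriction from the kernel of a nonzero class is not zero on `H¹`. -/
  norm_ne : ∀ z : Z1 L (triv p G), cl₁ L (triv p G) z ≠ 0 →
    ∃ Y : H1 L (indRep (homKer z) (triv p G)),
    map₁ (IsLevelsHom.id L) (indSum_equivariant (H := homKer z) (ρ := triv p G)) Y ≠ 0

/-- A nonzero class of degree two whose multiples are exactly the symbols. -/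
lemma SymbolData.exists_generator (S : SymbolData p L) :
    ∃ c₀ : H2 L (triv p G), c₀ ≠ 0 ∧ (∀ x y, ∃ a : ZMod p, sym p L y x = a • c₀) ∧
      ∀ a : ZMod p, ∃ x y, sym p L y x = a • c₀ := by
  obtain ⟨x₁, hx₁⟩ := S.exists_ne
  obtain ⟨y₁, hy₁⟩ := S.exists_sym_ne x₁ hx₁
  refine ⟨_, hy₁, fun x y => ?_, fun a => ⟨x₁, a • y₁, by rw [map_smul]; rfl⟩⟩
  rcases eq_or_ne x 0 with rfl | hx
  · exact ⟨0, by rw [map_zero, zero_smul]⟩
  obtain ⟨z, hz, hz₁⟩ : ∃ z, sym p L z x ≠ 0 ∧ sym p L z x₁ ≠ 0 := by
    obtain ⟨u, hu⟩ := S.exists_sym_ne x hx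
    by_cases h1 : sym p L u x₁ = 0
    · by_cases h2 : sym p L y₁ x = 0
      · exact ⟨u + y₁, by simpa [h2] using hu, by simpa [h1] using hy₁⟩
      · exact ⟨y₁, h2, hy₁⟩
    · exact ⟨u, hu, h1⟩
  obtain ⟨a, ha⟩ := S.proportional x z y hz
  obtain ⟨b, hb⟩ := S.proportional x₁ y₁ z hy₁
  have hz1' : sym p L x₁ z ≠ 0 := by rwa [sym_skew, neg_ne_zero]
  obtain ⟨c, hc⟩ := S.proportional z x₁ x hz1'
  refine ⟨a * (c * b), ?_⟩
  rw [ha, sym_skew z x, hc, sym_skew x₁ z, hb]
  simp [smul_smul]

/-- Symbol data on every group mapping onto an open subgroup. -/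
def SymbolTower (p : ℕ) [Fact p.Prime] (L : Levels G) : Prop :=
  ∀ (G' : Type) [Group G'] (f : G' →* G), ContainsLevel L f.range → SymbolData p (L.comap f)

/-- A symbol tower carries symbol data on the group itself. -/
lemma SymbolTower.symbolData (T : SymbolTower p L) : SymbolData p L := by
  have e : L.comap (MonoidHom.id G) = L := Levels.ext_isLevel (funext fun N => propext
    ⟨fun ⟨N', hN', h⟩ => by rw [h, Subgroup.comap_id]; exact hN',
      fun h => ⟨N, h, (Subgroup.comap_id N).symm⟩⟩)
  obtain ⟨N, hN⟩ := L.exists_level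
  have := T G (MonoidHom.id G) ⟨N, hN, fun x _ => ⟨x, rfl⟩⟩
  rwa [e] at this

/-- A symbol tower restricts to open subgroups. -/
lemma SymbolTower.sub (T : SymbolTower p L) {H : Subgroup G} (hH : ContainsLevel L H) :
    SymbolTower p (subLevels L H) := by
  intro G' _ f hf
  rw [Levels.comap_comap]
  refine T G' _ ?_
  obtain ⟨_, ⟨N, hN, rfl⟩, hle⟩ := hf
  obtain ⟨N₀, hN₀, hle₀⟩ := hH
  obtain ⟨N', hN', h1, h2⟩ := L.exists_le N N₀ hN hN₀
  refine ⟨N', hN', fun x hx => ?_⟩
  obtain ⟨y, hy⟩ := hle (show (⟨x, hle₀ (h2 hx)⟩ : H) ∈ N.comap H.subtype from h1 hx)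
  exact ⟨y, congrArg Subtype.val hy⟩

/-- A normal subgroup of `p`-power index is contained in the kernel of a nontrivial
homomorphism, with index dropping by `p`. -/
lemma exists_homKer_ge {N : Subgroup G} (hN : L.IsLevel N) {k : ℕ} (hk : N.index = p ^ (k + 1)) :
    ∃ z : Z1 L (triv p G), cl₁ L (triv p G) z ≠ 0 ∧ (homKer z).index = p ∧ N ≤ homKer z := by
  have := L.normal N hN
  have := L.finiteIndex N hN
  have hcard : Nat.card (G ⧸ N) = p ^ (k + 1) := by rw [← Subgroup.index_eq_card, hk]
  -- a subgroup of index `p` of `G ⧸ N`, necessarily normal, and the character with that kernel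
  obtain ⟨M₀, hM₀⟩ := Sylow.exists_subgroup_card_pow_prime (G := G ⧸ N) p (n := k)
    (by rw [hcard]; exact pow_dvd_pow p k.le_succ)
  have hidx : M₀.index = p := by
    have := M₀.index_mul_card
    rw [hM₀, hcard, pow_succ'] at this
    exact Nat.eq_of_mul_eq_mul_right (pow_pos hp.out.pos k) this
  have : M₀.Normal := Subgroup.normal_of_index_eq_minFac_card (by
    rw [hidx, hcard, Nat.pow_minFac k.succ_ne_zero, Nat.Prime.minFac_eq hp.out])
  have hcard' : Nat.card ((G ⧸ N) ⧸ M₀) = p := by rw [← Subgroup.index_eq_card, hidx]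
  have hcyc : IsCyclic ((G ⧸ N) ⧸ M₀) := isCyclic_of_prime_card hcard'
  let e : Multiplicative (ZMod (Nat.card ((G ⧸ N) ⧸ M₀))) ≃* ((G ⧸ N) ⧸ M₀) :=
    zmodCyclicMulEquiv hcyc
  let φ : G →* Multiplicative (ZMod p) :=
    ((AddMonoidHom.toMultiplicative (ZMod.ringEquivCongr hcard').toAddEquiv.toAddMonoidHom).comp
      e.symm.toMonoidHom).comp ((QuotientGroup.mk' M₀).comp (QuotientGroup.mk' N))
  have hφker : φ.ker = M₀.comap (QuotientGroup.mk' N) := by
    ext g
    rw [MonoidHom.mem_ker, Subgroup.mem_comap, ← QuotientGroup.eq_one_iff]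
    constructor
    · intro h
      have h' : (ZMod.ringEquivCongr hcard') (Multiplicative.toAdd (e.symm
          (QuotientGroup.mk' M₀ (QuotientGroup.mk' N g)))) = 0 := h
      rw [map_eq_zero_iff _ (ZMod.ringEquivCongr hcard').injective] at h'
      exact e.symm.injective ((Multiplicative.toAdd.injective h').trans (map_one e.symm).symm)
    · intro h
      change _ = Multiplicative.ofAdd (0 : ZMod p)
      change Multiplicative.ofAdd ((ZMod.ringEquivCongr hcard') (Multiplicative.toAdd (e.symm
          (QuotientGroup.mk' M₀ (QuotientGroup.mk' N g))))) = _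
      rw [show QuotientGroup.mk' M₀ (QuotientGroup.mk' N g) = 1 from h, map_one,
        toAdd_one, map_zero]
  have hle : N ≤ φ.ker := by
    rw [hφker]
    intro s hs
    rw [Subgroup.mem_comap, show QuotientGroup.mk' N s = 1 from
      (QuotientGroup.eq_one_iff s).mpr hs]
    exact one_mem _
  let z : Z1 L (triv p G) := ⟨fun g => Multiplicative.toAdd (φ g),
    ⟨N, hN, fun g s hs => by
      change Multiplicative.toAdd (φ (g * s)) = _
      rw [map_mul, show φ s = 1 from hle hs, mul_one]⟩,
    funext₂ fun g h => by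
      simp only [d₁_apply, Representation.trivial_apply, map_mul, toAdd_mul, Pi.zero_apply]
      abel⟩
  have hker : homKer z = φ.ker := by
    ext g
    exact Multiplicative.toAdd.injective.eq_iff' rfl
  have hzidx : (homKer z).index = p := by
    rw [hker, hφker, Subgroup.index_comap_of_surjective _ (QuotientGroup.mk'_surjective N), hidx]
  refine ⟨z, fun h => hp.out.ne_one ?_, hzidx, hker.ge.trans' hle⟩
  obtain ⟨m, hm⟩ := cl₁_eq_zero.mp h
  rw [← hzidx, Subgroup.index_eq_one, eq_top_iff]
  intro g _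
  have := congrFun hm g
  simpa [mem_homKer, eq_comm] using this

/-- If `c` dies on `N`, its restriction to `H` dies on `N ∩ H`. -/
lemma res₂_comap_eq_zero {H N : Subgroup G} {c : H2 L (triv p G)} (hc : res₂ L (triv p G) N c = 0) :
    res₂ (subLevels L H) (triv p H) (N.comap H.subtype) (res₂ L (triv p G) H c) = 0 := by
  let j : N.comap H.subtype →* N :=
    MonoidHom.mk' (fun x => ⟨x.1.1, x.2⟩) fun _ _ => rfl
  have hj : IsLevelsHom (subLevels L N) (subLevels (subLevels L H) (N.comap H.subtype)) j := by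
    rintro _ ⟨N', hN', rfl⟩
    exact ⟨_, ⟨_, ⟨N', hN', rfl⟩, rfl⟩, fun x hx => hx⟩
  have hje : IsEquivariant ((triv p G).comp N.subtype)
      ((triv p H).comp (N.comap H.subtype).subtype) j (LinearMap.id : ZMod p →ₗ[ZMod p] ZMod p) :=
    fun _ _ => rfl
  have h := congrArg (map₂ hj hje) hc
  rw [map_zero] at h
  obtain ⟨z, rfl⟩ := cl₂_surjective c
  exact h

/-- The induced module from the kernel `M` of a nontrivial `z` has a class with nonzero
corestriction whose Shapiro image is a symbol on `M`. -/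
lemma SymbolData.exists_cor₂_ne_zero (S : SymbolData p L) (z : Z1 L (triv p G))
    (hz : cl₁ L (triv p G) z ≠ 0) :
    ∃ Z : H2 L (indRep (homKer z) (triv p G)), cor₂ L (triv p G) (homKer z) Z ≠ 0 ∧
      ∃ x y, sym p (subLevels L (homKer z)) y x = shapiro₂ L (homKer z) (triv p G) Z := by
  set M := homKer z
  have hM := containsLevel_homKer z
  obtain ⟨Y, hY⟩ := S.norm_ne z hz
  obtain ⟨u, hu⟩ := S.exists_sym_ne _ hY
  have hP : IsPairing (triv p G) (indRep M (triv p G)) (indRep M (triv p G))
      (LinearMap.lsmul (ZMod p) ((G ⧸ M) → ZMod p)) := fun g r F => by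
    funext q; simp
  set Z : H2 L (indRep M (triv p G)) := cup11 hP (isSmooth_indRep hM (isSmooth_trivial L))
    (isSmooth_trivial L) u Y with hZ
  refine ⟨Z, ?_, shapiro₁ L M (triv p G) Y,
    map₁ (IsLevelsHom.comap L M.subtype) (IsEquivariant.restrict (triv p G) M.subtype) u, ?_⟩
  · rw [hZ, cor₂, map_cup11 hP (isSmooth_indRep hM (isSmooth_trivial L))
      (Q := LinearMap.mul (ZMod p) (ZMod p)) (fun _ _ _ => rfl) (IsLevelsHom.id L)
      (IsEquivariant.id _) indSum_equivariant indSum_equivariant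
      (fun r F => by simp [Finset.mul_sum]) (isSmooth_trivial L) (isSmooth_trivial L)
      (isSmooth_trivial L), map₁_id]
    exact hu
  · rw [hZ]
    exact (map_cup11 hP (isSmooth_indRep hM (isSmooth_trivial L))
      (Q := LinearMap.mul (ZMod p) (ZMod p)) (fun _ _ _ => rfl) (IsLevelsHom.comap L M.subtype)
      (IsEquivariant.restrict (triv p G) M.subtype) evOne_equivariant evOne_equivariant
      (fun r F => rfl) (isSmooth_trivial L) (isSmooth_trivial _) (isSmooth_trivial _) u Y).symm

variable (p) in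
/-- Every class killed on a normal subgroup of `p`-power index is a symbol. -/
theorem SymbolTower.exists_sym_of_level : ∀ (k : ℕ) {G : Type} [Group G] {L : Levels G},
    SymbolTower p L → ∀ {N : Subgroup G}, L.IsLevel N → N.index = p ^ k →
      ∀ c : H2 L (triv p G), res₂ L (triv p G) N c = 0 → ∃ x y, sym p L y x = c := by
  intro k
  induction k with
  | zero =>
    intro G _ L T N hN hk c hc
    have := L.finiteIndex N hN
    refine ⟨0, 0, ?_⟩
    rw [map_zero]
    exact (res₂_eq_zero ⟨N, hN, le_rfl⟩ (isSmooth_trivial L)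
      (by rw [hk, pow_zero, Nat.cast_one]; exact isUnit_one) hc).symm
  | succ k ih =>
    intro G _ L T N hN hk c hc
    -- descend to the kernel `M` of a character of order `p` containing `N`
    obtain ⟨z, hz, hzidx, hNz⟩ := exists_homKer_ge hN hk
    set M := homKer z
    have hM := containsLevel_homKer z
    have hNidx : (N.comap M.subtype).index = p ^ k := by
      have h1 := Subgroup.relIndex_mul_index hNz
      rw [hk, hzidx, pow_succ] at h1
      exact Nat.eq_of_mul_eq_mul_right hp.out.pos h1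
    obtain ⟨x, y, hxy⟩ := ih (T.sub hM) (N := N.comap M.subtype) ⟨N, hN, rfl⟩ hNidx _
      (res₂_comap_eq_zero hc)
    obtain ⟨c₀, hc₀, hgen, -⟩ := (T.sub hM).symbolData.exists_generator
    obtain ⟨a, ha⟩ := hgen x y
    rw [hxy] at ha
    -- a class of the induced module with nonzero corestriction
    obtain ⟨Z, hcorZ, x', y', hZ⟩ := T.symbolData.exists_cor₂_ne_zero z hz
    obtain ⟨b, hb⟩ : ∃ b : ZMod p, shapiro₂ L M (triv p G) Z = b • c₀ :=
      (hgen x' y').imp fun b hb => hZ.symm.trans hb
    -- so the diagonal image of `c` is a multiple of `Z`; corestrict, using `cor ∘ diag = p = 0`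
    have hinj := (shapiro₂_bijective (ρ := triv p G) hM (isSmooth_trivial L)).injective
    have hb0 : b ≠ 0 := fun h => hcorZ (by
      rw [hinj (a₁ := Z) (a₂ := 0) (by rw [hb, h, zero_smul, map_zero]; rfl), map_zero])
    have hdiag : diag₂ L (triv p G) M c = (a * b⁻¹) • Z := hinj (by
      rw [shapiro₂_diag₂, map_smul, hb]
      exact ha.trans (smul_mul_inv_smul a hb0 c₀).symm)
    have h0 := congrArg (cor₂ L (triv p G) M) hdiag
    rw [cor₂_diag₂, hzidx, ← Nat.cast_smul_eq_nsmul (ZMod p), ZMod.natCast_self, zero_smul,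
      map_smul, eq_comm, smul_eq_zero_iff_left hcorZ] at h0
    have hres : res₂ L (triv p G) M c = 0 := by
      rw [← shapiro₂_diag₂, hdiag, h0, zero_smul, map_zero]
    obtain ⟨w, hw⟩ := T.symbolData.split z c hz hres
    exact ⟨_, w, hw⟩

/-- A class is killed on some level. -/
lemma exists_res₂_eq_zero (c : H2 L (triv p G)) : ∃ N, L.IsLevel N ∧ res₂ L (triv p G) N c = 0 := by
  obtain ⟨z, rfl⟩ := cl₂_surjective c
  obtain ⟨N, hN, hz⟩ := z.2.1
  refine ⟨N, hN, cl₂_eq_zero.mpr ⟨fun _ => z.1 1 1, Levels.IsLC₁.const _, funext₂ fun g h => ?_⟩⟩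
  have h1 := hz 1 1 g g.2 h h.2
  rw [one_mul, one_mul] at h1
  simp only [d₁_apply, mapZ2_apply, LinearMap.id_apply, MonoidHom.comp_apply,
    Representation.trivial_apply, Subgroup.coe_subtype, h1]
  abel

/-- A subgroup above a level with quotient a `p`-group and index prime to `p`. -/
lemma exists_sylow_above {N : Subgroup G} (hN : L.IsLevel N) :
    ∃ (P : Subgroup G) (k : ℕ), N ≤ P ∧ P.FiniteIndex ∧ ¬ p ∣ P.index ∧
      (N.comap P.subtype).index = p ^ k := by
  have := L.normal N hN
  have := L.finiteIndex N hN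
  obtain ⟨P₀⟩ : Nonempty (Sylow p (G ⧸ N)) := inferInstance
  obtain ⟨k, hk⟩ := P₀.2.exists_card_eq
  set P := (P₀ : Subgroup (G ⧸ N)).comap (QuotientGroup.mk' N)
  have hNP : N ≤ P := fun s hs => by
    rw [Subgroup.mem_comap, show QuotientGroup.mk' N s = 1 from (QuotientGroup.eq_one_iff s).mpr hs]
    exact one_mem _
  have hidx : P.index = (P₀ : Subgroup (G ⧸ N)).index :=
    Subgroup.index_comap_of_surjective _ (QuotientGroup.mk'_surjective N)
  refine ⟨P, k, hNP, ⟨by rw [hidx]; exact Subgroup.FiniteIndex.index_ne_zero⟩,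
    by rw [hidx]; exact P₀.not_dvd_index, ?_⟩
  have h1 := Subgroup.relIndex_mul_index hNP
  have h2 := (P₀ : Subgroup (G ⧸ N)).index_mul_card
  rw [hk, ← Subgroup.index_eq_card, ← hidx, mul_comm] at h2
  exact Nat.eq_of_mul_eq_mul_right (Nat.pos_of_ne_zero (by
    rw [hidx]; exact Subgroup.FiniteIndex.index_ne_zero)) (h1.trans h2.symm)

/-- An index prime to `p` is a unit modulo `p`. -/
lemma isUnit_index {P : Subgroup G} (h : ¬ p ∣ P.index) : IsUnit ((P.index : ℕ) : ZMod p) :=
  isUnit_iff_ne_zero.mpr fun h0 => h ((ZMod.natCast_eq_zero_iff _ _).mp h0)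

/-- `H²` is a line. -/
theorem SymbolTower.finrank_H2 (T : SymbolTower p L) :
    Module.finrank (ZMod p) (H2 L (triv p G)) = 1 := by
  obtain ⟨c₀, hc₀, -, -⟩ := T.symbolData.exists_generator
  refine finrank_eq_one c₀ hc₀ fun c => ?_
  obtain ⟨N₁, hN₁, h₁⟩ := exists_res₂_eq_zero c₀
  obtain ⟨N₂, hN₂, h₂⟩ := exists_res₂_eq_zero c
  obtain ⟨N, hN, i1, i2⟩ := L.exists_le N₁ N₂ hN₁ hN₂
  have hmono : ∀ {N' : Subgroup G} {d : H2 L (triv p G)}, N ≤ N' → res₂ L (triv p G) N' d = 0 →
      res₂ L (triv p G) N d = 0 := fun {N' d} hle h => by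
    let j : N →* N' := Subgroup.inclusion hle
    have hj : IsLevelsHom (subLevels L N') (subLevels L N) j := by
      rintro _ ⟨M, hM, rfl⟩
      exact ⟨_, ⟨M, hM, rfl⟩, fun x hx => hx⟩
    have hje : IsEquivariant ((triv p G).comp N'.subtype) ((triv p G).comp N.subtype) j
        (LinearMap.id : ZMod p →ₗ[ZMod p] ZMod p) := fun _ _ => rfl
    have h' := congrArg (map₂ hj hje) h
    rw [map_zero] at h'
    obtain ⟨w, rfl⟩ := cl₂_surjective d
    exact h'
  -- both classes die on `N`; restriction to a Sylow subgroup above it is injective, and there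
  -- they are symbols, hence on one line
  obtain ⟨P, k, hNP, hPf, hPd, hPk⟩ := exists_sylow_above (p := p) hN
  have hP : ContainsLevel L P := ⟨N, hN, hNP⟩
  obtain ⟨d₀, hd₀, hgen, -⟩ := (T.sub hP).symbolData.exists_generator
  have key : ∀ d : H2 L (triv p G), res₂ L (triv p G) N d = 0 → ∃ a : ZMod p,
      res₂ L (triv p G) P d = a • d₀ :=
    fun d hd => by
      obtain ⟨x, y, hxy⟩ := SymbolTower.exists_sym_of_level p k (T.sub hP) ⟨N, hN, rfl⟩ hPk
        _ (res₂_comap_eq_zero hd)
      obtain ⟨a, ha⟩ := hgen x y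
      exact ⟨a, hxy.symm.trans ha⟩
  obtain ⟨a₀, ha₀⟩ := key c₀ (hmono i1 h₁)
  obtain ⟨a, ha⟩ := key c (hmono i2 h₂)
  have hinj : ∀ d, res₂ L (triv p G) P d = 0 → d = 0 := fun d hd =>
    res₂_eq_zero hP (isSmooth_trivial L) (isUnit_index hPd) hd
  have ha₀0 : a₀ ≠ 0 := fun h => hc₀ (hinj _ (ha₀.trans (by rw [h, zero_smul]; rfl)))
  refine ⟨a * a₀⁻¹, (sub_eq_zero.mp (hinj _ ?_)).symm⟩
  rw [map_sub, map_smul, ha, ha₀]
  exact sub_eq_zero.mpr (smul_mul_inv_smul a ha₀0 d₀).symm

variable (p) in
/-- Corestriction from a level of `p`-power index is surjective. -/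
theorem SymbolTower.cor₂_surjective : ∀ (k : ℕ) {G : Type} [Group G] {L : Levels G},
    SymbolTower p L → ∀ {N : Subgroup G} [N.FiniteIndex], L.IsLevel N → N.index = p ^ k →
      Function.Surjective (cor₂ L (triv p G) N) := by
  intro k
  induction k with
  | zero =>
    intro G _ L T N _ hN hk
    exact cor₂_surjective_of_unit (by rw [hk, pow_zero, Nat.cast_one]; exact isUnit_one)
  | succ k ih =>
    intro G _ L T N _ hN hk
    -- reduce to the kernel `M` of a character of order `p` containing `N`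
    obtain ⟨z, hz, hzidx, hNz⟩ := exists_homKer_ge hN hk
    set M := homKer z
    have hM := containsLevel_homKer z
    have hNidx : (N.subgroupOf M).index = p ^ k := by
      have h1 := Subgroup.relIndex_mul_index hNz
      rw [hk, hzidx, pow_succ] at h1
      exact Nat.eq_of_mul_eq_mul_right hp.out.pos h1
    have : (N.subgroupOf M).FiniteIndex :=
      ⟨by rw [hNidx]; exact pow_ne_zero _ hp.out.ne_zero⟩
    refine cor₂_surjective_trans hNz ⟨N, hN, le_rfl⟩ (isSmooth_trivial L)
      (ih (T.sub hM) ⟨N, hN, rfl⟩ hNidx) ?_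
    -- from `M`, corestriction hits a nonzero class of the line `H²`
    obtain ⟨Z, hcorZ, -⟩ := T.symbolData.exists_cor₂_ne_zero z hz
    intro c
    obtain ⟨a, ha⟩ := exists_smul_eq_of_finrank_eq_one T.finrank_H2 hcorZ c
    exact ⟨a • Z, by rw [map_smul, ha]⟩

end Symbol

/-! ### The duality data -/

section Data

variable {p : ℕ} [hp : Fact p.Prime] {G : Type} [Group G] {L : Levels G} {χ : G →* (ZMod p)ˣ}

/-- On a subgroup fixing `χ` the line `χ` maps to the trivial line. -/
lemma charRep_trivial_equivariant {H : Subgroup G} (hχ : ∀ h ∈ H, χ h = 1) :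
    IsEquivariant ((charRep χ).comp H.subtype) (triv p H) (MonoidHom.id H)
      (LinearMap.id : ZMod p →ₗ[ZMod p] ZMod p) := fun h a => by
  change charRep χ (h : G) a = a
  simp [hχ h h.2]

/-- On a subgroup fixing `χ` the trivial line maps to the line `χ`. -/
lemma trivial_charRep_equivariant {H : Subgroup G} (hχ : ∀ h ∈ H, χ h = 1) :
    IsEquivariant (triv p H) ((charRep χ).comp H.subtype) (MonoidHom.id H)
      (LinearMap.id : ZMod p →ₗ[ZMod p] ZMod p) := fun h a => by
  change a = charRep χ (h : G) a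
  simp [hχ h h.2]

/-- Over a subgroup fixing the line, `H²` of the line is that of the trivial one. -/
lemma finrank_H2_of_fix (T : ∀ H : Subgroup G, ContainsLevel L H → (∀ h ∈ H, χ h = 1) →
    SymbolTower p (subLevels L H)) {H : Subgroup G} (hH : ContainsLevel L H)
    (hχ : ∀ h ∈ H, χ h = 1) :
    Module.finrank (ZMod p) (H2 (subLevels L H) ((charRep χ).comp H.subtype)) = 1 := by
  rw [← (T H hH hχ).finrank_H2]
  exact (LinearEquiv.ofBijective _
    (map₂_bijective (charRep_trivial_equivariant hχ) Function.bijective_id)).finrank_eq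

/-- The index of the kernel of `χ` divides `p - 1`. -/
lemma index_ker_dvd (χ : G →* (ZMod p)ˣ) : χ.ker.index ∣ p - 1 := by
  rw [Subgroup.index_ker, ← ZMod.card_units p, ← Nat.card_eq_fintype_card]
  exact Subgroup.card_subgroup_dvd_card _

/-- A divisor of `p - 1` is prime to `p`. -/
lemma not_dvd_of_dvd_pred {n : ℕ} (h : n ∣ p - 1) : ¬ p ∣ n := fun h' => by
  have := Nat.le_of_dvd (by have := hp.out.two_le; omega) (h'.trans h)
  have := hp.out.two_le
  omega

/-- Corestriction to the whole group from any open subgroup is surjective. -/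
theorem cor₂_charRep_surjective (T : ∀ H : Subgroup G, ContainsLevel L H → (∀ h ∈ H, χ h = 1) →
    SymbolTower p (subLevels L H)) (hcs : CharSmooth L χ) {H : Subgroup G} [H.FiniteIndex]
    (hH : ContainsLevel L H) : Function.Surjective (cor₂ L (charRep χ) H) := by
  obtain ⟨N₀, hN₀, hle⟩ := hH
  obtain ⟨N₁, hN₁, hfix⟩ := hcs
  obtain ⟨N, hN, i0, i1⟩ := L.exists_le N₀ N₁ hN₀ hN₁
  have := L.finiteIndex N hN
  refine cor₂_surjective_mono (i0.trans hle) ?_
  obtain ⟨P, k, hNP, hPf, hPd, hPk⟩ := exists_sylow_above (p := p) hN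
  -- `χ` has order prime to `p`, so is trivial on the Sylow subgroup `P`
  have hPχ : ∀ h ∈ P, χ h = 1 := by
    intro h hh
    have hN' : (N.comap P.subtype).Normal := (L.normal N hN).comap _
    have h1 : (⟨h, hh⟩ : P) ^ (p ^ k) ∈ N.comap P.subtype := by
      rw [← hPk, Subgroup.index_eq_card, ← QuotientGroup.eq_one_iff, QuotientGroup.mk_pow]
      exact pow_card_eq_one'
    have h2 : χ h ^ (p ^ k) = 1 := by rw [← map_pow]; exact hfix _ (i1 h1)
    have h3 : orderOf (χ h) ∣ p - 1 := by
      rw [← ZMod.card_units p]; exact orderOf_dvd_card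
    obtain ⟨j, -, hj⟩ := (Nat.dvd_prime_pow hp.out).mp (orderOf_dvd_of_pow_eq_one h2)
    rcases Nat.eq_zero_or_pos j with rfl | hj'
    · exact orderOf_eq_one_iff.mp (by rw [hj, pow_zero])
    · exact absurd ((dvd_pow_self p hj'.ne').trans (hj ▸ dvd_rfl)) (not_dvd_of_dvd_pred h3)
  have hP : ContainsLevel L P := ⟨N, hN, hNP⟩
  have hNf : (N.subgroupOf P).FiniteIndex := ⟨by
    change (N.comap P.subtype).index ≠ 0
    rw [hPk]; exact pow_ne_zero _ hp.out.ne_zero⟩
  refine cor₂_surjective_trans hNP ⟨N, hN, le_rfl⟩ (isSmooth_charRep ⟨N₁, hN₁, hfix⟩) ?_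
    (cor₂_surjective_of_unit (isUnit_index hPd))
  intro c
  have : (N.comap P.subtype).FiniteIndex := hNf
  obtain ⟨d, hd⟩ := SymbolTower.cor₂_surjective p k (T P hP hPχ) ⟨N, hN, rfl⟩ hPk
    (map₂ (IsLevelsHom.id _) (charRep_trivial_equivariant hPχ) c)
  refine ⟨map₂ (IsLevelsHom.id _)
    (indMap_equivariant (H := N.subgroupOf P) (trivial_charRep_equivariant hPχ)) d, ?_⟩
  have hd' := congrArg (map₂ (IsLevelsHom.id _) (trivial_charRep_equivariant hPχ)) hd
  obtain ⟨z, rfl⟩ := cl₂_surjective d
  obtain ⟨w, rfl⟩ := cl₂_surjective c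
  exact hd'

/-- The duality data of a tower. -/
def dualityDataOfTower (hcs : CharSmooth L χ)
    (T : ∀ H : Subgroup G, ContainsLevel L H → (∀ h ∈ H, χ h = 1) → SymbolTower p (subLevels L H))
    (hne : ∃ c : H2 L (charRep χ), c ≠ 0) : DualityData L χ :=
  have hker : ContainsLevel L χ.ker := hcs
  -- every `H²` is at most a line: restrict to the kernel of `χ`, of index prime to `p`
  have hone : ∀ {H : Subgroup G}, ContainsLevel L H →
      Module.finrank (ZMod p) (H2 (subLevels L H) ((charRep χ).comp H.subtype)) ≤ 1 ∧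
      FiniteDimensional (ZMod p) (H2 (subLevels L H) ((charRep χ).comp H.subtype)) :=
    fun {H} hH => by
      set H₁ := χ.ker.subgroupOf H with hH₁
      have hH1 : ContainsLevel (subLevels L H) H₁ := hker.subgroupOf H
      have : H₁.FiniteIndex := hH1.finiteIndex
      have hd : H₁.index ∣ p - 1 := by
        refine dvd_trans ?_ (index_ker_dvd χ)
        exact Subgroup.relIndex_dvd_index_of_normal _ _
      have hinj : Function.Injective (res₂ (subLevels L H) ((charRep χ).comp H.subtype) H₁) :=
        (injective_iff_map_eq_zero _).mpr fun c hc => res₂_eq_zero hH1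
          ((isSmooth_charRep hcs).comp (IsLevelsHom.comap L H.subtype))
          (isUnit_index (not_dvd_of_dvd_pred hd)) hc
      -- identify with a subgroup of `G`
      set H' := H ⊓ χ.ker
      have hH' : ContainsLevel L H' := by
        obtain ⟨N₁, hN₁, h1⟩ := hH
        obtain ⟨N₂, hN₂, h2⟩ := hker
        obtain ⟨N, hN, i1, i2⟩ := L.exists_le N₁ N₂ hN₁ hN₂
        exact ⟨N, hN, le_inf (i1.trans h1) (i2.trans h2)⟩
      let i : H' →* H₁ := MonoidHom.mk' (fun x => ⟨⟨x.1, x.2.1⟩, x.2.2⟩) fun _ _ => rfl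
      let j : H₁ →* H' := MonoidHom.mk' (fun x => ⟨x.1.1, x.1.2, x.2⟩) fun _ _ => rfl
      have hi : IsLevelsHom (subLevels (subLevels L H) H₁) (subLevels L H') i := by
        rintro _ ⟨_, ⟨N, hN, rfl⟩, rfl⟩
        exact ⟨_, ⟨N, hN, rfl⟩, fun x hx => hx⟩
      have hj : IsLevelsHom (subLevels L H') (subLevels (subLevels L H) H₁) j := by
        rintro _ ⟨N, hN, rfl⟩
        exact ⟨_, ⟨_, ⟨N, hN, rfl⟩, rfl⟩, fun x hx => hx⟩
      have hie : IsEquivariant (((charRep χ).comp H.subtype).comp H₁.subtype)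
          ((charRep χ).comp H'.subtype) i (LinearMap.id : ZMod p →ₗ[ZMod p] ZMod p) :=
        fun _ _ => rfl
      have hje : IsEquivariant ((charRep χ).comp H'.subtype)
          (((charRep χ).comp H.subtype).comp H₁.subtype) j
          (LinearMap.id : ZMod p →ₗ[ZMod p] ZMod p) := fun _ _ => rfl
      have hinj' : Function.Injective (map₂ hi hie) :=
        Function.LeftInverse.injective (g := map₂ hj hje) fun c => by
          obtain ⟨z, rfl⟩ := cl₂_surjective c
          rfl
      have h1 := finrank_H2_of_fix T hH' fun h hh => hh.2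
      have : FiniteDimensional (ZMod p) (H2 (subLevels L H') ((charRep χ).comp H'.subtype)) :=
        Module.finite_of_finrank_eq_succ h1
      exact ⟨(LinearMap.finrank_le_finrank_of_injective
          (f := (map₂ hi hie).comp (res₂ _ _ H₁)) (hinj'.comp hinj)).trans h1.le,
        FiniteDimensional.of_injective ((map₂ hi hie).comp (res₂ _ _ H₁)) (hinj'.comp hinj)⟩
  -- the whole group has exactly a line, as some class is nonzero
  have htop : Module.finrank (ZMod p) (H2 L (charRep χ)) = 1 := by
    have hT : ContainsLevel L (⊤ : Subgroup G) := let ⟨N, hN⟩ := L.exists_level; ⟨N, hN, le_top⟩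
    obtain ⟨h1, h2⟩ := hone hT
    have hinj : Function.Injective (res₂ L (charRep χ) ⊤) :=
      (injective_iff_map_eq_zero _).mpr fun c hc => res₂_eq_zero hT (isSmooth_charRep hcs)
        (by rw [Subgroup.index_top, Nat.cast_one]; exact isUnit_one) hc
    have := FiniteDimensional.of_injective (res₂ L (charRep χ) ⊤) hinj
    have h3 := (LinearMap.finrank_le_finrank_of_injective hinj).trans h1
    obtain ⟨c, hc⟩ := hne
    have : Nontrivial (H2 L (charRep χ)) := ⟨c, 0, hc⟩
    have h4 := Module.finrank_pos (R := ZMod p) (M := H2 L (charRep χ))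
    omega
  { charSmooth := hcs
    inv :=
      have := Module.finite_of_finrank_eq_succ htop
      LinearEquiv.ofFinrankEq _ _ (by rw [htop, Module.finrank_self])
    sum_injective := fun H _ hH => by
      have hsurj := cor₂_charRep_surjective T hcs hH
      have hsh := LinearEquiv.ofBijective (shapiro₂ L H (charRep χ))
        (shapiro₂_bijective hH (isSmooth_charRep hcs))
      obtain ⟨h1, h2⟩ := hone hH
      have : FiniteDimensional (ZMod p) (H2 L (indRep H (charRep χ))) :=
        hsh.symm.finiteDimensional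
      have := Module.finite_of_finrank_eq_succ htop
      have h3 : Module.finrank (ZMod p) (H2 L (indRep H (charRep χ))) =
          Module.finrank (ZMod p) (H2 L (charRep χ)) :=
        le_antisymm (htop ▸ (hsh.finrank_eq ▸ h1))
          (LinearMap.finrank_le_finrank_of_surjective hsurj)
      exact (LinearMap.injective_iff_surjective_of_finrank_eq_finrank h3).mpr hsurj
    exists_ne_zero := fun H hH hχ => by
      obtain ⟨c, hc, -, -⟩ := (T H hH hχ).symbolData.exists_generator
      exact ⟨c, hc⟩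
    finite_H1 := fun H hH hχ =>
      haveI := (T H hH hχ).symbolData.finite_H1
      Module.Finite.of_finite
    cup_nondegenerate := fun H hH hχ x hx => by
      obtain ⟨y, hy⟩ := (T H hH hχ).symbolData.exists_sym_ne x hx
      refine ⟨y, ?_⟩
      change sym p _ x y ≠ 0
      rwa [sym_skew, neg_ne_zero] }

end Data

end Fermat.CFT.Coh
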